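import Fermat.Agent.S13lib.DivPolyOut
import Fermat.Agent.Ladder.AddSub
import Fermat.Agent.Ladder.Eval
import Fermat.Agent.Ladder.Book
import Fermat.Agent.Ladder.Map

/-!
# S13 interface (D1), (D2): plug of the ladder torsion polynomial (helper7)

`Ψ := torsPoly P.freyCurveInt ((p - 1) / 2) ∈ ℤ[X]` has degree `(p² - 1) / 2`, leading coefficient
`-p`, and its roots over `ℚ̄` are exactly the `x`-coordinates of the nonzero `p`-torsion points of
the Frey curve.
-/

set_option autoImplicit false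

namespace Fermat.Agent.S13lib

open WeierstrassCurve WeierstrassCurve.Affine WeierstrassCurve.Affine.Point Polynomial
open Fermat.Agent.Ladder

/-- `m = (p - 1) / 2`. -/
def halfP (P : FreyPackage) : ℕ := (P.p - 1) / 2

theorem two_mul_halfP_add_one (P : FreyPackage) : 2 * halfP P + 1 = P.p := by
  have h5 := P.hp5
  have hodd : P.p % 2 = 1 := by
    rcases P.pp.eq_two_or_odd with h | h
    · omega
    · exact h
  unfold halfP
  omega

theorem one_le_halfP (P : FreyPackage) : 1 ≤ halfP P := by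
  have h5 := P.hp5
  unfold halfP
  omega

/-- The ladder torsion polynomial of the Frey curve. -/
noncomputable def freyTorsPoly (P : FreyPackage) : Polynomial ℤ :=
  torsPoly P.freyCurveInt (halfP P)

theorem top_freyTorsPoly (P : FreyPackage) :
    Top (freyTorsPoly P) ((P.p ^ 2 - 1) / 2) (-(P.p : ℤ)) := by
  have h := top_torsPoly P.freyCurveInt (halfP P) (one_le_halfP P)
  have e := two_mul_halfP_add_one P
  refine h.congr ?_ ?_
  · rw [← e]
    have : (2 * halfP P + 1) ^ 2 - 1 = 2 * (2 * halfP P ^ 2 + 2 * halfP P) := by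
      have : (2 * halfP P + 1) ^ 2 = 2 * (2 * halfP P ^ 2 + 2 * halfP P) + 1 := by ring
      omega
    rw [this]
    omega
  · rw [← e]; push_cast; ring

theorem natDegree_freyTorsPoly (P : FreyPackage) :
    (freyTorsPoly P).natDegree = (P.p ^ 2 - 1) / 2 :=
  (top_freyTorsPoly P).natDegree_eq (by
    have := P.hp5
    intro h
    have : (P.p : ℤ) = 0 := by linarith
    omega)

theorem leadingCoeff_freyTorsPoly (P : FreyPackage) :
    (freyTorsPoly P).leadingCoeff = -(P.p : ℤ) :=
  (top_freyTorsPoly P).leadingCoeff_eq (by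
    have := P.hp5
    intro h
    have : (P.p : ℤ) = 0 := by linarith
    omega)

theorem freyTorsPoly_map (P : FreyPackage) :
    (freyTorsPoly P).map (algebraMap ℤ Qb) = torsPoly (P.freyCurve.toAffine⁄Qb) (halfP P) := by
  unfold freyTorsPoly
  rw [← map_torsPoly, freyCurveInt_map_Qb]

theorem freyTorsPoly_eval_eq_zero_iff (P : FreyPackage) (x y : Qb)
    (h : (P.freyCurve.toAffine⁄Qb).Nonsingular x y) :
    P.p • (Point.some x y h : FPt P) = 0 ↔ ((freyTorsPoly P).map (algebraMap ℤ Qb)).eval x = 0 := by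
  have : (P.freyCurve.toAffine⁄Qb).IsElliptic :=
    ⟨isUnit_iff_ne_zero.mpr (freyCurve_Qb_Δ_ne_zero P)⟩
  rw [freyTorsPoly_map]
  have := odd_nsmul_eq_zero_iff (addSubMap_sym2x (P.freyCurve.toAffine⁄Qb)) h (halfP P)
    (one_le_halfP P)
  rw [two_mul_halfP_add_one P] at this
  exact this

/-- **(D1)** `E[p] ≠ 0`. -/
theorem nontrivial_FT (P : FreyPackage) : Nontrivial (FT P) :=
  nontrivial_FT_of_poly P (freyTorsPoly P) (natDegree_freyTorsPoly P)
    (fun x y h hx => (freyTorsPoly_eval_eq_zero_iff P x y h).mpr hx)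

/-- **(D2)** an integer polynomial of degree `(p² - 1) / 2`, leading coefficient not divisible by
`p²`, vanishing at the `x`-coordinates of all nonzero `p`-torsion points. -/
theorem exists_divPoly (P : FreyPackage) : ∃ Ψ : Polynomial ℤ,
    Ψ.natDegree = (P.p ^ 2 - 1) / 2 ∧ ¬ ((P.p : ℤ) ^ 2 ∣ Ψ.leadingCoeff) ∧
    ∀ (x y : Qb) (h : (P.freyCurve.toAffine⁄Qb).Nonsingular x y),
      P.p • (Point.some x y h : FPt P) = 0 → (Ψ.map (algebraMap ℤ Qb)).eval x = 0 := by
  refine exists_divPoly_of_poly P (freyTorsPoly P) (natDegree_freyTorsPoly P) ?_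
    (fun x y h hx => (freyTorsPoly_eval_eq_zero_iff P x y h).mp hx)
  rw [leadingCoeff_freyTorsPoly]
  intro hdvd
  have h5 := P.hp5
  have hp0 : (0 : ℤ) < P.p := by exact_mod_cast (by omega : 0 < P.p)
  have h1 : (P.p : ℤ) ^ 2 ∣ (P.p : ℤ) := (dvd_neg.mp hdvd)
  have h2 := Int.le_of_dvd hp0 h1
  nlinarith

end Fermat.Agent.S13lib
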