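import Mathlib

/-!
# S13 library: linear algebra on a plane over `𝔽_p` (helper1)
-/

set_option autoImplicit false

namespace Fermat.Agent.S13lib

/-- A module over `ZMod p` with `p ^ 2` elements has rank `2`. -/
theorem finrank_eq_two_of_card {p : ℕ} [Fact p.Prime] {V : Type*} [AddCommGroup V]
    [Module (ZMod p) V] (hcard : Nat.card V = p ^ 2) : Module.finrank (ZMod p) V = 2 := by
  have hp : p.Prime := Fact.out
  have : Finite V := Nat.finite_of_card_ne_zero (by rw [hcard]; exact pow_ne_zero _ hp.ne_zero)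
  have h := Module.natCard_eq_pow_finrank (K := ZMod p) (V := V)
  rw [hcard, Nat.card_zmod] at h
  exact (Nat.pow_right_injective hp.two_le h).symm

/-- On a plane over `𝔽_p`, a nilpotent endomorphism (`u² = 0`) preserving a line `N` kills `N`
and maps everything into `N`. -/
theorem la_unipotent {p : ℕ} [Fact p.Prime] {V : Type*} [AddCommGroup V] [Module (ZMod p) V]
    (hcard : Nat.card V = p ^ 2) (N : Submodule (ZMod p) V) (h0 : N ≠ ⊥) (h1 : N ≠ ⊤)
    (u : V →ₗ[ZMod p] V) (huN : ∀ x ∈ N, u x ∈ N) (hu2 : ∀ x, u (u x) = 0) :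
    (∀ x ∈ N, u x = 0) ∧ (∀ x, u x ∈ N) := by
  have hp : p.Prime := Fact.out
  have : Finite V := Nat.finite_of_card_ne_zero (by rw [hcard]; exact pow_ne_zero _ hp.ne_zero)
  have : Module.Finite (ZMod p) V := Module.Finite.of_finite
  have hV : Module.finrank (ZMod p) V = 2 := finrank_eq_two_of_card hcard
  have hNlt : Module.finrank (ZMod p) N < 2 := by
    rw [← hV]
    exact Submodule.finrank_lt h1
  have hNpos : 0 < Module.finrank (ZMod p) N := by
    rw [Module.finrank_pos_iff]
    exact (Submodule.nontrivial_iff_ne_bot).mpr h0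
  have hN1 : Module.finrank (ZMod p) N = 1 := by omega
  -- `u` kills `N`
  have hkill : ∀ x ∈ N, u x = 0 := by
    obtain ⟨n₀, hn₀, hspan⟩ := finrank_eq_one_iff'.mp hN1
    have hun₀ : u (n₀ : V) ∈ N := huN _ n₀.2
    obtain ⟨c, hc⟩ := hspan ⟨u (n₀ : V), hun₀⟩
    have hc' : c • (n₀ : V) = u (n₀ : V) := by
      have := congrArg (Subtype.val) hc
      simpa using this
    have h2 : (c * c) • (n₀ : V) = 0 := by
      have := hu2 (n₀ : V)
      rw [← hc', map_smul, ← hc', smul_smul] at this
      exact this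
    have hn₀' : (n₀ : V) ≠ 0 := fun h => hn₀ (Subtype.ext h)
    have hc0 : c = 0 := by
      rcases smul_eq_zero.mp h2 with h | h
      · exact mul_self_eq_zero.mp h
      · exact absurd h hn₀'
    have hu0 : u (n₀ : V) = 0 := by rw [← hc', hc0, zero_smul]
    intro x hx
    obtain ⟨d, hd⟩ := hspan ⟨x, hx⟩
    have hd' : d • (n₀ : V) = x := by
      have := congrArg (Subtype.val) hd
      simpa using this
    rw [← hd', map_smul, hu0, smul_zero]
  refine ⟨hkill, ?_⟩
  -- `ker u ⊇ N`; if `u x ∉ N` then `ker u` is strictly bigger than `N`, so it is everything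
  intro x
  by_contra hx
  have hle : N ≤ LinearMap.ker u := fun y hy => LinearMap.mem_ker.mpr (hkill y hy)
  have hlt : N < LinearMap.ker u := by
    refine lt_of_le_of_ne hle ?_
    intro heq
    apply hx
    rw [heq]
    exact LinearMap.mem_ker.mpr (hu2 x)
  have hker : Module.finrank (ZMod p) (LinearMap.ker u) = 2 := by
    have h1' := Submodule.finrank_lt_finrank_of_lt hlt
    have h2' := Submodule.finrank_le (LinearMap.ker u)
    omega
  have htop : LinearMap.ker u = ⊤ := Submodule.eq_top_of_finrank_eq (by rw [hker, hV])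
  have : u x = 0 := LinearMap.mem_ker.mp (htop ▸ Submodule.mem_top)
  exact hx (this ▸ N.zero_mem)

end Fermat.Agent.S13lib
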