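import Fermat.Agent.S13lib.Defs
import Fermat.Agent.S13lib.LinAlg

/-!
# S13 library: assembly of the proof from the interface statements (helper1)

`cofixed_of_interfaces` proves the statement of S13 from the interface statements
(I2), (I3), (I4), (I5), (I6), (I7), (D1), (D2') of `NOTES/S13_blueprint.md`, taken as hypotheses.
-/

set_option autoImplicit false

namespace Fermat.Agent.S13lib

open WeierstrassCurve WeierstrassCurve.Affine WeierstrassCurve.Affine.Point

variable (P : FreyPackage)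

/-- The subgroup of `σ` fixing `N` pointwise. -/
def fixN (N : Submodule (ZMod P.p) (FT P)) : Subgroup GQ where
  carrier := {σ | ∀ x ∈ N, σ • x = x}
  one_mem' := fun x _ => one_smul _ x
  mul_mem' := fun {a b} ha hb x hx => by rw [mul_smul, hb x hx, ha x hx]
  inv_mem' := fun {a} ha x hx => by rw [inv_smul_eq_iff]; exact (ha x hx).symm

/-- The subgroup of `σ` acting trivially on `T / N`. -/
def cofixN (N : Submodule (ZMod P.p) (FT P)) : Subgroup GQ where
  carrier := {σ | ∀ x : FT P, σ • x - x ∈ N}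
  one_mem' := fun x => by rw [one_smul, sub_self]; exact N.zero_mem
  mul_mem' := fun {a b} ha hb x => by
    have h := N.add_mem (ha (b • x)) (hb x)
    have e : (a * b) • x - x = (a • (b • x) - b • x) + (b • x - x) := by
      rw [mul_smul]; abel
    rw [e]; exact h
  inv_mem' := fun {a} ha x => by
    have h := N.neg_mem (ha (a⁻¹ • x))
    have e : a⁻¹ • x - x = -(a • (a⁻¹ • x) - a⁻¹ • x) := by
      rw [smul_inv_smul]; abel
    rw [e]; exact h

variable {P}

lemma mem_fixN {N : Submodule (ZMod P.p) (FT P)} {σ : GQ} :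
    σ ∈ fixN P N ↔ ∀ x ∈ N, σ • x = x := Iff.rfl

lemma mem_cofixN {N : Submodule (ZMod P.p) (FT P)} {σ : GQ} :
    σ ∈ cofixN P N ↔ ∀ x : FT P, σ • x - x ∈ N := Iff.rfl

lemma fixN_normal {N : Submodule (ZMod P.p) (FT P)} (hN : IsGaloisStable ℚ N) :
    (fixN P N).Normal := by
  constructor
  intro n hn g x hx
  have h1 : g⁻¹ • x ∈ N := hN g⁻¹ x hx
  rw [mul_smul, mul_smul, hn _ h1, smul_inv_smul]

lemma cofixN_normal {N : Submodule (ZMod P.p) (FT P)} (hN : IsGaloisStable ℚ N) :
    (cofixN P N).Normal := by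
  constructor
  intro n hn g x
  have h1 : n • (g⁻¹ • x) - g⁻¹ • x ∈ N := hn (g⁻¹ • x)
  have h2 := hN g _ h1
  have e : (g * n * g⁻¹) • x - x = g • (n • (g⁻¹ • x) - g⁻¹ • x) := by
    rw [mul_smul, mul_smul, smul_sub, smul_inv_smul]
  rw [e]; exact h2

/-- The coordinates of a point. -/
def coords : FPt P → Set Qb
  | .zero => ∅
  | .some x y _ => {x, y}

lemma coords_finite (x : FPt P) : (coords x).Finite := by
  rcases x with _ | ⟨x, y, h⟩
  · exact Set.finite_empty
  · exact (Set.finite_singleton y).insert x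

lemma smul_eq_of_fix_coords (σ : GQ) (x : FPt P) (h : ∀ a ∈ coords x, σ a = a) : σ • x = x := by
  rcases x with _ | ⟨x, y, hxy⟩
  · rfl
  · have hx : σ x = x := h x (by simp [coords])
    have hy : σ y = y := h y (by simp [coords])
    rw [algEquiv_smul_def, Point.map_some]
    congr 1

/-- Both subgroups are open: they contain the fixing subgroup of a number field. -/
lemma exists_field_fixing [Finite (FT P)] :
    ∃ F : IntermediateField ℚ Qb, FiniteDimensional ℚ F ∧
      ∀ σ ∈ F.fixingSubgroup, ∀ x : FT P, σ • x = x := by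
  set S : Set Qb := ⋃ x : FT P, coords (x : FPt P) with hS
  have hSfin : S.Finite := Set.finite_iUnion fun x => coords_finite _
  have : Finite S := hSfin.to_subtype
  have halg : Algebra.IsAlgebraic ℚ Qb := AlgebraicClosure.isAlgebraic ℚ
  refine ⟨IntermediateField.adjoin ℚ S,
    IntermediateField.finiteDimensional_adjoin fun a _ =>
      (Algebra.IsAlgebraic.isAlgebraic (R := ℚ) a).isIntegral, ?_⟩
  intro σ hσ x
  apply Subtype.ext
  apply smul_eq_of_fix_coords
  intro a ha
  have haS : a ∈ S := Set.mem_iUnion.mpr ⟨x, ha⟩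
  have := (IntermediateField.mem_fixingSubgroup_iff _ _).mp hσ a (IntermediateField.subset_adjoin ℚ S haS)
  exact this

/-- `σ` as a `ZMod p`-linear endomorphism of `T`. -/
noncomputable def galLin (P : FreyPackage) (σ : GQ) : FT P →ₗ[ZMod P.p] FT P :=
  AddMonoidHom.toZModLinearMap P.p (DistribSMul.toAddMonoidHom (FT P) σ)

@[simp] lemma galLin_apply (σ : GQ) (x : FT P) : galLin P σ x = σ • x := rfl

/-- **Assembly.** -/
theorem cofixed_of_interfaces (P : FreyPackage)
    (hD1 : Nontrivial (FT P))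
    (hcard : ∀ N : Submodule (ZMod P.p) (FT P), N ≠ ⊥ → N ≠ ⊤ → Nat.card (FT P) = P.p ^ 2)
    (hGD : ∀ N : Submodule (ZMod P.p) (FT P), IsGaloisStable ℚ N → N ≠ ⊥ → N ≠ ⊤ →
      (∀ A : ValuationSubring Qb, A.LiesOverPrime P.p → ∀ x ∈ N, InKer P A (x : FPt P) → x = 0) ∨
      (∀ A : ValuationSubring Qb, A.LiesOverPrime P.p → ∀ x : FT P, x ∉ N →
        ¬ InKer P A (x : FPt P)))
    (hLocP : ∀ A : ValuationSubring Qb, A.LiesOverPrime P.p → ∀ σ ∈ A.inertiaSubgroupIn ℚ,
      ∀ x : FT P, InKer P A ((σ • x - x : FT P) : FPt P))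
    (hLoc2 : ∀ A : ValuationSubring Qb, A.LiesOverPrime 2 → ∀ σ ∈ A.inertiaSubgroupIn ℚ,
      ∀ x : FT P, σ • (σ • x - x) - (σ • x - x) = 0)
    (hLocq : ∀ q : ℕ, q.Prime → q ≠ 2 → q ≠ P.p → P.GaloisRepUnramifiedAt q)
    (hMink : ∀ H : Subgroup GQ, H.Normal →
      (∃ F : IntermediateField ℚ Qb, FiniteDimensional ℚ F ∧ F.fixingSubgroup ≤ H) →
      (∀ q : ℕ, q.Prime → ∀ A : ValuationSubring Qb, A.LiesOverPrime q →
        A.inertiaSubgroupIn ℚ ≤ H) → H = ⊤)
    (hRat : ∀ x : FT P, x ≠ 0 → ∃ σ : GQ, σ • x ≠ x)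
    (hred : ¬ GaloisRepIsIrreducible (K := Qb) ℚ P.freyCurve.toAffine P.p) :
    HasGaloisStableCofixedLine (K := Qb) ℚ P.freyCurve.toAffine P.p := by
  have : Fact P.p.Prime := ⟨P.pp⟩
  -- a proper nonzero stable submodule
  obtain ⟨N, hN, h0, h1⟩ : ∃ N : Submodule (ZMod P.p) (FT P),
      IsGaloisStable ℚ N ∧ N ≠ ⊥ ∧ N ≠ ⊤ := by
    by_contra hcon
    apply hred
    refine ⟨hD1, fun N hN => ?_⟩
    by_contra hN'
    rw [not_or] at hN'
    exact hcon ⟨N, hN, hN'.1, hN'.2⟩
  have hc : Nat.card (FT P) = P.p ^ 2 := hcard N h0 h1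
  have : Finite (FT P) :=
    Nat.finite_of_card_ne_zero (by rw [hc]; exact pow_ne_zero _ P.pp.ne_zero)
  obtain ⟨F, hFfin, hFfix⟩ := exists_field_fixing (P := P)
  -- inertia at 2 and at `q ≠ 2, p` lies in both subgroups
  have h2both : ∀ A : ValuationSubring Qb, A.LiesOverPrime 2 → ∀ σ ∈ A.inertiaSubgroupIn ℚ,
      (∀ x ∈ N, σ • x = x) ∧ (∀ x : FT P, σ • x - x ∈ N) := by
    intro A hA σ hσ
    have hu := la_unipotent hc N h0 h1 (galLin P σ - 1)
      (fun x hx => by
        simp only [LinearMap.sub_apply, galLin_apply, Module.End.one_apply]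
        exact N.sub_mem (hN σ x hx) hx)
      (fun x => by
        simp only [LinearMap.sub_apply, galLin_apply, Module.End.one_apply]
        exact hLoc2 A hA σ hσ x)
    refine ⟨fun x hx => ?_, fun x => ?_⟩
    · have := hu.1 x hx
      simp only [LinearMap.sub_apply, galLin_apply, Module.End.one_apply] at this
      exact sub_eq_zero.mp this
    · have := hu.2 x
      simpa only [LinearMap.sub_apply, galLin_apply, Module.End.one_apply] using this
  have hqfix : ∀ q : ℕ, q.Prime → q ≠ 2 → q ≠ P.p → ∀ A : ValuationSubring Qb,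
      A.LiesOverPrime q → ∀ σ ∈ A.inertiaSubgroupIn ℚ, ∀ x : FT P, σ • x = x :=
    fun q hq hq2 hqp A hA σ hσ x => hLocq q hq hq2 hqp A hA σ hσ x
  rcases hGD N hN h0 h1 with hcase | hcase
  · -- Case 1: inertia fixes `N` pointwise everywhere, so `G_ℚ` fixes `N`: contradiction
    exfalso
    have htop : fixN P N = ⊤ := by
      refine hMink _ (fixN_normal hN) ⟨F, hFfin, fun σ hσ x _ => hFfix σ hσ x⟩ ?_
      intro q hq A hA σ hσ
      by_cases hq2 : q = 2
      · subst hq2
        exact (h2both A hA σ hσ).1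
      by_cases hqp : q = P.p
      · subst hqp
        intro x hx
        have hk := hLocP A hA σ hσ x
        have hmem : σ • x - x ∈ N := N.sub_mem (hN σ x hx) hx
        exact sub_eq_zero.mp (hcase A hA _ hmem hk)
      · exact fun x _ => hqfix q hq hq2 hqp A hA σ hσ x
    obtain ⟨x, hxN, hx0⟩ := (Submodule.ne_bot_iff N).mp h0
    obtain ⟨σ, hσ⟩ := hRat x hx0
    have : σ ∈ fixN P N := htop ▸ Subgroup.mem_top σ
    exact hσ (this x hxN)
  · -- Case 2: inertia acts trivially on `T / N` everywhere: `N` is cofixed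
    have htop : cofixN P N = ⊤ := by
      refine hMink _ (cofixN_normal hN) ⟨F, hFfin, fun σ hσ x => ?_⟩ ?_
      · rw [hFfix σ hσ x, sub_self]; exact N.zero_mem
      intro q hq A hA σ hσ
      by_cases hq2 : q = 2
      · subst hq2
        exact (h2both A hA σ hσ).2
      by_cases hqp : q = P.p
      · subst hqp
        intro x
        by_contra hx
        exact hcase A hA _ hx (hLocP A hA σ hσ x)
      · intro x
        rw [hqfix q hq hq2 hqp A hA σ hσ x, sub_self]
        exact N.zero_mem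
    refine ⟨N, hN, h0, h1, fun σ x => ?_⟩
    have : σ ∈ cofixN P N := htop ▸ Subgroup.mem_top σ
    exact this x

end Fermat.Agent.S13lib
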