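import Mathlib

/-!
# S13 library: a Gauss-lemma dichotomy (helper1)

If `Ψ ∈ ℤ[X]` has leading coefficient not divisible by `p ^ 2` and `Ψ = lc · f · g` with `f, g ∈ ℚ[X]`
monic, then one of `f`, `g` is (up to an integer factor prime to `p`) an integer polynomial.
-/

set_option autoImplicit false

namespace Fermat.Agent.S13lib

open Polynomial

/-- Every nonzero rational polynomial is a nonzero rational multiple of a primitive integer
polynomial. -/
lemma exists_primitive_lift (f : ℚ[X]) (hf : f ≠ 0) :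
    ∃ (F : ℤ[X]) (c : ℚ), c ≠ 0 ∧ F.IsPrimitive ∧ F.map (Int.castRingHom ℚ) = C c * f := by
  obtain ⟨b, hb, hspec⟩ := IsLocalization.integerNormalization_spec (nonZeroDivisors ℤ) f
  set F₀ := IsLocalization.integerNormalization (nonZeroDivisors ℤ) f with hF₀
  have hb0 : b ≠ 0 := nonZeroDivisors.ne_zero hb
  have hF₀ne : F₀ ≠ 0 := by
    intro h
    rw [h, Polynomial.map_zero] at hspec
    have : (b : ℤ) • f = 0 := hspec.symm
    rcases smul_eq_zero.mp this with h1 | h1
    · exact hb0 h1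
    · exact hf h1
  have hcont : F₀.content ≠ 0 := by
    rw [Ne, content_eq_zero_iff]; exact hF₀ne
  refine ⟨F₀.primPart, (b : ℚ) / (F₀.content : ℚ), ?_, isPrimitive_primPart F₀, ?_⟩
  · exact div_ne_zero (by exact_mod_cast hb0) (by exact_mod_cast hcont)
  · have h1 : F₀.map (Int.castRingHom ℚ) =
        C ((F₀.content : ℤ) : ℚ) * F₀.primPart.map (Int.castRingHom ℚ) := by
      conv_lhs => rw [eq_C_content_mul_primPart F₀]
      rw [Polynomial.map_mul, Polynomial.map_C]
      rfl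
    have h2 : F₀.map (Int.castRingHom ℚ) = C (b : ℚ) * f := by
      have := hspec
      rw [show algebraMap ℤ ℚ = Int.castRingHom ℚ from rfl] at this
      rw [this, zsmul_eq_mul]
      simp
    have hc : ((F₀.content : ℤ) : ℚ) ≠ 0 := by exact_mod_cast hcont
    have h3 : C ((F₀.content : ℤ) : ℚ) * F₀.primPart.map (Int.castRingHom ℚ) =
        C ((F₀.content : ℤ) : ℚ) * (C ((b : ℚ) / (F₀.content : ℚ)) * f) := by
      rw [← h1, h2, ← mul_assoc, ← C_mul, mul_div_cancel₀ _ hc]
    exact mul_left_cancel₀ (by rw [Ne, C_eq_zero]; exact hc) h3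

/-- For a monic rational polynomial the multiplier is the leading coefficient of the lift. -/
lemma exists_primitive_lift_monic (f : ℚ[X]) (hf : f.Monic) :
    ∃ F : ℤ[X], F.IsPrimitive ∧ F ≠ 0 ∧
      F.map (Int.castRingHom ℚ) = C (F.leadingCoeff : ℚ) * f := by
  obtain ⟨F, c, hc, hprim, hF⟩ := exists_primitive_lift f hf.ne_zero
  have hF0 : F ≠ 0 := hprim.ne_zero
  refine ⟨F, hprim, hF0, ?_⟩
  have hlc : (F.map (Int.castRingHom ℚ)).leadingCoeff = (F.leadingCoeff : ℚ) := by
    rw [leadingCoeff_map_of_injective (RingHom.injective_int (Int.castRingHom ℚ))]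
    rfl
  have hlc' : (C c * f).leadingCoeff = c := by
    rw [leadingCoeff_mul, leadingCoeff_C, hf.leadingCoeff, mul_one]
  rw [hF] at hlc
  rw [hF, ← hlc, hlc']

/-- **Gauss dichotomy.** -/
theorem gauss_split {p : ℕ} (Ψ : ℤ[X])
    (hlc : ¬ ((p : ℤ) ^ 2 ∣ Ψ.leadingCoeff))
    (f g : ℚ[X]) (hf : f.Monic) (hg : g.Monic)
    (hfg : Ψ.map (Int.castRingHom ℚ) = C (Ψ.leadingCoeff : ℚ) * f * g) :
    (∃ F : ℤ[X], F ≠ 0 ∧ ¬ ((p : ℤ) ∣ F.leadingCoeff) ∧
        F.map (Int.castRingHom ℚ) = C (F.leadingCoeff : ℚ) * f) ∨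
    (∃ G : ℤ[X], G ≠ 0 ∧ ¬ ((p : ℤ) ∣ G.leadingCoeff) ∧
        G.map (Int.castRingHom ℚ) = C (G.leadingCoeff : ℚ) * g) := by
  obtain ⟨F, hFprim, hF0, hF⟩ := exists_primitive_lift_monic f hf
  obtain ⟨G, hGprim, hG0, hG⟩ := exists_primitive_lift_monic g hg
  by_cases hpF : (p : ℤ) ∣ F.leadingCoeff
  · by_cases hpG : (p : ℤ) ∣ G.leadingCoeff
    · exfalso
      apply hlc
      -- `C ℓ * (F * G) = C (lc F * lc G) * Ψ`
      have hinj : Function.Injective (Polynomial.map (Int.castRingHom ℚ)) :=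
        Polynomial.map_injective _ (RingHom.injective_int (Int.castRingHom ℚ))
      have key : C Ψ.leadingCoeff * (F * G) = C (F.leadingCoeff * G.leadingCoeff) * Ψ := by
        apply hinj
        simp only [Polynomial.map_mul, Polynomial.map_C, hF, hG, hfg]
        simp only [eq_intCast, Int.cast_mul, C_mul]
        ring
      have hdvd : (p : ℤ) ^ 2 ∣ F.leadingCoeff * G.leadingCoeff := by
        rw [pow_two]; exact mul_dvd_mul hpF hpG
      have h1 : C ((p : ℤ) ^ 2) ∣ C Ψ.leadingCoeff * (F * G) := by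
        rw [key]
        exact Dvd.dvd.mul_right (map_dvd C hdvd) _
      have h2 : (p : ℤ) ^ 2 ∣ (C Ψ.leadingCoeff * (F * G)).content :=
        (dvd_content_iff_C_dvd).mpr h1
      rw [content_C_mul, (hFprim.mul hGprim).content_eq_one, mul_one] at h2
      exact (dvd_normalize_iff).mp h2
    · exact Or.inr ⟨G, hG0, hpG, hG⟩
  · exact Or.inl ⟨F, hF0, hpF, hF⟩

end Fermat.Agent.S13lib
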