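import Mathlib
import Fermat.Prelude.Def_FLTPrelim_Ramification

/-!
# S13, step 4 (case `d = 2`): the valuation budget

If `f ∈ ℤ[X]` splits over `ℚ̄` as `ℓ ∏_{r ∈ R} (X - r)` with all roots outside a valuation
subring `A` over `p`, and a nonempty proper subset `S ⊂ R` is stable under the absolute Galois
group, then `v(ℓ) < v(p)`. Applied to `f = preΨ_p` of an integral model (`ℓ = p`), `R` the
`x`-coordinates of the nonzero `p`-torsion points and `S` those of a Galois stable line, this shows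
that not all `p`-torsion points lie in the kernel of reduction.
-/

set_option autoImplicit false

namespace Fermat.Agent.S13lib

open Polynomial

/-- An integer is in every valuation subring. -/
lemma bud_val_int_le_one (A : ValuationSubring (AlgebraicClosure ℚ)) (n : ℤ) :
    A.valuation (n : AlgebraicClosure ℚ) ≤ 1 :=
  (A.valuation_le_one_iff _).mpr (intCast_mem A n)

/-- An integer prime to `p` is a unit in a valuation subring over `p`. -/
lemma bud_val_int_eq_one (A : ValuationSubring (AlgebraicClosure ℚ)) (p : ℕ) (hp : p.Prime)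
    (hA : A.LiesOverPrime p) (b : ℤ) (hb : ¬ (p : ℤ) ∣ b) :
    A.valuation (b : AlgebraicClosure ℚ) = 1 := by
  have hcop : IsCoprime b (p : ℤ) := by
    rw [isCoprime_comm]
    exact (Nat.prime_iff_prime_int.mp hp).coprime_iff_not_dvd.mpr hb
  obtain ⟨u, w, huw⟩ := hcop
  have hp1 : A.valuation (p : AlgebraicClosure ℚ) < 1 := A.mem_nonunits_iff.mp hA
  have hwp : A.valuation ((w : AlgebraicClosure ℚ) * (p : AlgebraicClosure ℚ)) < 1 := by
    rw [map_mul]
    calc A.valuation (w : AlgebraicClosure ℚ) * A.valuation (p : AlgebraicClosure ℚ)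
        ≤ 1 * A.valuation (p : AlgebraicClosure ℚ) :=
          mul_le_mul' (bud_val_int_le_one A w) le_rfl
      _ = A.valuation (p : AlgebraicClosure ℚ) := one_mul _
      _ < 1 := hp1
  have hub : (u : AlgebraicClosure ℚ) * (b : AlgebraicClosure ℚ)
      = 1 - (w : AlgebraicClosure ℚ) * (p : AlgebraicClosure ℚ) := by
    have := congrArg (fun z : ℤ => (z : AlgebraicClosure ℚ)) huw
    simp only [Int.cast_add, Int.cast_mul, Int.cast_natCast, Int.cast_one] at this
    rw [← this]; ring
  have h1 : A.valuation ((u : AlgebraicClosure ℚ) * (b : AlgebraicClosure ℚ)) = 1 := by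
    rw [hub]; exact A.valuation.map_one_sub_of_lt hwp
  rw [map_mul] at h1
  refine le_antisymm (bud_val_int_le_one A b) ?_
  calc (1 : A.ValueGroup) = A.valuation (u : AlgebraicClosure ℚ) * A.valuation (b : AlgebraicClosure ℚ) :=
        h1.symm
    _ ≤ 1 * A.valuation (b : AlgebraicClosure ℚ) := mul_le_mul' (bud_val_int_le_one A u) le_rfl
    _ = A.valuation (b : AlgebraicClosure ℚ) := one_mul _

/-- A rational number in the maximal ideal of a valuation subring over `p` has valuation at most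
that of `p`. -/
lemma bud_val_rat_le (A : ValuationSubring (AlgebraicClosure ℚ)) (p : ℕ) (hp : p.Prime)
    (hA : A.LiesOverPrime p) (q : ℚ)
    (hq : A.valuation (algebraMap ℚ (AlgebraicClosure ℚ) q) < 1) :
    A.valuation (algebraMap ℚ (AlgebraicClosure ℚ) q) ≤ A.valuation (p : AlgebraicClosure ℚ) := by
  have hden0 : (q.den : ℤ) ≠ 0 := by exact_mod_cast q.den_nz
  have hqq : algebraMap ℚ (AlgebraicClosure ℚ) q
      = (q.num : AlgebraicClosure ℚ) / ((q.den : ℤ) : AlgebraicClosure ℚ) := by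
    conv_lhs => rw [← Rat.num_div_den q]
    simp
  rw [hqq, map_div₀] at hq ⊢
  by_cases hpn : (p : ℤ) ∣ q.num
  · -- `p ∣ num`, hence `p ∤ den`
    have hpd : ¬ (p : ℤ) ∣ (q.den : ℤ) := by
      intro hpd
      have h1 : (p : ℤ) ∣ Int.gcd q.num (q.den : ℤ) := Int.dvd_coe_gcd hpn hpd
      have h2 : Int.gcd q.num (q.den : ℤ) = 1 := by
        have := q.reduced
        simpa [Int.gcd, Nat.Coprime] using this
      rw [h2] at h1
      have : (p : ℤ) ∣ 1 := by exact_mod_cast h1
      have hp1 := Int.eq_one_of_dvd_one (by positivity) this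
      have : p = 1 := by exact_mod_cast hp1
      exact hp.one_lt.ne' this
    rw [bud_val_int_eq_one A p hp hA _ hpd, div_one]
    obtain ⟨a', ha'⟩ := hpn
    rw [ha']
    push_cast
    rw [map_mul]
    calc A.valuation (p : AlgebraicClosure ℚ) * A.valuation (a' : AlgebraicClosure ℚ)
        ≤ A.valuation (p : AlgebraicClosure ℚ) * 1 := mul_le_mul' le_rfl (bud_val_int_le_one A a')
      _ = A.valuation (p : AlgebraicClosure ℚ) := mul_one _
  · -- `p ∤ num`: then `v(q) ≥ 1`, impossible
    exfalso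
    rw [bud_val_int_eq_one A p hp hA _ hpn] at hq
    have hd := bud_val_int_le_one A (q.den : ℤ)
    have hd0 : A.valuation (((q.den : ℤ) : AlgebraicClosure ℚ)) ≠ 0 := by
      rw [Ne, map_eq_zero]
      exact_mod_cast q.den_nz
    rw [div_lt_iff₀ (zero_lt_iff.mpr hd0), one_mul] at hq
    exact absurd hd (not_le.mpr hq)

/-- A finite product of elements of valuation `> 1`. -/
lemma bud_one_le_prod (A : ValuationSubring (AlgebraicClosure ℚ)) (T : Finset (AlgebraicClosure ℚ))
    (hT : ∀ r ∈ T, 1 < A.valuation r) : 1 ≤ ∏ r ∈ T, A.valuation r := by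
  classical
  induction T using Finset.induction_on with
  | empty => simp
  | insert a s ha ih =>
    rw [Finset.prod_insert ha]
    have h1 := hT a (Finset.mem_insert_self a s)
    have h2 := ih (fun r hr => hT r (Finset.mem_insert_of_mem hr))
    calc (1 : A.ValueGroup) = 1 * 1 := (one_mul 1).symm
      _ ≤ A.valuation a * ∏ r ∈ s, A.valuation r := mul_le_mul' h1.le h2

lemma bud_one_lt_prod (A : ValuationSubring (AlgebraicClosure ℚ)) (T : Finset (AlgebraicClosure ℚ))
    (hT : ∀ r ∈ T, 1 < A.valuation r) (hne : T.Nonempty) : 1 < ∏ r ∈ T, A.valuation r := by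
  classical
  obtain ⟨a, ha⟩ := hne
  rw [← Finset.mul_prod_erase T _ ha]
  have h1 := hT a ha
  have h2 := bud_one_le_prod A (T.erase a) (fun r hr => hT r (Finset.mem_of_mem_erase hr))
  calc (1 : A.ValueGroup) < A.valuation a := h1
    _ = A.valuation a * 1 := (mul_one _).symm
    _ ≤ A.valuation a * ∏ r ∈ T.erase a, A.valuation r := mul_le_mul' le_rfl h2

/-- The product over a Galois stable finite set is rational. -/
lemma bud_prod_rational (S : Finset (AlgebraicClosure ℚ))
    (hS : ∀ σ : AlgebraicClosure ℚ ≃ₐ[ℚ] AlgebraicClosure ℚ, ∀ s ∈ S, σ s ∈ S) :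
    ∃ q : ℚ, algebraMap ℚ (AlgebraicClosure ℚ) q = ∏ s ∈ S, s := by
  classical
  have hgal : IsGalois ℚ (AlgebraicClosure ℚ) :=
    (inferInstance : @IsGalois ℚ _ (AlgebraicClosure ℚ) _ (AlgebraicClosure.instAlgebra ℚ))
  apply (InfiniteGalois.mem_range_algebraMap_iff_fixed (k := ℚ) (K := AlgebraicClosure ℚ) _).mpr
  intro σ
  rw [map_prod]
  have himg : S.image (fun s => σ s) = S := by
    apply Finset.eq_of_subset_of_card_le
    · intro x hx
      obtain ⟨s, hs, rfl⟩ := Finset.mem_image.mp hx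
      exact hS σ s hs
    · rw [Finset.card_image_of_injective S σ.injective]
  calc ∏ s ∈ S, σ s = ∏ s ∈ S.image (fun s => σ s), s :=
        (Finset.prod_image (f := fun s => s) (fun a _ b _ hab => σ.injective hab)).symm
    _ = ∏ s ∈ S, s := by rw [himg]

/-- **The valuation budget.** -/
theorem budget (A : ValuationSubring (AlgebraicClosure ℚ)) (p : ℕ) (hp : p.Prime)
    (hA : A.LiesOverPrime p) (f : Polynomial ℤ) (ℓ : ℤ) (R : Finset (AlgebraicClosure ℚ))
    (hf : f.map (algebraMap ℤ (AlgebraicClosure ℚ))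
      = C (ℓ : AlgebraicClosure ℚ) * ∏ r ∈ R, (X - C r))
    (hR : ∀ r ∈ R, r ∉ A)
    (S : Finset (AlgebraicClosure ℚ)) (hSR : S ⊂ R) (hSne : S.Nonempty)
    (hS : ∀ σ : AlgebraicClosure ℚ ≃ₐ[ℚ] AlgebraicClosure ℚ, ∀ s ∈ S, σ s ∈ S) :
    A.valuation (ℓ : AlgebraicClosure ℚ) < A.valuation (p : AlgebraicClosure ℚ) := by
  classical
  have hv : ∀ r ∈ R, 1 < A.valuation r := fun r hr => by
    rw [← not_le, A.valuation_le_one_iff]
    exact hR r hr
  -- evaluate at `0`
  have h0 : ((f.eval 0 : ℤ) : AlgebraicClosure ℚ)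
      = (ℓ : AlgebraicClosure ℚ) * ∏ r ∈ R, (-r) := by
    have := congrArg (Polynomial.eval 0) hf
    rw [Polynomial.eval_map, Polynomial.eval_mul, Polynomial.eval_C, Polynomial.eval_prod] at this
    simp only [Polynomial.eval_sub, Polynomial.eval_X, Polynomial.eval_C, zero_sub] at this
    rw [← this, Polynomial.eval₂_at_zero, Polynomial.coeff_zero_eq_eval_zero]
    simp
  have h1 : A.valuation (ℓ : AlgebraicClosure ℚ) * ∏ r ∈ R, A.valuation r ≤ 1 := by
    have := bud_val_int_le_one A (f.eval 0)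
    rw [h0, map_mul, map_prod] at this
    simpa only [Valuation.map_neg] using this
  -- the product over `S`
  obtain ⟨q, hq⟩ := bud_prod_rational S hS
  have hSv : 1 < ∏ s ∈ S, A.valuation s :=
    bud_one_lt_prod A S (fun s hs => hv s (hSR.subset hs)) hSne
  have hqinv : A.valuation (algebraMap ℚ (AlgebraicClosure ℚ) q⁻¹) < 1 := by
    rw [map_inv₀, hq, map_inv₀, map_prod]
    exact inv_lt_one_of_one_lt₀ hSv
  have hle := bud_val_rat_le A p hp hA q⁻¹ hqinv
  rw [map_inv₀, hq, map_inv₀, map_prod] at hle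
  -- the rest
  have hne : (R \ S).Nonempty := by
    rw [Finset.nonempty_iff_ne_empty, Ne, Finset.sdiff_eq_empty_iff_subset]
    exact hSR.2
  have hrest : 1 < ∏ r ∈ R \ S, A.valuation r :=
    bud_one_lt_prod A (R \ S) (fun r hr => hv r (Finset.mem_sdiff.mp hr).1) hne
  have hprod : (∏ r ∈ R \ S, A.valuation r) * ∏ s ∈ S, A.valuation s = ∏ r ∈ R, A.valuation r :=
    Finset.prod_sdiff hSR.subset
  have hp0 : A.valuation (p : AlgebraicClosure ℚ) ≠ 0 := by
    rw [Ne, map_eq_zero]
    exact_mod_cast hp.ne_zero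
  have hS0 : (∏ s ∈ S, A.valuation s) ≠ 0 := (zero_lt_one.trans hSv).ne'
  -- `v(p)⁻¹ ≤ ∏_S`
  have hle' : (A.valuation (p : AlgebraicClosure ℚ))⁻¹ ≤ ∏ s ∈ S, A.valuation s := by
    have := (inv_le_inv₀ (zero_lt_iff.mpr hp0) (inv_pos.mpr (zero_lt_iff.mpr hS0))).mpr hle
    rwa [inv_inv] at this
  -- `v(p)⁻¹ < ∏_R`
  have hlt : (A.valuation (p : AlgebraicClosure ℚ))⁻¹ < ∏ r ∈ R, A.valuation r := by
    rw [← hprod]
    calc (A.valuation (p : AlgebraicClosure ℚ))⁻¹ ≤ ∏ s ∈ S, A.valuation s := hle'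
      _ = 1 * ∏ s ∈ S, A.valuation s := (one_mul _).symm
      _ < (∏ r ∈ R \ S, A.valuation r) * ∏ s ∈ S, A.valuation s :=
          mul_lt_mul_of_pos_right hrest (zero_lt_iff.mpr hS0)
  -- conclude
  by_contra hcon
  rw [not_lt] at hcon
  have hR0 : (0 : A.ValueGroup) < ∏ r ∈ R, A.valuation r :=
    lt_of_le_of_lt zero_le hlt
  have : (1 : A.ValueGroup) < A.valuation (ℓ : AlgebraicClosure ℚ) * ∏ r ∈ R, A.valuation r := by
    calc (1 : A.ValueGroup)
        = A.valuation (p : AlgebraicClosure ℚ) * (A.valuation (p : AlgebraicClosure ℚ))⁻¹ :=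
          (mul_inv_cancel₀ hp0).symm
      _ < A.valuation (p : AlgebraicClosure ℚ) * ∏ r ∈ R, A.valuation r :=
          mul_lt_mul_of_pos_left hlt (zero_lt_iff.mpr hp0)
      _ ≤ A.valuation (ℓ : AlgebraicClosure ℚ) * ∏ r ∈ R, A.valuation r :=
          mul_le_mul' hcon le_rfl
  exact absurd h1 (not_le.mpr this)

end Fermat.Agent.S13lib
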