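import Fermat.Agent.S13lib.Defs
import Fermat.Agent.S13lib.Budget

/-!
# S13: auxiliary lemmas for the Gauss dichotomy (I2)

* (G2) `mem_of_root_of_lift`: roots of an integer polynomial whose leading coefficient is prime to
  `p` lie in every valuation subring over `p`.
* (G3) `exists_rat_poly_of_stable`: the product `∏ (X - r)` over a Galois stable finite set has
  rational coefficients.
-/

set_option autoImplicit false

namespace Fermat.Agent.S13lib

open Polynomial

/-- (G2) roots of an integer polynomial with leading coefficient prime to `p` lie in every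
valuation ring over `p`. -/
theorem mem_of_root_of_lift (A : ValuationSubring Qb) {p : ℕ} (hp : p.Prime)
    (hA : A.LiesOverPrime p) (F : ℤ[X]) (hF0 : F ≠ 0) (hF : ¬ ((p : ℤ) ∣ F.leadingCoeff))
    (r : Qb) (hr : (F.map (algebraMap ℤ Qb)).eval r = 0) : r ∈ A := by
  have _ := hF0
  have haeval : aeval r F = 0 := by
    rw [← hr, Polynomial.eval_map]
    rfl
  have hint : IsIntegral ℤ (F.leadingCoeff • r) := isIntegral_leadingCoeff_smul F r haeval
  have hmem : F.leadingCoeff • r ∈ A := mem_valuationSubring_of_isIntegral A hint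
  have hv : A.valuation ((F.leadingCoeff : Qb) * r) ≤ 1 := by
    rw [A.valuation_le_one_iff]
    have : F.leadingCoeff • r = (F.leadingCoeff : Qb) * r := by
      rw [zsmul_eq_mul]
    rwa [this] at hmem
  rw [map_mul, bud_val_int_eq_one A p hp hA _ hF, one_mul] at hv
  exact (A.valuation_le_one_iff r).mp hv

/-- (G3) Galois descent of a stable product. -/
theorem exists_rat_poly_of_stable (S : Finset Qb) (hS : ∀ σ : GQ, ∀ s ∈ S, σ s ∈ S) :
    ∃ f : ℚ[X], f.Monic ∧ f.map (algebraMap ℚ Qb) = ∏ r ∈ S, (X - C r) := by
  classical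
  have hgal : IsGalois ℚ Qb :=
    (inferInstance : @IsGalois ℚ _ (AlgebraicClosure ℚ) _ (AlgebraicClosure.instAlgebra ℚ))
  set g : Qb[X] := ∏ r ∈ S, (X - C r) with hg
  have hmonic : g.Monic := monic_prod_of_monic _ _ fun r _ => monic_X_sub_C r
  -- `g` is fixed by every `σ`
  have hfix : ∀ σ : GQ, g.map (σ : Qb →+* Qb) = g := by
    intro σ
    rw [hg, Polynomial.map_prod]
    have himg : S.image (fun s => σ s) = S := by
      apply Finset.eq_of_subset_of_card_le
      · intro x hx
        obtain ⟨s, hs, rfl⟩ := Finset.mem_image.mp hx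
        exact hS σ s hs
      · rw [Finset.card_image_of_injective S σ.injective]
    calc ∏ r ∈ S, (X - C r).map (σ : Qb →+* Qb)
        = ∏ r ∈ S, (X - C (σ r)) := by
          refine Finset.prod_congr rfl fun r _ => ?_
          simp
      _ = ∏ r ∈ S.image (fun s => σ s), (X - C r) :=
          (Finset.prod_image (f := fun r => (X - C r : Qb[X]))
            (fun a _ b _ hab => σ.injective hab)).symm
      _ = ∏ r ∈ S, (X - C r) := by rw [himg]
  have hlifts : g ∈ Polynomial.lifts (algebraMap ℚ Qb) := by
    rw [Polynomial.lifts_iff_coeff_lifts]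
    intro n
    apply (InfiniteGalois.mem_range_algebraMap_iff_fixed (k := ℚ) (K := Qb) _).mpr
    intro σ
    have := congrArg (fun q : Qb[X] => q.coeff n) (hfix σ)
    simpa [Polynomial.coeff_map] using this
  obtain ⟨q, hq, -, hqm⟩ := Polynomial.lifts_and_natDegree_eq_and_monic hlifts hmonic
  exact ⟨q, hqm, hq⟩

end Fermat.Agent.S13lib
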