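import Fermat.Agent.S13lib.Defs

/-!
# S13 library, piece G4a (helper26): the two-to-one `x`-coordinate map

* `xco P Q` : the `x`-coordinate of a point of the Frey curve (`0` for `O`);
* `eq_or_eq_neg_of_xco_eq` : two nonzero points with the same `x` are equal or opposite;
* `ne_neg_of_torsion` : a nonzero `p`-torsion point is not its own negative;
* `xco_smul` : Galois acts on `x`-coordinates;
* `finite_FT_of_xco` : if the `x`-coordinates of the nonzero `p`-torsion points lie in a finite
  set `S`, then the `p`-torsion is finite of cardinality `≤ 2 #S + 1`.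
-/

set_option autoImplicit false

namespace Fermat.Agent.S13lib

open WeierstrassCurve WeierstrassCurve.Affine WeierstrassCurve.Affine.Point

/-- the x-coordinate of a point (0 for O) -/
noncomputable def xco (P : FreyPackage) : FPt P → Qb
  | .zero => 0
  | .some x _ _ => x

@[simp] theorem xco_zero (P : FreyPackage) : xco P (0 : FPt P) = 0 := rfl

@[simp] theorem xco_some (P : FreyPackage) {x y : Qb}
    (h : (P.freyCurve.toAffine⁄Qb).Nonsingular x y) : xco P (Point.some x y h) = x := rfl

@[simp] theorem xco_neg (P : FreyPackage) (Q : FPt P) : xco P (-Q) = xco P Q := by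
  rcases Q with _ | ⟨x, y, h⟩
  · rfl
  · rfl

/-- (a) same `x` ⇒ equal or opposite. -/
theorem eq_or_eq_neg_of_xco_eq (P : FreyPackage) (Q R : FPt P) (hQ : Q ≠ 0) (hR : R ≠ 0)
    (h : xco P Q = xco P R) : Q = R ∨ Q = -R := by
  rcases Q with _ | ⟨x₁, y₁, h₁⟩
  · exact absurd rfl hQ
  rcases R with _ | ⟨x₂, y₂, h₂⟩
  · exact absurd rfl hR
  have hx : x₁ = x₂ := h
  subst hx
  rcases Y_eq_of_X_eq h₁.1 h₂.1 rfl with hy | hy
  · left
    subst hy
    rfl
  · right
    subst hy
    rfl

/-- (b) a nonzero `p`-torsion point is not its own negative (`p` odd). -/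
theorem ne_neg_of_torsion (P : FreyPackage) (x : FT P) (hx : x ≠ 0) : x ≠ -x := by
  intro h
  apply hx
  have h2 : (2 : ℤ) • x = 0 := by
    rw [two_smul]
    nth_rewrite 1 [h]
    exact neg_add_cancel x
  have hp : (P.p : ℤ) • x = 0 := Submodule.smul_torsionBy _ x
  have hodd : Odd P.p := P.pp.odd_of_ne_two (by have := P.hp5; omega)
  obtain ⟨k, hk⟩ := hodd
  have h1 : (1 : ℤ) = (P.p : ℤ) - 2 * k := by
    rw [hk]; push_cast; ring
  calc x = (1 : ℤ) • x := (one_smul _ _).symm
    _ = ((P.p : ℤ) - 2 * k) • x := by rw [← h1]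
    _ = (P.p : ℤ) • x - (k : ℤ) • ((2 : ℤ) • x) := by
        rw [sub_smul, smul_smul, mul_comm]
    _ = 0 := by rw [hp, h2, smul_zero, sub_zero]

/-- (c) Galois acts on `x`-coordinates. -/
theorem xco_smul (P : FreyPackage) (σ : GQ) (Q : FPt P) : xco P (σ • Q) = σ (xco P Q) := by
  rcases Q with _ | ⟨x, y, h⟩
  · exact (map_zero σ).symm
  · rfl

/-- (d) `T` is finite as soon as the `x`-coordinates of its nonzero points lie in a finite set. -/
theorem finite_FT_of_xco (P : FreyPackage) (S : Finset Qb)
    (hS : ∀ x : FT P, x ≠ 0 → xco P (x : FPt P) ∈ S) :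
    Finite (FT P) ∧ Nat.card (FT P) ≤ 2 * S.card + 1 := by
  classical
  -- a representative of each `x`-coordinate
  let r : Qb → FT P := fun s =>
    if h : ∃ x : FT P, x ≠ 0 ∧ xco P (x : FPt P) = s then h.choose else 0
  have hr : ∀ x : FT P, x ≠ 0 → x = r (xco P (x : FPt P)) ∨ x = -r (xco P (x : FPt P)) := by
    intro x hx
    have hex : ∃ z : FT P, z ≠ 0 ∧ xco P (z : FPt P) = xco P (x : FPt P) := ⟨x, hx, rfl⟩
    have hrx : r (xco P (x : FPt P)) = hex.choose := dif_pos hex
    obtain ⟨hz0, hzx⟩ := hex.choose_spec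
    rw [hrx]
    have hx0 : (x : FPt P) ≠ 0 := fun h0 => hx (Subtype.ext h0)
    have hz0' : ((hex.choose : FT P) : FPt P) ≠ 0 := fun h0 => hz0 (Subtype.ext h0)
    rcases eq_or_eq_neg_of_xco_eq P (x : FPt P) (hex.choose : FT P) hx0 hz0' hzx.symm with h | h
    · exact Or.inl (Subtype.ext h)
    · exact Or.inr (Subtype.ext h)
  let f : FT P → Option (S × Bool) := fun x =>
    if h : x = 0 then none
    else some (⟨xco P (x : FPt P), hS x h⟩, decide (x = r (xco P (x : FPt P))))
  have hf : Function.Injective f := by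
    intro x x' hxx'
    by_cases hx : x = 0
    · by_cases hx' : x' = 0
      · rw [hx, hx']
      · simp only [f, dif_pos hx, dif_neg hx'] at hxx'
        exact absurd hxx' (by simp)
    · by_cases hx' : x' = 0
      · simp only [f, dif_pos hx', dif_neg hx] at hxx'
        exact absurd hxx' (by simp)
      · simp only [f, dif_neg hx, dif_neg hx', Option.some.injEq, Prod.mk.injEq,
          Subtype.mk.injEq] at hxx'
        obtain ⟨hco, hdec⟩ := hxx'
        have hdec' : (x = r (xco P (x : FPt P))) ↔ (x' = r (xco P (x' : FPt P))) := by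
          simpa using hdec
        by_cases hxr : x = r (xco P (x : FPt P))
        · have hx'r := hdec'.mp hxr
          rw [hxr, hx'r, hco]
        · have hx'r : ¬ x' = r (xco P (x' : FPt P)) := fun h => hxr (hdec'.mpr h)
          have h1 := (hr x hx).resolve_left hxr
          have h2 := (hr x' hx').resolve_left hx'r
          rw [h1, h2, hco]
  have : Finite (FT P) := Finite.of_injective f hf
  refine ⟨inferInstance, ?_⟩
  calc Nat.card (FT P) ≤ Nat.card (Option (S × Bool)) := Nat.card_le_card_of_injective f hf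
    _ = 2 * S.card + 1 := by
        rw [Nat.card_eq_fintype_card, Fintype.card_option, Fintype.card_prod, Fintype.card_bool,
          Fintype.card_coe, mul_comm]

end Fermat.Agent.S13lib
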