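import Fermat.Agent.S13lib.Defs
import Fermat.Agent.S13lib.LinAlg
import Fermat.Agent.S13lib.Gauss
import Fermat.Agent.S13lib.GaussAux
import Fermat.Agent.S13lib.TwoToOne

/-!
# S13 library: the global Gauss dichotomy (I2) (helper1)

From a torsion polynomial `Ψ` (interface (D2)) we deduce

* `card_FT_le` : `E[p](ℚ̄)` is finite with at most `p²` elements;
* `card_FT_eq` : it has exactly `p²` elements as soon as it has a proper nonzero submodule;
* `gauss_dichotomy` : for a Galois stable proper nonzero `N`, either no nonzero point of `N`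
  reduces to `O` at any place over `p`, or no point outside `N` does.
-/

set_option autoImplicit false

namespace Fermat.Agent.S13lib

open WeierstrassCurve WeierstrassCurve.Affine WeierstrassCurve.Affine.Point Polynomial

/-- the `x`-coordinate of a nonzero `p`-torsion point is a root of `Ψ` -/
theorem xco_root {P : FreyPackage} {Ψ : ℤ[X]}
    (hΨ : ∀ (x y : Qb) (h : (P.freyCurve.toAffine⁄Qb).Nonsingular x y),
      P.p • (Point.some x y h : FPt P) = 0 → (Ψ.map (algebraMap ℤ Qb)).eval x = 0)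
    (x : FT P) (hx : x ≠ 0) : (Ψ.map (algebraMap ℤ Qb)).eval (xco P (x : FPt P)) = 0 := by
  obtain ⟨Q, hQ⟩ := x
  rcases Q with _ | ⟨a, b, h⟩
  · exact absurd (Subtype.ext rfl) hx
  · apply hΨ a b h
    have := (Submodule.mem_torsionBy_iff _ _).mp hQ
    rwa [natCast_zsmul] at this

/-- a nonzero point is not in the kernel of reduction when its `x`-coordinate is in `A` -/
theorem not_inKer_of_xco_mem {P : FreyPackage} (A : ValuationSubring Qb) (Q : FPt P)
    (hQ : Q ≠ 0) (h : xco P Q ∈ A) : ¬ InKer P A Q := by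
  rcases Q with _ | ⟨a, b, hab⟩
  · exact absurd rfl hQ
  · exact fun hk => hk h

theorem half_mul_two {p : ℕ} (hp : p.Prime) (hp2 : p ≠ 2) : 2 * ((p ^ 2 - 1) / 2) + 1 = p ^ 2 := by
  have hodd : Odd p := hp.odd_of_ne_two hp2
  obtain ⟨k, hk⟩ := hodd
  have h1 : p ^ 2 = 2 * (2 * k * k + 2 * k) + 1 := by rw [hk]; ring
  rw [h1]
  omega

theorem map_int_Qb_ne_zero {Ψ : ℤ[X]} (h : Ψ ≠ 0) : Ψ.map (algebraMap ℤ Qb) ≠ 0 :=
  (Polynomial.map_ne_zero_iff (algebraMap ℤ Qb).injective_int).mpr h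

/-- `E[p](ℚ̄)` is finite with at most `p²` elements. -/
theorem card_FT_le (P : FreyPackage) (Ψ : ℤ[X])
    (hdeg : Ψ.natDegree = (P.p ^ 2 - 1) / 2) (h0 : Ψ ≠ 0)
    (hΨ : ∀ (x y : Qb) (h : (P.freyCurve.toAffine⁄Qb).Nonsingular x y),
      P.p • (Point.some x y h : FPt P) = 0 → (Ψ.map (algebraMap ℤ Qb)).eval x = 0) :
    Finite (FT P) ∧ Nat.card (FT P) ≤ P.p ^ 2 := by
  classical
  have hne := map_int_Qb_ne_zero h0
  have h := finite_FT_of_xco P (Ψ.map (algebraMap ℤ Qb)).roots.toFinset (fun x hx => by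
    rw [Multiset.mem_toFinset, mem_roots hne]
    exact xco_root hΨ x hx)
  refine ⟨h.1, h.2.trans ?_⟩
  have h1 : (Ψ.map (algebraMap ℤ Qb)).roots.toFinset.card ≤ (P.p ^ 2 - 1) / 2 := by
    calc (Ψ.map (algebraMap ℤ Qb)).roots.toFinset.card
        ≤ Multiset.card (Ψ.map (algebraMap ℤ Qb)).roots := Multiset.toFinset_card_le _
      _ ≤ (Ψ.map (algebraMap ℤ Qb)).natDegree := card_roots' _
      _ = (P.p ^ 2 - 1) / 2 := by
        rw [natDegree_map_eq_of_injective (algebraMap ℤ Qb).injective_int, hdeg]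
  have h2 := half_mul_two P.pp (by have := P.hp5; omega)
  omega

/-- `E[p](ℚ̄)` has `p²` elements as soon as it has a proper nonzero submodule. -/
theorem card_FT_eq (P : FreyPackage) (Ψ : ℤ[X])
    (hdeg : Ψ.natDegree = (P.p ^ 2 - 1) / 2) (h0 : Ψ ≠ 0)
    (hΨ : ∀ (x y : Qb) (h : (P.freyCurve.toAffine⁄Qb).Nonsingular x y),
      P.p • (Point.some x y h : FPt P) = 0 → (Ψ.map (algebraMap ℤ Qb)).eval x = 0)
    (N : Submodule (ZMod P.p) (FT P)) (hN0 : N ≠ ⊥) (hN1 : N ≠ ⊤) :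
    Nat.card (FT P) = P.p ^ 2 := by
  have : Fact P.p.Prime := ⟨P.pp⟩
  obtain ⟨hfin, hle⟩ := card_FT_le P Ψ hdeg h0 hΨ
  have : Module.Finite (ZMod P.p) (FT P) := Module.Finite.of_finite
  have hNlt : Module.finrank (ZMod P.p) N < Module.finrank (ZMod P.p) (FT P) :=
    Submodule.finrank_lt hN1
  have hNpos : 0 < Module.finrank (ZMod P.p) N := by
    rw [Module.finrank_pos_iff]
    exact (Submodule.nontrivial_iff_ne_bot).mpr hN0
  have h := Module.natCard_eq_pow_finrank (K := ZMod P.p) (V := FT P)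
  rw [Nat.card_zmod] at h
  have h2 : P.p ^ 2 ≤ P.p ^ Module.finrank (ZMod P.p) (FT P) :=
    Nat.pow_le_pow_right P.pp.pos (by omega)
  omega

/-- product over a multiset without repetitions as a product over the finset -/
theorem prod_roots_eq_finset {F : Type*} [Field F] [DecidableEq F] (m : Multiset F)
    (hm : m.Nodup) :
    (m.map fun a => (X - C a : F[X])).prod = ∏ r ∈ m.toFinset, (X - C r) := by
  rw [Finset.prod_eq_multiset_prod, Multiset.toFinset_val, Multiset.dedup_eq_self.mpr hm]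

/-- **The global Gauss dichotomy.** -/
theorem gauss_dichotomy (P : FreyPackage) (Ψ : ℤ[X])
    (hdeg : Ψ.natDegree = (P.p ^ 2 - 1) / 2) (hlc : ¬ ((P.p : ℤ) ^ 2 ∣ Ψ.leadingCoeff))
    (hΨ : ∀ (x y : Qb) (h : (P.freyCurve.toAffine⁄Qb).Nonsingular x y),
      P.p • (Point.some x y h : FPt P) = 0 → (Ψ.map (algebraMap ℤ Qb)).eval x = 0)
    (N : Submodule (ZMod P.p) (FT P)) (hN : IsGaloisStable ℚ N) (hN0 : N ≠ ⊥) (hN1 : N ≠ ⊤) :
    (∀ A : ValuationSubring Qb, A.LiesOverPrime P.p → ∀ x ∈ N, InKer P A (x : FPt P) → x = 0) ∨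
    (∀ A : ValuationSubring Qb, A.LiesOverPrime P.p → ∀ x : FT P, x ∉ N →
      ¬ InKer P A (x : FPt P)) := by
  classical
  have h0 : Ψ ≠ 0 := by
    rintro rfl
    exact hlc (by simp)
  have hne := map_int_Qb_ne_zero h0
  have hcard := card_FT_eq P Ψ hdeg h0 hΨ N hN0 hN1
  have hfin : Finite (FT P) := (card_FT_le P Ψ hdeg h0 hΨ).1
  have : Fintype (FT P) := Fintype.ofFinite _
  have hp2 := half_mul_two P.pp (by have := P.hp5; omega)
  -- the three sets of `x`-coordinates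
  set ΨQ : Qb[X] := Ψ.map (algebraMap ℤ Qb) with hΨQ
  set XN : Finset Qb := (Finset.univ.filter fun x : FT P => x ∈ N ∧ x ≠ 0).image
    (fun x : FT P => xco P (x : FPt P)) with hXN
  set XR : Finset Qb := (Finset.univ.filter fun x : FT P => x ∉ N).image
    (fun x : FT P => xco P (x : FPt P)) with hXR
  have hmemN : ∀ s, s ∈ XN ↔ ∃ x : FT P, (x ∈ N ∧ x ≠ 0) ∧ xco P (x : FPt P) = s := by
    intro s
    simp only [hXN, Finset.mem_image, Finset.mem_filter, Finset.mem_univ, true_and]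
  have hmemR : ∀ s, s ∈ XR ↔ ∃ x : FT P, x ∉ N ∧ xco P (x : FPt P) = s := by
    intro s
    simp only [hXR, Finset.mem_image, Finset.mem_filter, Finset.mem_univ, true_and]
  have hcoe0 : ∀ x : FT P, x ≠ 0 → (x : FPt P) ≠ 0 := fun x hx h => hx (Subtype.ext h)
  -- disjointness
  have hdisj : Disjoint XN XR := by
    rw [Finset.disjoint_left]
    intro s hsN hsR
    obtain ⟨x, ⟨hxN, hx0⟩, hxs⟩ := (hmemN s).mp hsN
    obtain ⟨y, hyN, hys⟩ := (hmemR s).mp hsR
    have hy0 : y ≠ 0 := fun h => hyN (h ▸ N.zero_mem)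
    rcases eq_or_eq_neg_of_xco_eq P (y : FPt P) (x : FPt P) (hcoe0 y hy0) (hcoe0 x hx0)
      (hys.trans hxs.symm) with h | h
    · exact hyN ((Subtype.ext h : y = x) ▸ hxN)
    · exact hyN ((Subtype.ext h : y = -x) ▸ N.neg_mem hxN)
  -- the union contains all `x`-coordinates
  have hunion : ∀ x : FT P, x ≠ 0 → xco P (x : FPt P) ∈ XN ∪ XR := by
    intro x hx
    rw [Finset.mem_union]
    by_cases hxN : x ∈ N
    · exact Or.inl ((hmemN _).mpr ⟨x, ⟨hxN, hx⟩, rfl⟩)
    · exact Or.inr ((hmemR _).mpr ⟨x, hxN, rfl⟩)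
  -- the union consists of roots
  have hsub : XN ∪ XR ⊆ ΨQ.roots.toFinset := by
    intro s hs
    rw [Multiset.mem_toFinset, mem_roots hne]
    rcases Finset.mem_union.mp hs with h | h
    · obtain ⟨x, ⟨_, hx0⟩, rfl⟩ := (hmemN s).mp h
      exact xco_root hΨ x hx0
    · obtain ⟨x, hxN, rfl⟩ := (hmemR s).mp h
      exact xco_root hΨ x (fun h => hxN (h ▸ N.zero_mem))
  -- counting
  have hcount := (finite_FT_of_xco P (XN ∪ XR) hunion).2
  rw [hcard] at hcount
  have hdegQ : ΨQ.natDegree = (P.p ^ 2 - 1) / 2 := by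
    rw [hΨQ, natDegree_map_eq_of_injective (algebraMap ℤ Qb).injective_int, hdeg]
  have h1 : (XN ∪ XR).card ≤ ΨQ.roots.toFinset.card := Finset.card_le_card hsub
  have h2 : ΨQ.roots.toFinset.card ≤ Multiset.card ΨQ.roots := Multiset.toFinset_card_le _
  have h3 : Multiset.card ΨQ.roots ≤ ΨQ.natDegree := card_roots' _
  have hroots : Multiset.card ΨQ.roots = ΨQ.natDegree := by omega
  have hnodup : ΨQ.roots.Nodup := by
    rw [← Multiset.toFinset_card_eq_card_iff_nodup]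
    omega
  have hXeq : XN ∪ XR = ΨQ.roots.toFinset :=
    Finset.eq_of_subset_of_card_le hsub (by omega)
  -- the factorisation over `ℚ̄`
  have hfac : ΨQ = C ΨQ.leadingCoeff * ((∏ r ∈ XN, (X - C r)) * ∏ r ∈ XR, (X - C r)) := by
    rw [← Finset.prod_union hdisj, hXeq, ← prod_roots_eq_finset _ hnodup]
    exact (C_leadingCoeff_mul_prod_multiset_X_sub_C hroots).symm
  -- Galois stability
  have hstN : ∀ σ : GQ, ∀ s ∈ XN, σ s ∈ XN := by
    intro σ s hs
    obtain ⟨x, ⟨hxN, hx0⟩, rfl⟩ := (hmemN s).mp hs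
    refine (hmemN _).mpr ⟨σ • x, ⟨hN σ x hxN, ?_⟩, xco_smul P σ (x : FPt P)⟩
    exact fun h => hx0 ((smul_eq_zero_iff_eq σ).mp h)
  have hstR : ∀ σ : GQ, ∀ s ∈ XR, σ s ∈ XR := by
    intro σ s hs
    obtain ⟨x, hxN, rfl⟩ := (hmemR s).mp hs
    refine (hmemR _).mpr ⟨σ • x, fun h => hxN ?_, xco_smul P σ (x : FPt P)⟩
    have := hN σ⁻¹ _ h
    rwa [inv_smul_smul] at this
  obtain ⟨f, hfm, hf⟩ := exists_rat_poly_of_stable XN hstN
  obtain ⟨g, hgm, hg⟩ := exists_rat_poly_of_stable XR hstR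
  -- descend the factorisation to `ℚ`
  have hlcQ : ΨQ.leadingCoeff = algebraMap ℚ Qb (Ψ.leadingCoeff : ℚ) := by
    rw [hΨQ, leadingCoeff_map_of_injective (algebraMap ℤ Qb).injective_int]
    simp
  have hmapmap : (Ψ.map (Int.castRingHom ℚ)).map (algebraMap ℚ Qb) = ΨQ := by
    rw [hΨQ, Polynomial.map_map]
    exact congrArg (fun φ => Ψ.map φ) (RingHom.ext_int _ _)
  have hfacQ : Ψ.map (Int.castRingHom ℚ) = C (Ψ.leadingCoeff : ℚ) * f * g := by
    apply Polynomial.map_injective (algebraMap ℚ Qb) (algebraMap ℚ Qb).injective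
    rw [hmapmap, Polynomial.map_mul, Polynomial.map_mul, Polynomial.map_C, hf, hg, ← hlcQ,
      mul_assoc]
    exact hfac
  -- Gauss
  have key : ∀ (F : ℤ[X]) (k : ℚ[X]) (Z : Finset Qb), F ≠ 0 → ¬ ((P.p : ℤ) ∣ F.leadingCoeff) →
      F.map (Int.castRingHom ℚ) = C (F.leadingCoeff : ℚ) * k →
      k.map (algebraMap ℚ Qb) = ∏ r ∈ Z, (X - C r) →
      ∀ A : ValuationSubring Qb, A.LiesOverPrime P.p → ∀ s ∈ Z, s ∈ A := by
    intro F k Z hF0 hFlc hFk hkZ A hA s hs
    refine mem_of_root_of_lift A P.pp hA F hF0 hFlc s ?_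
    have e : F.map (algebraMap ℤ Qb) = (F.map (Int.castRingHom ℚ)).map (algebraMap ℚ Qb) := by
      rw [Polynomial.map_map]
      exact congrArg (fun φ => F.map φ) (RingHom.ext_int _ _)
    rw [e, hFk, Polynomial.map_mul, hkZ, eval_mul, eval_prod,
      Finset.prod_eq_zero hs (by simp), mul_zero]
  rcases gauss_split (p := P.p) Ψ hlc f g hfm hgm hfacQ with ⟨F, hF0, hFlc, hFf⟩ | ⟨G, hG0, hGlc, hGg⟩
  · left
    intro A hA x hxN hker
    by_contra hx0
    exact not_inKer_of_xco_mem A (x : FPt P) (hcoe0 x hx0)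
      (key F f XN hF0 hFlc hFf hf A hA _ ((hmemN _).mpr ⟨x, ⟨hxN, hx0⟩, rfl⟩)) hker
  · right
    intro A hA x hxN
    have hx0 : x ≠ 0 := fun h => hxN (h ▸ N.zero_mem)
    exact not_inKer_of_xco_mem A (x : FPt P) (hcoe0 x hx0)
      (key G g XR hG0 hGlc hGg hg A hA _ ((hmemR _).mpr ⟨x, hxN, rfl⟩))

end Fermat.Agent.S13lib
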