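import Mathlib
import Fermat.Prelude.Def_FLTPrelim_FreyPackage
import Fermat.Prelude.Def_FLTPrelim_GaloisRep
import Fermat.Prelude.Def_FLTPrelim_Ramification
import Fermat.Prelude.Def_FLTPrelim_CofixedLine

/-!
# S13 library: interface definitions (helper1)
-/

set_option autoImplicit false

namespace Fermat.Agent.S13lib

open WeierstrassCurve WeierstrassCurve.Affine WeierstrassCurve.Affine.Point

/-- `ℚ̄`. -/
abbrev Qb : Type := AlgebraicClosure ℚ

/-- `Gal(ℚ̄/ℚ)`. -/
abbrev GQ : Type := Qb ≃ₐ[ℚ] Qb

/-- The points of the Frey curve over `ℚ̄`. -/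
abbrev FPt (P : FreyPackage) : Type := (P.freyCurve.toAffine⁄Qb).Point

/-- The `p`-torsion module of the Frey curve. -/
abbrev FT (P : FreyPackage) : Type := Submodule.torsionBy ℤ (FPt P) P.p

/-- The `x`-coordinate of the point is an algebraic integer (or the point is `O`). -/
def XIntegral (P : FreyPackage) : FPt P → Prop
  | .zero => True
  | .some x _ _ => IsIntegral ℤ x

/-- The point is in the kernel of reduction at `A`: it is `O` or its `x`-coordinate is not in `A`. -/
def InKer (P : FreyPackage) (A : ValuationSubring Qb) : FPt P → Prop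
  | .zero => True
  | .some x _ _ => x ∉ A

/-- An algebraic integer lies in every valuation subring. -/
theorem mem_valuationSubring_of_isIntegral (A : ValuationSubring Qb) {x : Qb}
    (hx : IsIntegral ℤ x) : x ∈ A := by
  have hint : IsIntegral A x := hx.tower_top
  obtain ⟨y, hy⟩ := (IsIntegrallyClosed.isIntegral_iff (R := A) (K := Qb)).mp hint
  rw [← hy]
  exact y.2

/-- A point with integral `x`-coordinate in the kernel of reduction is `O`. -/
theorem eq_zero_of_xIntegral_of_inKer (P : FreyPackage) (A : ValuationSubring Qb) (x : FPt P)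
    (h1 : XIntegral P x) (h2 : InKer P A x) : x = 0 := by
  rcases x with _ | ⟨x, y, h⟩
  · rfl
  · exact absurd (mem_valuationSubring_of_isIntegral A h1) h2

@[simp] theorem xIntegral_zero (P : FreyPackage) : XIntegral P (0 : FPt P) := trivial

@[simp] theorem inKer_zero (P : FreyPackage) (A : ValuationSubring Qb) :
    InKer P A (0 : FPt P) := trivial

theorem xIntegral_some (P : FreyPackage) {x y : Qb}
    (h : (P.freyCurve.toAffine⁄Qb).Nonsingular x y) :
    XIntegral P (Point.some x y h) ↔ IsIntegral ℤ x := Iff.rfl

theorem inKer_some (P : FreyPackage) (A : ValuationSubring Qb) {x y : Qb}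
    (h : (P.freyCurve.toAffine⁄Qb).Nonsingular x y) :
    InKer P A (Point.some x y h) ↔ x ∉ A := Iff.rfl

end Fermat.Agent.S13lib
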