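import Fermat.Agent.S05
import Fermat.Agent.S13lib.Defs

/-!
# S13 library, piece (I3): local behaviour of inertia at `p` (helper17)

For `σ` in the inertia group of a valuation subring `A` of `ℚ̄` over the prime `p = P.p` and a
`p`-torsion point `x` of the Frey curve, `σ x - x` lies in the kernel of reduction `E₁(A)`.

This is the S05 argument (`S05lib.unramified_of_shape`, `S05wire.fixed_of_data`, `S05.frey_fixed`)
without its last step (`E₁` has no `p`-torsion when `p` is a unit), which is the only place where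
`q ≠ p` is used.  The S05 files are imported, not modified.
-/

set_option autoImplicit false
set_option linter.unusedSectionVars false
set_option linter.unusedVariables false

namespace Fermat.Agent.S13lib

open WeierstrassCurve WeierstrassCurve.Affine Fermat.Agent.S05lib Fermat.Agent.S05wire

section Abstract

variable {K : Type*} [Field K] [DecidableEq K]
  {Γ₀ : Type*} [LinearOrderedCommGroupWithZero Γ₀]

/-- Abstract statement: on `y² = x³ + B x² + C x` with good or (node at the origin) multiplicative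
reduction with `v(C)² = v(ϖ)^p` for a `σ`-fixed `ϖ`, an inertial `σ` moves every `p`-torsion point
by an element of the kernel of reduction `E₁`.  (No hypothesis on `v p`.) -/
theorem localP_sub_mem_E1_of_shape [IsAlgClosed K] (v : Valuation K Γ₀)
    {W : WeierstrassCurve K} (hW : Shape W)
    (hB : v W.a₂ ≤ 1) (hC : v W.a₄ ≤ 1)
    (h2 : v (2 : K) = 1) {p : ℕ} (hp : p.Prime)
    (σ : K →+* K) (hσ : IsInertial v σ) (hσB : σ W.a₂ = W.a₂) (hσC : σ W.a₄ = W.a₄)
    (φ : W.toAffine.Point →+ W.toAffine.Point)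
    (hφ : ∀ (x y : K) (h : W.toAffine.Nonsingular x y),
      ∃ h' : W.toAffine.Nonsingular (σ x) (σ y), φ (Point.some x y h) = Point.some (σ x) (σ y) h')
    (hred : (v W.a₄ = 1 ∧ v (W.a₂ ^ 2 - 4 * W.a₄) = 1) ∨
      (v W.a₂ = 1 ∧ v W.a₄ < 1 ∧ W.a₄ ≠ 0 ∧ ∃ ϖ : K, σ ϖ = ϖ ∧ v ϖ ^ p = v W.a₄ ^ 2))
    (P : W.toAffine.Point) (hP : p • P = 0) : InE1 v (φ P - P) := by
  -- key reduction: if `R` is `φ`-fixed and `P - R` has nonsingular reduction, then `φ P - P ∈ E₁`
  have key : ∀ R : W.toAffine.Point, φ R = R → NonsingRed v (P - R) → InE1 v (φ P - P) := by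
    intro R hR hns
    have h1 := inertial_sub_mem_E1 v hW hB hC h2 σ hσ hσB hσC φ hφ (P - R) hns
    have e : φ (P - R) - (P - R) = φ P - P := by rw [map_sub, hR]; abel
    rwa [e] at h1
  rcases hred with ⟨hC1, hD⟩ | ⟨hB1, hC1, hC0, ϖ, hσϖ, hϖ⟩
  · exact key 0 (map_zero φ) (by rw [sub_zero]; exact nonsingRed_of_good v hW hB hC1 hD h2 P)
  · have key' : ∀ R : W.toAffine.Point, φ R = R → InE0 v (P - R) → InE1 v (φ P - P) :=
      fun R hR h0 => key R hR (nonsingRed_of_mult v hW hB1 hC1 h2 _ h0)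
    rcases P with _ | ⟨x, y, h⟩
    · have h0 : φ (Point.zero : W.toAffine.Point) - Point.zero = 0 := by
        change φ 0 - 0 = 0
        rw [map_zero, sub_zero]
      rw [h0]
      exact InE1_zero v
    by_cases hx1 : 1 ≤ v x
    · exact key' 0 (map_zero φ) (by rw [sub_zero]; exact hx1)
    rw [not_le] at hx1
    by_cases hxC : v x ≤ v W.a₄
    · obtain ⟨h0, hE0⟩ := sub_T0_mem_E0 v hW hC0 h hxC
      refine key' (Point.some 0 0 h0) ?_ hE0
      obtain ⟨h', e⟩ := hφ 0 0 h0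
      rw [e]
      exact point_some_congr (map_zero σ) (map_zero σ) _ _
    rw [not_le] at hxC
    have hx0 : x ≠ 0 := by
      rintro rfl; rw [map_zero] at hxC; exact not_lt_zero hxC
    have hvx0 : v x ≠ 0 := (v.ne_zero_iff).mpr hx0
    have e := (hW.equation_iff x y).mp h.1
    -- the sign
    obtain ⟨β, hβ⟩ : ∃ β, β ^ 2 = W.a₂ := IsAlgClosed.exists_pow_nat_eq W.a₂ (by norm_num)
    have hprod : v ((y / x - β) * (y / x + β)) < 1 := by
      have : (y / x - β) * (y / x + β) = x + W.a₄ / x := by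
        field_simp
        linear_combination e - x ^ 2 * hβ
      rw [this]
      apply v.map_add_lt hx1
      rw [map_div₀]
      exact (div_lt_one₀ (zero_lt_iff.mpr hvx0)).mpr hxC
    obtain ⟨β', hβ', hs⟩ : ∃ β' : K, β' ^ 2 = W.a₂ ∧ v (y / x - β') < 1 := by
      by_cases h1 : v (y / x - β) < 1
      · exact ⟨β, hβ, h1⟩
      · refine ⟨-β, by rw [neg_sq, hβ], ?_⟩
        rw [sub_neg_eq_add]
        by_contra h2c
        rw [not_lt] at h1 h2c
        rw [map_mul] at hprod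
        exact absurd hprod (not_lt.mpr (one_le_mul_of_one_le_of_one_le h1 h2c))
    obtain ⟨k, hk⟩ := comp_torsion v hW hB1 hC1 hC0 h2 hβ' h hxC hx1 hs hP
    have hρ : v (ϖ ^ k) = v x := by
      apply pow_left_inj_of_ne_zero hp.ne_zero
      rw [hk, map_zpow₀, ← zpow_natCast (v ϖ ^ k) p, ← zpow_mul, mul_comm k (p : ℤ), zpow_mul,
        zpow_natCast, hϖ, ← zpow_natCast (v W.a₄) 2, ← zpow_mul]
      norm_num
    obtain ⟨y', h', hσy', hE0⟩ := exists_fixed_same_comp v hW hB1 hC1 hC0 h2 σ hσ hσB hσC h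
      hxC hx1 hρ (by rw [map_zpow₀, hσϖ])
    refine key' (Point.some _ _ h') ?_ hE0
    obtain ⟨h'', e'⟩ := hφ _ _ h'
    rw [e']
    exact point_some_congr (by rw [map_zpow₀, hσϖ]) hσy' _ _

end Abstract

section Data

variable {K : Type*} [Field K] [DecidableEq K] [Algebra ℚ K] [IsAlgClosed K]

/-- Wiring (copy of `S05wire.fixed_of_data` without `q ≠ p`): for a curve
`E : y² + xy = x³ + a₂ x² + a₄ x` over `ℚ` whose shape model at the `q`-integral 2-torsion abscissa
`e` has good or multiplicative reduction at the odd prime `q`, an inertia element `σ` at `A ∣ q`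
moves a `p`-torsion point `x` by a point of the kernel of reduction: if `σ x - x` is affine then
its abscissa is not in `A`. -/
theorem localP_notMem_of_data (E : WeierstrassCurve ℚ) (h₁ : E.a₁ = 1) (h₃ : E.a₃ = 0)
    (h₆ : E.a₆ = 0)
    (e : ℚ) (he : e ^ 3 + (E.a₂ + 1 / 4) * e ^ 2 + E.a₄ * e = 0)
    (A : ValuationSubring K) (heA : algebraMap ℚ K e ∈ A)
    {q : ℕ} (hq : q.Prime) (hA : (q : K) ∈ A.nonunits) (hq2 : q ≠ 2)
    {p : ℕ} (hp : p.Prime)
    (σ : K ≃ₐ[ℚ] K) (hσ : σ ∈ A.inertiaSubgroupIn ℚ)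
    (n₂ n₄ : ℤ) (hn₂ : (shapeOf E e).a₂ * 4 = (n₂ : ℚ)) (hn₄ : (shapeOf E e).a₄ * 16 = (n₄ : ℚ))
    (hred : (¬ (q : ℤ) ∣ n₄ ∧ ¬ (q : ℤ) ∣ (n₂ ^ 2 - 4 * n₄)) ∨
      (¬ (q : ℤ) ∣ n₂ ∧ (q : ℤ) ∣ n₄ ∧ n₄ ≠ 0 ∧ ∃ w : ℤ, w ^ p = n₄ ^ 2))
    (x : (E.toAffine⁄K).Point) (hx : p • x = 0)
    {x' y' : K} (h' : (E.toAffine⁄K).Nonsingular x' y')
    (hsub : Point.map (W' := E.toAffine) σ.toAlgHom x - x = Point.some x' y' h') :
    x' ∉ A := by
  classical
  set S := shapeOf E e with hS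
  have hqi := Nat.prime_iff_prime_int.mp hq
  -- valuations of small integers
  have hq2' : ¬ (q : ℤ) ∣ 2 := by
    intro h
    have h' : q ∣ 2 := by exact_mod_cast h
    exact hq2 ((Nat.prime_dvd_prime_iff_eq hq Nat.prime_two).mp h')
  have hq4 : ¬ (q : ℤ) ∣ 4 := by
    intro h
    have h4 : (4 : ℤ) = 2 ^ 2 := by norm_num
    rw [h4] at h
    exact hq2' (hqi.dvd_of_dvd_pow h)
  have hq16 : ¬ (q : ℤ) ∣ 16 := by
    intro h
    have h16 : (16 : ℤ) = 2 ^ 4 := by norm_num
    rw [h16] at h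
    exact hq2' (hqi.dvd_of_dvd_pow h)
  have v2 : A.valuation (2 : K) = 1 := by
    have := val_intCast_eq_one A hq hA hq2'
    simpa using this
  have v4 : A.valuation ((4 : ℤ) : K) = 1 := val_intCast_eq_one A hq hA hq4
  have v16 : A.valuation ((16 : ℤ) : K) = 1 := val_intCast_eq_one A hq hA hq16
  -- the shape curve over K
  have hsh : IsShear (S.baseChange K) (E.baseChange K)
      (algebraMap ℚ K (-e)) (algebraMap ℚ K (1 / 2)) (algebraMap ℚ K 0) :=
    (isShear_shapeOf E e h₁ h₃ h₆ he).baseChange K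
  have hW : Shape (S.baseChange K) := shape_shapeOf_baseChange K E e
  have ha₂ : (S.baseChange K).a₂ = algebraMap ℚ K S.a₂ := rfl
  have ha₄ : (S.baseChange K).a₄ = algebraMap ℚ K S.a₄ := rfl
  have key₂ : (S.baseChange K).a₂ * ((4 : ℤ) : K) = ((n₂ : ℤ) : K) := by
    rw [ha₂]
    have := congrArg (algebraMap ℚ K) hn₂
    rw [map_mul, map_intCast, map_ofNat] at this
    rw [← this]; push_cast; rfl
  have key₄ : (S.baseChange K).a₄ * ((16 : ℤ) : K) = ((n₄ : ℤ) : K) := by
    rw [ha₄]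
    have := congrArg (algebraMap ℚ K) hn₄
    rw [map_mul, map_intCast, map_ofNat] at this
    rw [← this]; push_cast; rfl
  have val₂ : A.valuation (S.baseChange K).a₂ = A.valuation ((n₂ : ℤ) : K) :=
    val_eq_of_mul_eq A v4 key₂
  have val₄ : A.valuation (S.baseChange K).a₄ = A.valuation ((n₄ : ℤ) : K) :=
    val_eq_of_mul_eq A v16 key₄
  have hB : A.valuation (S.baseChange K).a₂ ≤ 1 := val₂ ▸ val_intCast_le_one A n₂
  have hC : A.valuation (S.baseChange K).a₄ ≤ 1 := val₄ ▸ val_intCast_le_one A n₄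
  have hσI : IsInertial A.valuation ((σ : K ≃ₐ[ℚ] K) : K →+* K) :=
    isInertial_of_mem_inertiaSubgroupIn A hσ
  have hσB : ((σ : K ≃ₐ[ℚ] K) : K →+* K) (S.baseChange K).a₂ = (S.baseChange K).a₂ := by
    rw [ha₂]; exact σ.commutes _
  have hσC : ((σ : K ≃ₐ[ℚ] K) : K →+* K) (S.baseChange K).a₄ = (S.baseChange K).a₄ := by
    rw [ha₄]; exact σ.commutes _
  have hred' : (A.valuation (S.baseChange K).a₄ = 1 ∧
        A.valuation ((S.baseChange K).a₂ ^ 2 - 4 * (S.baseChange K).a₄) = 1) ∨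
      (A.valuation (S.baseChange K).a₂ = 1 ∧ A.valuation (S.baseChange K).a₄ < 1 ∧
        (S.baseChange K).a₄ ≠ 0 ∧ ∃ ϖ : K, ((σ : K ≃ₐ[ℚ] K) : K →+* K) ϖ = ϖ ∧
          A.valuation ϖ ^ p = A.valuation (S.baseChange K).a₄ ^ 2) := by
    rcases hred with ⟨g4, gd⟩ | ⟨m2, m4, m40, w, hw⟩
    · left
      refine ⟨val₄.trans (val_intCast_eq_one A hq hA g4), ?_⟩
      have keyd : ((S.baseChange K).a₂ ^ 2 - 4 * (S.baseChange K).a₄) * ((16 : ℤ) : K) =
          ((n₂ ^ 2 - 4 * n₄ : ℤ) : K) := by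
        push_cast
        push_cast at key₂ key₄
        linear_combination ((S.baseChange K).a₂ * 4 + (n₂ : K)) * key₂ - 4 * key₄
      rw [val_eq_of_mul_eq A v16 keyd]
      exact val_intCast_eq_one A hq hA gd
    · right
      refine ⟨val₂.trans (val_intCast_eq_one A hq hA m2),
        val₄ ▸ val_intCast_lt_one A hA m4, ?_, ((w : ℤ) : K), ?_, ?_⟩
      · intro h0
        rw [h0, zero_mul] at key₄
        have h00 : (n₄ : K) = 0 := key₄.symm
        have hcz : CharZero K := algebraRat.charZero K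
        exact m40 (Int.cast_eq_zero.mp h00)
      · exact map_intCast _ w
      · rw [val₄, ← map_pow, ← map_pow]
        congr 1
        exact_mod_cast congrArg (Int.cast : ℤ → K) hw
  -- the point maps
  let Φ := shearMap hsh
  have hΦx : p • Φ x = 0 := by rw [← map_nsmul, hx, map_zero]
  have hφ : ∀ (x y : K) (h : (S.baseChange K).toAffine.Nonsingular x y),
      ∃ h' : (S.baseChange K).toAffine.Nonsingular (((σ : K ≃ₐ[ℚ] K) : K →+* K) x)
        (((σ : K ≃ₐ[ℚ] K) : K →+* K) y),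
        Point.map (W' := S.toAffine) σ.toAlgHom (Point.some x y h) =
          Point.some (((σ : K ≃ₐ[ℚ] K) : K →+* K) x) (((σ : K ≃ₐ[ℚ] K) : K →+* K) y) h' := by
    intro x y h
    exact ⟨_, Point.map_some (W' := S.toAffine) σ.toAlgHom h⟩
  have hE1 := localP_sub_mem_E1_of_shape A.valuation hW hB hC v2 hp
    ((σ : K ≃ₐ[ℚ] K) : K →+* K) hσI hσB hσC (Point.map (W' := S.toAffine) σ.toAlgHom) hφ hred'
    (Φ x) hΦx
  have hequiv := shearMap_equivariant E S (-e) (1 / 2) 0 hsh σ x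
  rw [← hequiv, ← map_sub, hsub] at hE1
  have hE1' : 1 < A.valuation (x' + algebraMap ℚ K (-e)) := by
    have h3 : Φ (Point.some x' y' h') = Point.some (x' + algebraMap ℚ K (-e))
        (y' + algebraMap ℚ K (1 / 2) * x' + algebraMap ℚ K 0)
        ((hsh.nonsingular_iff x' y').mpr h') := shearMap_some hsh h'
    rw [h3] at hE1
    exact hE1
  intro hxA
  have hle : A.valuation (x' + algebraMap ℚ K (-e)) ≤ 1 := by
    rw [ValuationSubring.valuation_le_one_iff]
    refine A.add_mem _ _ hxA ?_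
    rw [map_neg]
    exact A.neg_mem _ heA
  exact absurd hE1' (not_lt.mpr hle)

end Data

section Frey

open FreyPackage

/-- For the Frey curve, an odd prime `q` (possibly `q = p`), `A` over `q` and `σ` in the inertia
group of `A`: if `σ x - x` is an affine point (`x` a `p`-torsion point) then its abscissa is not
in `A`. -/
theorem localP_frey_notMem (P : FreyPackage) {q : ℕ} (hq : q.Prime) (hq2 : q ≠ 2)
    (A : ValuationSubring Qb) (hA : A.LiesOverPrime q)
    (σ : GQ) (hσ : σ ∈ A.inertiaSubgroupIn ℚ)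
    (x : FPt P) (hx : P.p • x = 0)
    {x' y' : Qb} (h' : (P.freyCurve.toAffine⁄Qb).Nonsingular x' y')
    (hsub : Point.map (W' := P.freyCurve.toAffine) σ.toAlgHom x - x = Point.some x' y' h') :
    x' ∉ A := by
  have hqi := Nat.prime_iff_prime_int.mp hq
  have hFLT : ((P.a : ℚ)) ^ P.p + (P.b : ℚ) ^ P.p = (P.c : ℚ) ^ P.p := by
    exact_mod_cast congrArg (Int.cast : ℤ → ℚ) P.hFLT
  have ha₂ : P.freyCurve.a₂ = ((P.b : ℚ) ^ P.p - 1 - (P.a : ℚ) ^ P.p) / 4 := rfl
  have ha₄ : P.freyCurve.a₄ = -((P.a : ℚ) ^ P.p) * ((P.b : ℚ) ^ P.p) / 16 := rfl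
  have hq2' : ¬ (q : ℤ) ∣ 2 := by
    intro h
    have h' : q ∣ 2 := by exact_mod_cast h
    exact hq2 ((Nat.prime_dvd_prime_iff_eq hq Nat.prime_two).mp h')
  have hq4 : ¬ (q : ℤ) ∣ 4 := by
    intro h
    have h4 : (4 : ℤ) = 2 ^ 2 := by norm_num
    rw [h4] at h
    exact hq2' (hqi.dvd_of_dvd_pow h)
  have v4 : A.valuation ((4 : ℤ) : Qb) = 1 := val_intCast_eq_one A hq hA hq4
  by_cases hc : (q : ℤ) ∣ P.c
  · -- `q ∣ c`: translate the 2-torsion point `(a^p/4, *)` to the origin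
    have heA : algebraMap ℚ Qb ((P.a : ℚ) ^ P.p / 4) ∈ A := by
      rw [← ValuationSubring.valuation_le_one_iff]
      have e1 : algebraMap ℚ Qb ((P.a : ℚ) ^ P.p / 4) =
          ((P.a ^ P.p : ℤ) : Qb) / ((4 : ℤ) : Qb) := by
        rw [map_div₀, map_pow]
        simp
      rw [e1, map_div₀, v4, div_one]
      exact val_intCast_le_one A _
    refine localP_notMem_of_data P.freyCurve rfl rfl rfl ((P.a : ℚ) ^ P.p / 4) ?_ A heA hq hA hq2
      P.pp σ hσ (P.a ^ P.p + P.c ^ P.p) (P.a ^ P.p * P.c ^ P.p) ?_ ?_ ?_ x hx h' hsub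
    · rw [ha₂, ha₄]; ring
    · simp only [shapeOf, ha₂]
      push_cast
      linear_combination hFLT
    · simp only [shapeOf, ha₂, ha₄]
      push_cast
      linear_combination ((P.a : ℚ) ^ P.p) * hFLT
    · right
      refine ⟨frey_mult_c_n2 P hq hc, dvd_mul_of_dvd_right (dvd_pow hc P.hp0) _,
        mul_ne_zero (pow_ne_zero _ P.ha0) (pow_ne_zero _ P.hc0), (P.a * P.c) ^ 2, ?_⟩
      ring
  · have hcp : ¬ (q : ℤ) ∣ P.c ^ P.p := frey_not_dvd_pow hq _ hc
    have hn₂ : (shapeOf P.freyCurve 0).a₂ * 4 = ((P.b ^ P.p - P.a ^ P.p : ℤ) : ℚ) := by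
      simp only [shapeOf, ha₂]
      push_cast
      ring
    have hn₄ : (shapeOf P.freyCurve 0).a₄ * 16 = ((-(P.a ^ P.p * P.b ^ P.p) : ℤ) : ℚ) := by
      simp only [shapeOf, ha₄]
      push_cast
      ring
    have heA : algebraMap ℚ Qb 0 ∈ A := by
      rw [map_zero]
      exact A.zero_mem
    refine localP_notMem_of_data P.freyCurve rfl rfl rfl 0 (by ring) A heA hq hA hq2 P.pp
      σ hσ (P.b ^ P.p - P.a ^ P.p) (-(P.a ^ P.p * P.b ^ P.p)) hn₂ hn₄ ?_ x hx h' hsub
    by_cases hab : (q : ℤ) ∣ P.a * P.b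
    · right
      refine ⟨frey_mult_ab_n2 P hq hab, ?_, ?_, (P.a * P.b) ^ 2, ?_⟩
      · rw [dvd_neg]
        rcases hqi.dvd_or_dvd hab with h | h
        · exact dvd_mul_of_dvd_left (dvd_pow h P.hp0) _
        · exact dvd_mul_of_dvd_right (dvd_pow h P.hp0) _
      · exact neg_ne_zero.mpr (mul_ne_zero (pow_ne_zero _ P.ha0) (pow_ne_zero _ P.hb0))
      · ring
    · left
      refine ⟨frey_good_n4 P hq hab, ?_⟩
      have h1 : (P.b ^ P.p - P.a ^ P.p) ^ 2 - 4 * -(P.a ^ P.p * P.b ^ P.p) = (P.c ^ P.p) ^ 2 := by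
        rw [← P.hFLT]; ring
      rw [h1]
      exact frey_not_dvd_pow hq _ hcp

/-- General form of (I3): for an odd prime `q`, `A` over `q`, `σ` in the inertia group of `A` and a
`p`-torsion point `x` of the Frey curve, `σ x - x` is in the kernel of reduction at `A`. -/
theorem sub_inKer_of_inertia_odd (P : FreyPackage) {q : ℕ} (hq : q.Prime) (hq2 : q ≠ 2)
    (A : ValuationSubring Qb) (hA : A.LiesOverPrime q)
    (σ : GQ) (hσ : σ ∈ A.inertiaSubgroupIn ℚ) (x : FT P) :
    InKer P A ((σ • x - x : FT P) : FPt P) := by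
  have hx : P.p • (x : FPt P) = 0 := by
    have h := x.2
    rw [Submodule.mem_torsionBy_iff] at h
    rw [← h, natCast_zsmul]
  have hcoe : ((σ • x - x : FT P) : FPt P) =
      Point.map (W' := P.freyCurve.toAffine) σ.toAlgHom (x : FPt P) - (x : FPt P) := rfl
  rw [hcoe]
  generalize hQ : Point.map (W' := P.freyCurve.toAffine) σ.toAlgHom (x : FPt P) - (x : FPt P) = Q
  rcases Q with _ | ⟨x', y', h'⟩
  · trivial
  · exact localP_frey_notMem P hq hq2 A hA σ hσ (x : FPt P) hx h' hQ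

/-- (I3): for `σ` in the inertia group of a valuation subring `A` of `ℚ̄` over the prime `p = P.p`
and a `p`-torsion point `x` of the Frey curve, `σ x - x` lies in the kernel of reduction at `A`. -/
theorem sub_inKer_of_inertia_p (P : FreyPackage) (A : ValuationSubring Qb)
    (hA : A.LiesOverPrime P.p)
    (σ : GQ) (hσ : σ ∈ A.inertiaSubgroupIn ℚ) (x : FT P) :
    InKer P A ((σ • x - x : FT P) : FPt P) :=
  sub_inKer_of_inertia_odd P P.pp (by have := P.hp5; omega) A hA σ hσ x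

end Frey

end Fermat.Agent.S13lib
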