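import Fermat.Agent.S13lib.InertiaLift

set_option autoImplicit false

/-!
# S13 (L), in the form used by Minkowski: inertia lift at a prime `Q` of `ℤ̄`
-/

namespace Fermat.Agent.S13lib

open Fermat.Agent.FrobLib
open scoped Pointwise

/-- Inertia lifts, for the valuation subring attached to a prime `Q` of `ℤ̄`. -/
theorem exists_inertia_lift_of_prime (K : IntermediateField ℚ (AlgebraicClosure ℚ))
    [FiniteDimensional ℚ K] (Q : Ideal ZBar) [Q.IsPrime] (τ : K ≃ₐ[ℚ] K)
    (hτ : ∀ x : K, IsIntegral ℤ x → ∃ c ∈ Q,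
      ((τ x : K) : AlgebraicClosure ℚ) - (x : AlgebraicClosure ℚ) = (c : AlgebraicClosure ℚ)) :
    ∃ σ ∈ (valuationSubringOfPrime Q).inertiaSubgroupIn ℚ,
      ∀ x : K, σ (x : AlgebraicClosure ℚ) = ((τ x : K) : AlgebraicClosure ℚ) := by
  refine exists_inertia_lift_of_integral K (valuationSubringOfPrime Q) τ fun x hx => ?_
  obtain ⟨c, hc, hcx⟩ := hτ x hx
  rw [hcx]
  exact coe_mem_nonunits_valuationSubringOfPrime Q hc

end Fermat.Agent.S13lib
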