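import Fermat.Agent.FrobProfinite
import Fermat.Prelude.Def_FLTPrelim_Ramification

set_option autoImplicit false

/-!
# Inertia at a prime of `ℤ̄`, as a congruence (S13 piece (e), part 1)
-/

namespace Fermat.Agent.S13lib

open Fermat.Agent.FrobLib
open scoped Pointwise

/-- A Galois automorphism congruent to the identity modulo a prime `Q` of `ℤ̄` lies in the inertia
subgroup of the valuation subring `(ℤ̄)_Q`. -/
theorem mem_inertiaSubgroupIn_of_congr (Q : Ideal ZBar) [Q.IsPrime] (σ : GQ)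
    (h : ∀ b : ZBar, σ • b - b ∈ Q) :
    σ ∈ (valuationSubringOfPrime Q).inertiaSubgroupIn ℚ := by
  have h' : ∀ b : ZBar, ∃ c ∈ Q,
      σ (b : AlgebraicClosure ℚ) - (b : AlgebraicClosure ℚ) ^ 1 = (c : AlgebraicClosure ℚ) :=
    fun b => ⟨σ • b - b, h b, by simp⟩
  obtain ⟨hσ, hres⟩ := isFrobeniusAt_valuationSubringOfPrime Q 1 one_ne_zero σ h'
  refine ⟨⟨σ, hσ⟩, ?_, rfl⟩
  change (⟨σ, hσ⟩ : (valuationSubringOfPrime Q).decompositionSubgroup ℚ) ∈
    MonoidHom.ker _
  rw [MonoidHom.mem_ker]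
  ext x
  simpa using hres x

end Fermat.Agent.S13lib
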