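import Mathlib
import Fermat.Agent.FrobProfinite
import Fermat.Agent.S13lib.MinkInertia
import Fermat.Agent.S13lib.Defs
import Fermat.Agent.S13lib.InertiaLiftPrime
import Fermat.Prelude.Def_FLTPrelim_Ramification

set_option autoImplicit false
set_option linter.style.haveILetI false
set_option linter.unusedSectionVars false

namespace Fermat.Agent.S13lib

open Fermat.Agent.FrobLib NumberField
open scoped Pointwise

/-- The inertia-lifting property for the valuation subring attached to a prime `Q` of `ℤ̄`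
(integral form). -/
def MinkLiftProp : Prop :=
  ∀ (K : IntermediateField ℚ (AlgebraicClosure ℚ)) [FiniteDimensional ℚ K] [IsGalois ℚ K]
    (Q : Ideal ZBar) [Q.IsPrime] (τ : K ≃ₐ[ℚ] K),
    (∀ x : K, IsIntegral ℤ x → ∃ c ∈ Q,
      ((τ x : K) : AlgebraicClosure ℚ) - (x : AlgebraicClosure ℚ) = (c : AlgebraicClosure ℚ)) →
    ∃ σ ∈ (valuationSubringOfPrime Q).inertiaSubgroupIn ℚ,
      ∀ x : K, σ (x : AlgebraicClosure ℚ) = ((τ x : K) : AlgebraicClosure ℚ)

section field

variable (K : IntermediateField ℚ (AlgebraicClosure ℚ)) [FiniteDimensional ℚ K] [IsGalois ℚ K]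

/-- A ramified prime gives a nontrivial element of the inertia group. -/
theorem mink_inertia_ne_one_of_ramified (P : Ideal (𝓞 K)) [P.IsPrime]
    (hP : ¬ Algebra.IsUnramifiedAt ℤ P) :
    ∃ τ : K ≃ₐ[ℚ] K, τ ≠ 1 ∧ ∀ x : 𝓞 K, τ • x - x ∈ P := by
  haveI : NumberField K :=
    { to_charZero := inferInstance, to_finiteDimensional := inferInstance }
  haveI : IsGaloisGroup (K ≃ₐ[ℚ] K) ℤ (𝓞 K) :=
    IsGaloisGroup.of_isFractionRing (K ≃ₐ[ℚ] K) ℤ (𝓞 K) ℚ K
  have hcard := Ideal.card_inertia_eq_ramificationIdxIn (G := K ≃ₐ[ℚ] K) (P.under ℤ) P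
  rw [Ideal.ramificationIdxIn_eq_ramificationIdx (P.under ℤ) P (K ≃ₐ[ℚ] K)] at hcard
  have h2 : P.ramificationIdx ℤ ≠ 1 := by
    rwa [Ne, Ideal.ramificationIdx_eq_one_iff]
  have h4 : P.inertia (K ≃ₐ[ℚ] K) ≠ ⊥ := fun h => h2 (by rw [← hcard, h]; simp)
  obtain ⟨⟨τ, hτ⟩, hτ1⟩ := (Subgroup.ne_bot_iff_exists_ne_one).mp h4
  exact ⟨τ, fun h => hτ1 (Subtype.ext h), fun x => hτ x⟩

/-- The inclusion of the ring of integers of `K` into `ℤ̄`. -/
noncomputable def minkIncl : 𝓞 K →+* ZBar where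
  toFun x := ⟨((x : K) : AlgebraicClosure ℚ), by
    have h : IsIntegral ℤ (x : K) := x.2
    exact h.map (K.val.restrictScalars ℤ)⟩
  map_one' := by ext; simp
  map_mul' x y := by ext; simp
  map_zero' := by ext; simp
  map_add' x y := by ext; simp

@[simp] theorem coe_minkIncl (x : 𝓞 K) :
    ((minkIncl K x : ZBar) : AlgebraicClosure ℚ) = ((x : K) : AlgebraicClosure ℚ) := rfl

/-- **Minkowski**, field form, modulo the inertia-lifting property. -/
theorem mink_field_eq_bot_of_lift (hL : MinkLiftProp)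
    (hK : ∀ q : ℕ, q.Prime → ∀ A : ValuationSubring (AlgebraicClosure ℚ), A.LiesOverPrime q →
      ∀ σ ∈ A.inertiaSubgroupIn ℚ, ∀ x : K, σ (x : AlgebraicClosure ℚ) = x) :
    K = ⊥ := by
  haveI : NumberField K :=
    { to_charZero := inferInstance, to_finiteDimensional := inferInstance }
  by_contra hne
  have hfin : 1 < Module.finrank ℚ K := by
    have h0 : 0 < Module.finrank ℚ K := Module.finrank_pos
    have h1 : Module.finrank ℚ K ≠ 1 := fun h => hne (IntermediateField.finrank_eq_one_iff.mp h)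
    omega
  obtain ⟨q, hq, hram⟩ :=
    NumberField.exists_not_isUnramifiedAt_int_of_isGalois (K := K) (𝒪 := 𝓞 K) hfin
  -- a prime of `ℤ̄` over `q`
  have hP : (Ideal.span {(q : ℤ)}).IsPrime :=
    (Ideal.span_singleton_prime (by exact_mod_cast hq.ne_zero)).mpr (Nat.prime_iff_prime_int.mp hq)
  obtain ⟨Q, -, hQprime, hQ⟩ := Ideal.exists_ideal_over_prime_of_isIntegral
    (Ideal.span {(q : ℤ)}) (⊥ : Ideal ZBar) (by
      rw [Ideal.comap_bot_of_injective _ (FaithfulSMul.algebraMap_injective ℤ ZBar)]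
      exact bot_le)
  have hqQ : (q : ZBar) ∈ Q := by
    have : (q : ℤ) ∈ Q.comap (algebraMap ℤ ZBar) := by
      rw [hQ]
      exact Ideal.subset_span rfl
    simpa using this
  -- the prime of `𝓞 K` below `Q`
  have hqP : ((q : ℕ) : 𝓞 K) ∈ Q.comap (minkIncl K) := by
    rw [Ideal.mem_comap, map_natCast]
    exact hqQ
  obtain ⟨τ, hτ1, hτ⟩ := mink_inertia_ne_one_of_ramified K (Q.comap (minkIncl K))
    (hram _ inferInstance hqP)
  obtain ⟨σ, hσ, hστ⟩ := hL K Q τ (fun x hx => by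
    let x' : 𝓞 K := ⟨x, hx⟩
    refine ⟨minkIncl K (τ • x' - x'), hτ x', ?_⟩
    rw [coe_minkIncl]
    rfl)
  apply hτ1
  ext x
  have h1 := hK q hq (valuationSubringOfPrime Q) (liesOverPrime_valuationSubringOfPrime Q q hqQ)
    σ hσ x
  rw [hστ x] at h1
  simpa using h1

end field

/-- **Minkowski**, subgroup form, modulo the inertia-lifting property. -/
theorem minkowski_of_lift (hL : MinkLiftProp) (H : Subgroup (Qb ≃ₐ[ℚ] Qb)) (hH : H.Normal)
    (hopen : ∃ F : IntermediateField ℚ Qb, FiniteDimensional ℚ F ∧ F.fixingSubgroup ≤ H)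
    (hI : ∀ q : ℕ, q.Prime → ∀ A : ValuationSubring Qb, A.LiesOverPrime q →
      A.inertiaSubgroupIn ℚ ≤ H) :
    H = ⊤ := by
  haveI : IsGalois ℚ Qb := isGalois_QBar
  obtain ⟨F, hF, hFH⟩ := hopen
  have hHopen : IsOpen (H : Set (Qb ≃ₐ[ℚ] Qb)) :=
    Subgroup.isOpen_mono hFH (IntermediateField.fixingSubgroup_isOpen F)
  have hHclosed : IsClosed (H : Set (Qb ≃ₐ[ℚ] Qb)) := Subgroup.isClosed_of_isOpen H hHopen
  have hfix : (IntermediateField.fixedField H).fixingSubgroup = H :=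
    InfiniteGalois.fixingSubgroup_fixedField ⟨H, hHclosed⟩
  haveI : FiniteDimensional ℚ (IntermediateField.fixedField H) :=
    (InfiniteGalois.isOpen_iff_finite _).mp (by rw [hfix]; exact hHopen)
  haveI : IsGalois ℚ (IntermediateField.fixedField H) :=
    (InfiniteGalois.normal_iff_isGalois _).mp (by rw [hfix]; exact hH)
  have hbot := mink_field_eq_bot_of_lift (IntermediateField.fixedField H) hL
    (fun q hq A hA σ hσ x => x.2 ⟨σ, hI q hq A hA hσ⟩)
  rw [← hfix, hbot, IntermediateField.fixingSubgroup_bot]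

/-- The inertia-lifting property holds (helper5's `exists_inertia_lift_of_prime`). -/
theorem mink_lift : MinkLiftProp :=
  fun K _ _ Q _ τ hτ => exists_inertia_lift_of_prime K Q τ hτ

/-- **Minkowski** (interface (I6) of `NOTES/S13_blueprint.md`): a normal open subgroup of
`Gal(ℚ̄/ℚ)` containing the inertia subgroup of every valuation subring over every prime is
everything. -/
theorem minkowski (H : Subgroup (Qb ≃ₐ[ℚ] Qb)) (hH : H.Normal)
    (hopen : ∃ F : IntermediateField ℚ Qb, FiniteDimensional ℚ F ∧ F.fixingSubgroup ≤ H)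
    (hI : ∀ q : ℕ, q.Prime → ∀ A : ValuationSubring Qb, A.LiesOverPrime q →
      A.inertiaSubgroupIn ℚ ≤ H) :
    H = ⊤ :=
  minkowski_of_lift mink_lift H hH hopen hI

/-- **Minkowski**, character form: a homomorphism from `Gal(ℚ̄/ℚ)` with open kernel that is trivial
on every inertia subgroup is trivial. -/
theorem minkowski_hom {M : Type*} [Group M] (χ : (Qb ≃ₐ[ℚ] Qb) →* M)
    (hopen : ∃ F : IntermediateField ℚ Qb, FiniteDimensional ℚ F ∧ F.fixingSubgroup ≤ χ.ker)
    (hI : ∀ q : ℕ, q.Prime → ∀ A : ValuationSubring Qb, A.LiesOverPrime q →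
      ∀ σ ∈ A.inertiaSubgroupIn ℚ, χ σ = 1) (σ : Qb ≃ₐ[ℚ] Qb) : χ σ = 1 := by
  have h := minkowski χ.ker (MonoidHom.normal_ker χ) hopen
    (fun q hq A hA σ hσ => MonoidHom.mem_ker.mpr (hI q hq A hA σ hσ))
  have : σ ∈ χ.ker := by rw [h]; exact Subgroup.mem_top σ
  exact MonoidHom.mem_ker.mp this

end Fermat.Agent.S13lib
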