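import Fermat.Agent.S05_Inertia

/-!
# S13 library: the decomposition group preserves the valuation   (helper19)

For an algebraic extension `L / K`, a valuation subring `A` of `L` and `σ` in the decomposition
group of `A`, `A.valuation (σ a) = A.valuation a` for every `a : L`.
-/

set_option autoImplicit false
set_option linter.unusedSectionVars false

namespace Fermat.Agent.S13lib

variable {K L : Type*} [Field K] [Field L] [Algebra K L]

/-- Monotonicity of `a ↦ σ a` for the valuation, `σ` in the decomposition group. -/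
theorem dv_mono (A : ValuationSubring L) {σ : L ≃ₐ[K] L} (hσ : σ ∈ A.decompositionSubgroup K)
    {a b : L} (h : A.valuation a ≤ A.valuation b) : A.valuation (σ a) ≤ A.valuation (σ b) := by
  classical
  by_cases hb : b = 0
  · subst hb
    rw [map_zero] at h
    have ha : a = 0 := by
      have := le_antisymm h zero_le
      exact (map_eq_zero _).mp this
    rw [ha]
  · have hσb : σ b ≠ 0 := by
      intro h0
      exact hb ((map_eq_zero σ).mp h0)
    have hvb : A.valuation b ≠ 0 := (map_ne_zero _).mpr hb
    have hvσb : A.valuation (σ b) ≠ 0 := (map_ne_zero _).mpr hσb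
    have h1 : A.valuation (a / b) ≤ 1 := by
      rw [map_div₀]
      exact (div_le_one₀ (zero_lt_iff.mpr hvb)).mpr h
    rw [ValuationSubring.valuation_le_one_iff] at h1
    have h2 := Fermat.Agent.S05wire.mem_of_mem_decomposition A hσ h1
    rw [← ValuationSubring.valuation_le_one_iff, map_div₀, map_div₀] at h2
    exact (div_le_one₀ (zero_lt_iff.mpr hvσb)).mp h2

/-- Strict monotonicity. -/
theorem dv_strictMono (A : ValuationSubring L) {σ : L ≃ₐ[K] L}
    (hσ : σ ∈ A.decompositionSubgroup K)
    {a b : L} (h : A.valuation a < A.valuation b) : A.valuation (σ a) < A.valuation (σ b) := by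
  by_contra hcon
  rw [not_lt] at hcon
  have hinv : σ⁻¹ ∈ A.decompositionSubgroup K := inv_mem hσ
  have := dv_mono A hinv hcon
  have e1 : σ⁻¹ (σ b) = b := by
    change σ.symm (σ b) = b
    exact σ.symm_apply_apply b
  have e2 : σ⁻¹ (σ a) = a := by
    change σ.symm (σ a) = a
    exact σ.symm_apply_apply a
  rw [e1, e2] at this
  exact absurd h (not_lt.mpr this)

theorem dv_pow_succ_apply (σ : L ≃ₐ[K] L) (k : ℕ) (a : L) :
    (σ ^ (k + 1)) a = σ ((σ ^ k) a) := by
  rw [pow_succ']
  rfl

/-- Some positive power of `σ` fixes a given algebraic element. -/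
theorem dv_exists_pow_fix [Algebra.IsAlgebraic K L] (σ : L ≃ₐ[K] L) (a : L) :
    ∃ n : ℕ, 0 < n ∧ (σ ^ n) a = a := by
  classical
  have hint : IsIntegral K a := (Algebra.IsAlgebraic.isAlgebraic a).isIntegral
  have hfin : ((minpoly K a).rootSet L).Finite := Polynomial.rootSet_finite _ _
  have hmem : ∀ k : ℕ, (σ ^ k) a ∈ (minpoly K a).rootSet L := by
    intro k
    rw [Polynomial.mem_rootSet]
    refine ⟨minpoly.ne_zero hint, ?_⟩
    rw [Polynomial.aeval_algEquiv]
    simp [minpoly.aeval]
  have : Finite ((minpoly K a).rootSet L) := hfin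
  obtain ⟨i, j, hij, hEq⟩ := Finite.exists_ne_map_eq_of_infinite
    (fun k : ℕ => (⟨(σ ^ k) a, hmem k⟩ : (minpoly K a).rootSet L))
  have hEq' : (σ ^ i) a = (σ ^ j) a := congrArg Subtype.val hEq
  have key : ∀ i j : ℕ, i < j → (σ ^ i) a = (σ ^ j) a → ∃ n : ℕ, 0 < n ∧ (σ ^ n) a = a := by
    intro i j hlt h
    refine ⟨j - i, Nat.sub_pos_of_lt hlt, ?_⟩
    have e : σ ^ j = σ ^ i * σ ^ (j - i) := by
      rw [← pow_add]
      congr 1
      omega
    rw [e] at h
    have h' : (σ ^ i) a = (σ ^ i) ((σ ^ (j - i)) a) := h
    exact ((σ ^ i).injective h').symm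
  rcases lt_or_gt_of_ne hij with h | h
  · exact key i j h hEq'
  · exact key j i h hEq'.symm

/-- **The decomposition group preserves the valuation.** -/
theorem val_map_of_mem_decomposition [Algebra.IsAlgebraic K L] (A : ValuationSubring L)
    {σ : L ≃ₐ[K] L} (hσ : σ ∈ A.decompositionSubgroup K) (a : L) :
    A.valuation (σ a) = A.valuation a := by
  obtain ⟨n, hn, hfix⟩ := dv_exists_pow_fix σ a
  rcases lt_trichotomy (A.valuation (σ a)) (A.valuation a) with h | h | h
  · exfalso
    have hstep : ∀ k : ℕ, A.valuation ((σ ^ (k + 1)) a) < A.valuation a := by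
      intro k
      induction k with
      | zero => simpa using h
      | succ k ih =>
        rw [dv_pow_succ_apply]
        exact lt_trans (dv_strictMono A hσ ih) h
    have := hstep (n - 1)
    rw [Nat.sub_add_cancel hn, hfix] at this
    exact lt_irrefl _ this
  · exact h
  · exfalso
    have hstep : ∀ k : ℕ, A.valuation a < A.valuation ((σ ^ (k + 1)) a) := by
      intro k
      induction k with
      | zero => simpa using h
      | succ k ih =>
        rw [dv_pow_succ_apply]
        exact lt_trans h (dv_strictMono A hσ ih)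
    have := hstep (n - 1)
    rw [Nat.sub_add_cancel hn, hfix] at this
    exact lt_irrefl _ this

/-- Version for the inertia group. -/
theorem val_map_of_mem_inertiaSubgroupIn [Algebra.IsAlgebraic K L] (A : ValuationSubring L)
    {σ : L ≃ₐ[K] L} (hσ : σ ∈ A.inertiaSubgroupIn K) (a : L) :
    A.valuation (σ a) = A.valuation a := by
  obtain ⟨g, _, rfl⟩ := hσ
  exact val_map_of_mem_decomposition A g.2 a

end Fermat.Agent.S13lib
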