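import Fermat.Agent.S13lib.GCurve

/-!
# S13 helper library (piece B2): the kernel of reduction `E₁` for `y² + a₁xy = x³ + a₂x² + a₄x`

For a Weierstrass curve with `a₃ = a₆ = 0` and `v a₁, v a₂, v a₄ ≤ 1`:
`E₁ = {O} ∪ {(x, y) : 1 < v x}` is closed under negation, addition and subtraction, and
`z = x / y` is additive up to an error smaller than `max (v z₁) (v z₂)`.
Consequently `E₁` has no `n`-torsion for `v n = 1`.

The predicates `InE1` and the function `zfun` are the ones of `Fermat.Agent.S05lib`.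
-/

set_option autoImplicit false
set_option linter.unusedSectionVars false
set_option linter.unusedVariables false

namespace Fermat.Agent.S13lib

open WeierstrassCurve WeierstrassCurve.Affine Fermat.Agent.S05lib

variable {K : Type*} [Field K]
  {Γ₀ : Type*} [LinearOrderedCommGroupWithZero Γ₀] (v : Valuation K Γ₀)

section core

variable {A B C : K}

/-- Basic facts about an affine point with `1 < v x`. -/
theorem ge1_pt (hA : v A ≤ 1) (hB : v B ≤ 1) (hC : v C ≤ 1) {x y : K}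
    (e : y ^ 2 + A * x * y = x ^ 3 + B * x ^ 2 + C * x) (hx : 1 < v x) :
    y ≠ 0 ∧ v (x / y) < 1 ∧ v (1 / y) = v (x / y) ^ 3 ∧ v x * v (x / y) ^ 2 = 1 ∧ x / y ≠ 0 := by
  have hx0 : x ≠ 0 := by
    rintro rfl; simp at hx
  have hvx0 : v x ≠ 0 := (v.ne_zero_iff).mpr hx0
  have hvxpos : 0 < v x := zero_lt_iff.mpr hvx0
  have hinv : v x⁻¹ < 1 := (v.one_lt_val_iff hx0).mp hx
  have h1 : v (B / x) < 1 := by
    rw [div_eq_mul_inv, map_mul, mul_comm]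
    exact mul_lt_one_of_lt_of_le hinv hB
  have h2 : v (C / x ^ 2) < 1 := by
    rw [div_eq_mul_inv, map_mul, map_inv₀, map_pow, ← inv_pow, ← map_inv₀, mul_comm]
    exact mul_lt_one_of_lt_of_le (pow_lt_one₀ zero_le hinv (by norm_num)) hC
  have hη : v (1 + (B / x + C / x ^ 2)) = 1 := v.map_one_add_of_lt (v.map_add_lt h1 h2)
  have hy2 : y * (y + A * x) = x ^ 3 * (1 + (B / x + C / x ^ 2)) := by
    have : x ^ 3 * (1 + (B / x + C / x ^ 2)) = x ^ 3 + B * x ^ 2 + C * x := by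
      field_simp
      ring
    rw [this, ← e]; ring
  have hprod : v y * v (y + A * x) = v x ^ 3 := by
    rw [← map_mul, hy2, map_mul, hη, mul_one, map_pow]
  have hAx : v (A * x) ≤ v x := by
    rw [map_mul]
    calc v A * v x ≤ 1 * v x := by gcongr
      _ = v x := one_mul _
  have hxy : v x < v y := by
    by_contra hcon
    rw [not_lt] at hcon
    have h3 : v (y + A * x) ≤ v x := v.map_add_le hcon hAx
    have h4 : v y * v (y + A * x) ≤ v x * v x := mul_le_mul' hcon h3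
    rw [hprod] at h4
    have h5 : v x * v x < v x ^ 3 := by
      calc v x * v x = v x * v x * 1 := (mul_one _).symm
        _ < v x * v x * v x := by
          exact mul_lt_mul_of_pos_left hx (mul_pos hvxpos hvxpos)
        _ = v x ^ 3 := by rw [pow_succ, pow_two]
    exact absurd h4 (not_le.mpr h5)
  have hyA : v (y + A * x) = v y :=
    v.map_add_eq_of_lt_left (lt_of_le_of_lt hAx hxy)
  have hvy2 : v y ^ 2 = v x ^ 3 := by
    rw [← hprod, hyA, pow_two]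
  have hy0 : y ≠ 0 := by
    rintro rfl
    rw [map_zero, zero_pow (by norm_num)] at hvy2
    exact hvx0 (pow_eq_zero_iff (by norm_num) |>.mp hvy2.symm)
  have hvy0 : v y ≠ 0 := (v.ne_zero_iff).mpr hy0
  have hz2 : v x * v (x / y) ^ 2 = 1 := by
    rw [map_div₀, div_pow, hvy2]
    field_simp
  have hz : v (x / y) < 1 := by
    by_contra hcon
    rw [not_lt] at hcon
    have : 1 ≤ v (x / y) ^ 2 := one_le_pow₀ hcon
    have h3 : v x ≤ v x * v (x / y) ^ 2 := le_mul_of_one_le_right' this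
    rw [hz2] at h3
    exact absurd hx (not_lt.mpr h3)
  refine ⟨hy0, hz, ?_, hz2, div_ne_zero hx0 hy0⟩
  rw [map_div₀, map_div₀, map_one, div_pow, ← hvy2]
  field_simp

/-- The curve equation in the chart `z = x / y`, `w = 1 / y`. -/
theorem gzchart_eq {x y : K} (e : y ^ 2 + A * x * y = x ^ 3 + B * x ^ 2 + C * x) (hy : y ≠ 0) :
    1 / y + A * (x / y) * (1 / y) =
      (x / y) ^ 3 + B * (x / y) ^ 2 * (1 / y) + C * (x / y) * (1 / y) ^ 2 := by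
  field_simp
  linear_combination e

/-- Divided-difference identity in the `z`-chart. -/
theorem gzchart_dd {z₁ w₁ z₂ w₂ : K}
    (e₁ : w₁ + A * z₁ * w₁ = z₁ ^ 3 + B * z₁ ^ 2 * w₁ + C * z₁ * w₁ ^ 2)
    (e₂ : w₂ + A * z₂ * w₂ = z₂ ^ 3 + B * z₂ ^ 2 * w₂ + C * z₂ * w₂ ^ 2) :
    (w₁ - w₂) * (1 + A * z₁ - B * z₁ ^ 2 - C * z₁ * (w₁ + w₂)) =
      (z₁ - z₂) * (z₁ ^ 2 + z₁ * z₂ + z₂ ^ 2 + B * (z₁ + z₂) * w₂ + C * w₂ ^ 2 - A * w₂) := by
  linear_combination e₁ - e₂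

/-- Consequences of Vieta's relations for the three points of a line. -/
theorem gvieta_prod {x₁ x₂ x₃ ℓ n : K}
    (v₁ : x₁ + x₂ + x₃ = ℓ ^ 2 + A * ℓ - B)
    (v₂ : x₁ * x₂ + x₁ * x₃ + x₂ * x₃ = C - 2 * ℓ * n - A * n)
    (v₃ : x₁ * x₂ * x₃ = n ^ 2) :
    (ℓ * x₁ + n) * (ℓ * x₂ + n) * (ℓ * x₃ + n) = n * (n ^ 2 - B * ℓ * n + C * ℓ ^ 2) ∧
    x₁ * (ℓ * x₂ + n) * (ℓ * x₃ + n) + (ℓ * x₁ + n) * x₂ * (ℓ * x₃ + n)
      + (ℓ * x₁ + n) * (ℓ * x₂ + n) * x₃ = n * (2 * C * ℓ - A * ℓ * n - B * n) := by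
  constructor
  · linear_combination ℓ ^ 3 * v₃ + ℓ ^ 2 * n * v₂ + ℓ * n ^ 2 * v₁
  · linear_combination 3 * ℓ ^ 2 * v₃ + 2 * ℓ * n * v₂ + n ^ 2 * v₁

/-- Bounds for the line `1 = n w + ℓ z` through two `z`-chart points. -/
theorem gzchart_line (hA : v A ≤ 1) (hB : v B ≤ 1) (hC : v C ≤ 1) {z₁ w₁ z₂ w₂ ℓ n : K}
    (hz₁ : v z₁ < 1) (hz₂ : v z₂ < 1) (hw₁ : v w₁ = v z₁ ^ 3) (hw₂ : v w₂ = v z₂ ^ 3)
    (hz₂0 : z₂ ≠ 0)
    (L₂ : 1 = n * w₂ + ℓ * z₂)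
    (hD : ℓ * (1 + A * z₁ - B * z₁ ^ 2 - C * z₁ * (w₁ + w₂)) +
      n * (z₁ ^ 2 + z₁ * z₂ + z₂ ^ 2 + B * (z₁ + z₂) * w₂ + C * w₂ ^ 2 - A * w₂) = 0) :
    n ≠ 0 ∧ v (1 / n) < v z₂ ∧ v (ℓ / n) < max (v z₁) (v z₂) := by
  have hvz₂0 : v z₂ ≠ 0 := (v.ne_zero_iff).mpr hz₂0
  have hvz₂pos : 0 < v z₂ := zero_lt_iff.mpr hvz₂0
  have hMpos : 0 < max (v z₁) (v z₂) := lt_of_lt_of_le hvz₂pos (le_max_right _ _)
  have hw₁' : v w₁ < 1 := by rw [hw₁]; exact pow_lt_one₀ zero_le hz₁ (by norm_num)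
  have hw₂' : v w₂ < 1 := by rw [hw₂]; exact pow_lt_one₀ zero_le hz₂ (by norm_num)
  have hw₂'' : v w₂ < v z₂ := by
    rw [hw₂]
    calc v z₂ ^ 3 = v z₂ ^ 2 * v z₂ := pow_succ _ 2
      _ < 1 * v z₂ := by
        have : v z₂ ^ 2 < 1 := pow_lt_one₀ zero_le hz₂ (by norm_num)
        exact mul_lt_mul_of_pos_right this hvz₂pos
      _ = v z₂ := one_mul _
  set U := 1 + A * z₁ - B * z₁ ^ 2 - C * z₁ * (w₁ + w₂) with hUdef
  set V := z₁ ^ 2 + z₁ * z₂ + z₂ ^ 2 + B * (z₁ + z₂) * w₂ + C * w₂ ^ 2 - A * w₂ with hVdef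
  have hU : v U = 1 := by
    have : U = 1 + (A * z₁ - B * z₁ ^ 2 - C * z₁ * (w₁ + w₂)) := by rw [hUdef]; ring
    rw [this]
    apply v.map_one_add_of_lt
    apply v.map_sub_lt
    · apply v.map_sub_lt
      · rw [map_mul, mul_comm]
        exact mul_lt_one_of_lt_of_le hz₁ hA
      · rw [map_mul, map_pow, mul_comm]
        exact mul_lt_one_of_lt_of_le (pow_lt_one₀ zero_le hz₁ (by norm_num)) hB
    · rw [map_mul, map_mul, mul_comm]
      refine mul_lt_one_of_lt_of_le (v.map_add_lt hw₁' hw₂') ?_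
      exact mul_le_one' hC hz₁.le
  -- every term of `V` is smaller than `max (v z₁) (v z₂)`
  have hsmall : ∀ a b : K, v a ≤ max (v z₁) (v z₂) → v b < 1 → v (a * b) < max (v z₁) (v z₂) := by
    intro a b ha hb
    rw [map_mul]
    calc v a * v b ≤ max (v z₁) (v z₂) * v b := by gcongr
      _ < max (v z₁) (v z₂) * 1 := mul_lt_mul_of_pos_left hb hMpos
      _ = max (v z₁) (v z₂) := mul_one _
  have hw₂M : v w₂ < max (v z₁) (v z₂) := lt_of_lt_of_le hw₂'' (le_max_right _ _)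
  have hVM : v V < max (v z₁) (v z₂) := by
    rw [hVdef]
    refine v.map_sub_lt (v.map_add_lt (v.map_add_lt (v.map_add_lt (v.map_add_lt ?_ ?_) ?_) ?_) ?_)
      ?_
    · rw [pow_two]; exact hsmall z₁ z₁ (le_max_left _ _) hz₁
    · exact hsmall z₁ z₂ (le_max_left _ _) hz₂
    · rw [pow_two]; exact hsmall z₂ z₂ (le_max_right _ _) hz₂
    · have : B * (z₁ + z₂) * w₂ = (B * (z₁ + z₂)) * w₂ := rfl
      rw [this, mul_comm]
      refine hsmall w₂ _ hw₂M.le ?_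
      rw [map_mul, mul_comm]
      exact mul_lt_one_of_lt_of_le (v.map_add_lt hz₁ hz₂) hB
    · have : C * w₂ ^ 2 = w₂ * (C * w₂) := by ring
      rw [this]
      refine hsmall w₂ _ hw₂M.le ?_
      rw [map_mul, mul_comm]
      exact mul_lt_one_of_lt_of_le hw₂' hC
    · rw [map_mul]
      calc v A * v w₂ ≤ 1 * v w₂ := by gcongr
        _ = v w₂ := one_mul _
        _ < max (v z₁) (v z₂) := hw₂M
  have hV : v V < 1 := lt_trans hVM (max_lt hz₁ hz₂)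
  have hU0 : U ≠ 0 := by
    intro h; rw [h, map_zero] at hU; exact zero_ne_one hU
  have key : U = n * (U * w₂ - z₂ * V) := by linear_combination U * L₂ + z₂ * hD
  have hn : n ≠ 0 := by
    rintro rfl; rw [zero_mul] at key; exact hU0 key
  have h1n : 1 / n = (U * w₂ - z₂ * V) / U := by
    field_simp
    linear_combination key
  refine ⟨hn, ?_, ?_⟩
  · rw [h1n, map_div₀, hU, div_one]
    apply v.map_sub_lt
    · rw [map_mul, hU, one_mul]; exact hw₂''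
    · rw [map_mul]
      calc v z₂ * v V < v z₂ * 1 := mul_lt_mul_of_pos_left hV hvz₂pos
        _ = v z₂ := mul_one _
  · have : ℓ / n = -V / U := by
      field_simp
      linear_combination hD
    rw [this, map_div₀, hU, div_one, Valuation.map_neg]
    exact hVM

/-- The relation `ℓ U + n V = 0` between the affine line `y = ℓ x + n` and the `z`-chart. -/
theorem gzchart_hD (hA : v A ≤ 1) (hB : v B ≤ 1) (hC : v C ≤ 1)
    {x₁ y₁ x₂ y₂ x₃ ℓ n : K}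
    (e₁ : y₁ ^ 2 + A * x₁ * y₁ = x₁ ^ 3 + B * x₁ ^ 2 + C * x₁)
    (e₂ : y₂ ^ 2 + A * x₂ * y₂ = x₂ ^ 3 + B * x₂ ^ 2 + C * x₂)
    (l₁ : y₁ = ℓ * x₁ + n) (l₂ : y₂ = ℓ * x₂ + n)
    (v₁ : x₁ + x₂ + x₃ = ℓ ^ 2 + A * ℓ - B)
    (v₂ : x₁ * x₂ + x₁ * x₃ + x₂ * x₃ = C - 2 * ℓ * n - A * n)
    (h₁ : 1 < v x₁) (h₂ : 1 < v x₂) :
    ℓ * (1 + A * (x₁ / y₁) - B * (x₁ / y₁) ^ 2 - C * (x₁ / y₁) * (1 / y₁ + 1 / y₂)) +
      n * ((x₁ / y₁) ^ 2 + (x₁ / y₁) * (x₂ / y₂) + (x₂ / y₂) ^ 2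
        + B * (x₁ / y₁ + x₂ / y₂) * (1 / y₂) + C * (1 / y₂) ^ 2 - A * (1 / y₂)) = 0 := by
  obtain ⟨hy₁, hz₁, hw₁, -, hz₁0⟩ := ge1_pt v hA hB hC e₁ h₁
  obtain ⟨hy₂, hz₂, hw₂, -, hz₂0⟩ := ge1_pt v hA hB hC e₂ h₂
  have Z₁ := gzchart_eq e₁ hy₁
  have Z₂ := gzchart_eq e₂ hy₂
  have dd := gzchart_dd Z₁ Z₂
  have L₁ : 1 = n * (1 / y₁) + ℓ * (x₁ / y₁) := by
    field_simp; linear_combination l₁
  have L₂ : 1 = n * (1 / y₂) + ℓ * (x₂ / y₂) := by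
    field_simp; linear_combination l₂
  by_cases hx : x₁ = x₂
  · subst hx
    have hy : y₁ = y₂ := by rw [l₁, l₂]
    subst hy
    have ht : 2 * ℓ * y₁ + A * ℓ * x₁ + A * y₁ = 3 * x₁ ^ 2 + 2 * B * x₁ + C := by
      linear_combination (-2 * x₁) * v₁ + v₂ + (2 * ℓ + A) * l₁
    have key : ℓ * (y₁ ^ 2 + A * x₁ * y₁ - B * x₁ ^ 2 - 2 * C * x₁)
        + n * (3 * x₁ ^ 2 + 2 * B * x₁ + C - A * y₁) = 0 := by
      linear_combination (3 * ℓ) * e₁ - y₁ * ht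
        - (3 * x₁ ^ 2 + 2 * B * x₁ + C - A * y₁) * l₁
    have : ℓ * (1 + A * (x₁ / y₁) - B * (x₁ / y₁) ^ 2 - C * (x₁ / y₁) * (1 / y₁ + 1 / y₁)) +
        n * ((x₁ / y₁) ^ 2 + (x₁ / y₁) * (x₁ / y₁) + (x₁ / y₁) ^ 2
          + B * (x₁ / y₁ + x₁ / y₁) * (1 / y₁) + C * (1 / y₁) ^ 2 - A * (1 / y₁))
        = (ℓ * (y₁ ^ 2 + A * x₁ * y₁ - B * x₁ ^ 2 - 2 * C * x₁)
            + n * (3 * x₁ ^ 2 + 2 * B * x₁ + C - A * y₁)) / y₁ ^ 2 := by
      field_simp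
      ring
    rw [this, key, zero_div]
  · have hU : v (1 + A * (x₁ / y₁) - B * (x₁ / y₁) ^ 2
        - C * (x₁ / y₁) * (1 / y₁ + 1 / y₂)) = 1 := by
      have hw₁' : v (1 / y₁) < 1 := by rw [hw₁]; exact pow_lt_one₀ zero_le hz₁ (by norm_num)
      have hw₂' : v (1 / y₂) < 1 := by rw [hw₂]; exact pow_lt_one₀ zero_le hz₂ (by norm_num)
      have : 1 + A * (x₁ / y₁) - B * (x₁ / y₁) ^ 2 - C * (x₁ / y₁) * (1 / y₁ + 1 / y₂)
          = 1 + (A * (x₁ / y₁) - B * (x₁ / y₁) ^ 2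
              - C * (x₁ / y₁) * (1 / y₁ + 1 / y₂)) := by ring
      rw [this]
      apply v.map_one_add_of_lt
      apply v.map_sub_lt
      · apply v.map_sub_lt
        · rw [map_mul, mul_comm]
          exact mul_lt_one_of_lt_of_le hz₁ hA
        · rw [map_mul, map_pow, mul_comm]
          exact mul_lt_one_of_lt_of_le (pow_lt_one₀ zero_le hz₁ (by norm_num)) hB
      · rw [map_mul, map_mul, mul_comm]
        refine mul_lt_one_of_lt_of_le (v.map_add_lt hw₁' hw₂') ?_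
        exact mul_le_one' hC hz₁.le
    have hU0 : (1 + A * (x₁ / y₁) - B * (x₁ / y₁) ^ 2
        - C * (x₁ / y₁) * (1 / y₁ + 1 / y₂)) ≠ 0 := by
      intro h; rw [h, map_zero] at hU; exact zero_ne_one hU
    have hz : x₁ / y₁ - x₂ / y₂ ≠ 0 := by
      intro hz
      rw [hz, zero_mul] at dd
      have hw : 1 / y₁ - 1 / y₂ = 0 := by
        rcases mul_eq_zero.mp dd with h | h
        · exact h
        · exact absurd h hU0
      have hyy : y₁ = y₂ := by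
        have := sub_eq_zero.mp hw
        field_simp at this
        exact this.symm
      apply hx
      have := sub_eq_zero.mp hz
      rw [hyy] at this
      field_simp at this
      exact this
    apply mul_left_cancel₀ hz
    linear_combination
      (1 + A * (x₁ / y₁) - B * (x₁ / y₁) ^ 2 - C * (x₁ / y₁) * (1 / y₁ + 1 / y₂)) * (L₂ - L₁)
        - n * dd

theorem ge1_aux_diff (A Z z₁ z₂ : K) (hu : 1 + A * Z ≠ 0) :
    -Z / (1 + A * Z) - z₁ - z₂ = A * Z ^ 2 / (1 + A * Z) - (z₁ + z₂ + Z) := by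
  have h1 : -Z / (1 + A * Z) = A * Z ^ 2 / (1 + A * Z) - Z := by
    rw [eq_sub_iff_add_eq, div_add' _ _ _ hu, div_left_inj' hu]; ring
  rw [h1]; ring

/-- Core of the `E₁` theory: the sum of two points of `E₁` (when affine) lies in `E₁`, and
`z = x / y` is additive up to an error smaller than `max (v z₁) (v z₂)`. -/
theorem ge1_core (hA : v A ≤ 1) (hB : v B ≤ 1) (hC : v C ≤ 1)
    {x₁ y₁ x₂ y₂ x₃ y₃ ℓ n : K}
    (e₁ : y₁ ^ 2 + A * x₁ * y₁ = x₁ ^ 3 + B * x₁ ^ 2 + C * x₁)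
    (e₂ : y₂ ^ 2 + A * x₂ * y₂ = x₂ ^ 3 + B * x₂ ^ 2 + C * x₂)
    (e₃ : y₃ ^ 2 + A * x₃ * y₃ = x₃ ^ 3 + B * x₃ ^ 2 + C * x₃)
    (l₁ : y₁ = ℓ * x₁ + n) (l₂ : y₂ = ℓ * x₂ + n) (l₃ : -y₃ - A * x₃ = ℓ * x₃ + n)
    (v₁ : x₁ + x₂ + x₃ = ℓ ^ 2 + A * ℓ - B)
    (v₂ : x₁ * x₂ + x₁ * x₃ + x₂ * x₃ = C - 2 * ℓ * n - A * n)
    (v₃ : x₁ * x₂ * x₃ = n ^ 2)
    (h₁ : 1 < v x₁) (h₂ : 1 < v x₂) :
    1 < v x₃ ∧ v (x₃ / y₃ - x₁ / y₁ - x₂ / y₂) < max (v (x₁ / y₁)) (v (x₂ / y₂)) := by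
  obtain ⟨hy₁, hz₁, hw₁, -, hz₁0⟩ := ge1_pt v hA hB hC e₁ h₁
  obtain ⟨hy₂, hz₂, hw₂, -, hz₂0⟩ := ge1_pt v hA hB hC e₂ h₂
  have hD := gzchart_hD v hA hB hC e₁ e₂ l₁ l₂ v₁ v₂ h₁ h₂
  have L₂ : 1 = n * (1 / y₂) + ℓ * (x₂ / y₂) := by
    field_simp; linear_combination l₂
  obtain ⟨hn, hnu, hlam⟩ := gzchart_line v hA hB hC hz₁ hz₂ hw₁ hw₂ hz₂0 L₂ hD
  set M := max (v (x₁ / y₁)) (v (x₂ / y₂)) with hMdef
  have hM1 : M < 1 := max_lt hz₁ hz₂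
  have hMpos : 0 < M :=
    lt_of_lt_of_le (zero_lt_iff.mpr ((v.ne_zero_iff).mpr hz₂0)) (le_max_right _ _)
  have hnuM : v (1 / n) < M := lt_of_lt_of_le hnu (le_max_right _ _)
  have hlam1 : v (ℓ / n) < 1 := lt_trans hlam hM1
  -- the third point of the line
  set Y₃ := ℓ * x₃ + n with hY₃def
  have hy₃Y : y₃ = -Y₃ - A * x₃ := by linear_combination -l₃
  have e₃' : Y₃ ^ 2 + A * x₃ * Y₃ = x₃ ^ 3 + B * x₃ ^ 2 + C * x₃ := by
    rw [← e₃, hy₃Y]; ring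
  obtain ⟨I₁, I₂⟩ := gvieta_prod v₁ v₂ v₃
  rw [← l₁, ← l₂, ← hY₃def] at I₁ I₂
  -- the unit `1 - B λ + C λ²`
  have hu : v (1 - (B * (ℓ / n) - C * (ℓ / n) ^ 2)) = 1 := by
    apply v.map_one_sub_of_lt
    apply v.map_sub_lt
    · rw [map_mul, mul_comm]; exact mul_lt_one_of_lt_of_le hlam1 hB
    · rw [map_mul, map_pow, mul_comm]
      exact mul_lt_one_of_lt_of_le (pow_lt_one₀ zero_le hlam1 (by norm_num)) hC
  have hu0 : (1 - (B * (ℓ / n) - C * (ℓ / n) ^ 2)) ≠ 0 := by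
    intro h; rw [h, map_zero] at hu; exact zero_ne_one hu
  have hq : n ^ 2 - B * ℓ * n + C * ℓ ^ 2 = n ^ 2 * (1 - (B * (ℓ / n) - C * (ℓ / n) ^ 2)) := by
    field_simp
    ring
  have hq0 : n ^ 2 - B * ℓ * n + C * ℓ ^ 2 ≠ 0 := by
    rw [hq]; exact mul_ne_zero (pow_ne_zero 2 hn) hu0
  have hY₃ : Y₃ ≠ 0 := by
    intro h
    rw [h, mul_zero] at I₁
    exact (mul_ne_zero hn hq0) I₁.symm
  -- the sum of the three `z`'s on the line
  have hsum : x₁ / y₁ + x₂ / y₂ + x₃ / Y₃ =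
      ((1 / n) * (2 * C * (ℓ / n) - B) - A * (ℓ / n)) / (1 - (B * (ℓ / n) - C * (ℓ / n) ^ 2)) := by
    have e : x₁ / y₁ + x₂ / y₂ + x₃ / Y₃ =
        (x₁ * y₂ * Y₃ + y₁ * x₂ * Y₃ + y₁ * y₂ * x₃) / (y₁ * y₂ * Y₃) := by
      field_simp
    rw [e, I₁, I₂, hq]
    field_simp
    ring
  have hv2 : v (2 : K) ≤ 1 := by
    have : (2 : K) = 1 + 1 := by norm_num
    rw [this]; exact v.map_add_le (by simp) (by simp)
  have hnum : v (2 * C * (ℓ / n) - B) ≤ 1 := by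
    apply v.map_sub_le _ hB
    rw [map_mul, map_mul]
    exact mul_le_one' (mul_le_one' hv2 hC) hlam1.le
  have hsumM : v (x₁ / y₁ + x₂ / y₂ + x₃ / Y₃) < M := by
    rw [hsum, map_div₀, hu, div_one]
    apply v.map_sub_lt
    · rw [map_mul]
      calc v (1 / n) * v (2 * C * (ℓ / n) - B) ≤ v (1 / n) * 1 := by gcongr
        _ = v (1 / n) := mul_one _
        _ < M := hnuM
    · rw [map_mul]
      calc v A * v (ℓ / n) ≤ 1 * v (ℓ / n) := by gcongr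
        _ = v (ℓ / n) := one_mul _
        _ < M := hlam
  -- `Z₃ = x₃ / Y₃` is small
  have hZ₃M : v (x₃ / Y₃) ≤ M := by
    have : x₃ / Y₃ = (x₁ / y₁ + x₂ / y₂ + x₃ / Y₃) - x₁ / y₁ - x₂ / y₂ := by ring
    rw [this]
    exact v.map_sub_le (v.map_sub_le hsumM.le (le_max_left _ _)) (le_max_right _ _)
  have hZ₃ : v (x₃ / Y₃) < 1 := lt_of_le_of_lt hZ₃M hM1
  have hAZ : v (A * (x₃ / Y₃)) < 1 := by
    rw [map_mul, mul_comm]; exact mul_lt_one_of_lt_of_le hZ₃ hA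
  have hunit : v (1 + A * (x₃ / Y₃)) = 1 := v.map_one_add_of_lt hAZ
  have hunit0 : 1 + A * (x₃ / Y₃) ≠ 0 := by
    intro h; rw [h, map_zero] at hunit; exact zero_ne_one hunit
  have hy₃' : y₃ = -Y₃ * (1 + A * (x₃ / Y₃)) := by
    rw [hy₃Y]; field_simp; ring
  have hy₃0 : y₃ ≠ 0 := by
    rw [hy₃']; exact mul_ne_zero (neg_ne_zero.mpr hY₃) hunit0
  have hz₃ : x₃ / y₃ = -(x₃ / Y₃) / (1 + A * (x₃ / Y₃)) := by
    rw [hy₃']; field_simp
  have hdiff : x₃ / y₃ - x₁ / y₁ - x₂ / y₂ =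
      A * (x₃ / Y₃) ^ 2 / (1 + A * (x₃ / Y₃)) - (x₁ / y₁ + x₂ / y₂ + x₃ / Y₃) := by
    rw [hz₃]; exact ge1_aux_diff A (x₃ / Y₃) (x₁ / y₁) (x₂ / y₂) hunit0
  have hbound : v (x₃ / y₃ - x₁ / y₁ - x₂ / y₂) < M := by
    rw [hdiff]
    apply v.map_sub_lt _ hsumM
    rw [map_div₀, hunit, div_one, map_mul, map_pow, pow_two]
    calc v A * (v (x₃ / Y₃) * v (x₃ / Y₃)) ≤ 1 * (M * v (x₃ / Y₃)) := by gcongr
      _ = M * v (x₃ / Y₃) := one_mul _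
      _ < M * 1 := mul_lt_mul_of_pos_left hZ₃ hMpos
      _ = M := mul_one _
  refine ⟨?_, hbound⟩
  -- `W₃ = 1 / Y₃` is small
  have hW₃eq : 1 / Y₃ = 1 / n - (ℓ / n) * (x₃ / Y₃) := by
    field_simp
    rw [hY₃def]; ring
  have hW₃ : v (1 / Y₃) < 1 := by
    rw [hW₃eq]
    apply v.map_sub_lt
    · exact lt_trans hnuM hM1
    · rw [map_mul]; exact mul_lt_one_of_lt_of_le hlam1 hZ₃.le
  have Z₃ := gzchart_eq e₃' hY₃
  have hu₃ : v (1 + (A * (x₃ / Y₃) - B * (x₃ / Y₃) ^ 2 - C * (x₃ / Y₃) * (1 / Y₃))) = 1 := by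
    apply v.map_one_add_of_lt
    apply v.map_sub_lt
    · apply v.map_sub_lt hAZ
      rw [map_mul, map_pow, mul_comm]
      exact mul_lt_one_of_lt_of_le (pow_lt_one₀ zero_le hZ₃ (by norm_num)) hB
    · rw [map_mul, map_mul, mul_comm]
      exact mul_lt_one_of_lt_of_le hW₃ (mul_le_one' hC hZ₃.le)
  have hW₃' : v (1 / Y₃) = v (x₃ / Y₃) ^ 3 := by
    have : (1 / Y₃) * (1 + (A * (x₃ / Y₃) - B * (x₃ / Y₃) ^ 2 - C * (x₃ / Y₃) * (1 / Y₃)))
        = (x₃ / Y₃) ^ 3 := by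
      linear_combination Z₃
    rw [← map_pow, ← this, map_mul, hu₃, mul_one]
  have hvY₃ : v Y₃ ≠ 0 := (v.ne_zero_iff).mpr hY₃
  have hZ₃0 : v (x₃ / Y₃) ≠ 0 := by
    intro h
    rw [h, zero_pow (by norm_num), map_div₀, map_one] at hW₃'
    exact (div_ne_zero one_ne_zero hvY₃) hW₃'
  have hx₃ : x₃ = (x₃ / Y₃) / (1 / Y₃) := by field_simp
  rw [hx₃, map_div₀, hW₃']
  have hZ₃pos : 0 < v (x₃ / Y₃) := zero_lt_iff.mpr hZ₃0
  rw [lt_div_iff₀ (pow_pos hZ₃pos 3), one_mul]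
  calc v (x₃ / Y₃) ^ 3 = v (x₃ / Y₃) ^ 2 * v (x₃ / Y₃) := pow_succ _ 2
    _ < 1 * v (x₃ / Y₃) :=
        mul_lt_mul_of_pos_right (pow_lt_one₀ zero_le hZ₃ (by norm_num)) hZ₃pos
    _ = v (x₃ / Y₃) := one_mul _

end core

/-! ## Point-level statements -/

section points

variable [DecidableEq K] {W : WeierstrassCurve K}

theorem ge1_natCast_le_one (n : ℕ) : v (n : K) ≤ 1 := by
  induction n with
  | zero => simp
  | succ n ih =>
    rw [Nat.cast_succ]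
    exact v.map_add_le ih (by simp)

/-- `E₁` is stable under negation. -/
theorem ge1_neg (hW : GShape W) (P : W.toAffine.Point) : InE1 v (-P) ↔ InE1 v P := by
  rcases P with _ | ⟨x, y, h⟩
  · exact Iff.rfl
  · obtain ⟨h', e⟩ := hW.neg_some h
    rw [e]; exact Iff.rfl

/-- For an affine point of `E₁` the value `z = x / y` is nonzero of valuation `< 1`. -/
theorem ge1_zfun (hW : GShape W) (hA : v W.a₁ ≤ 1) (hB : v W.a₂ ≤ 1) (hC : v W.a₄ ≤ 1)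
    {P : W.toAffine.Point} (hP : InE1 v P) (hP0 : P ≠ 0) :
    zfun P ≠ 0 ∧ v (zfun P) < 1 := by
  rcases P with _ | ⟨x, y, hxy⟩
  · exact absurd rfl hP0
  · have e := (hW.equation_iff x y).mp hxy.1
    obtain ⟨-, hz, -, -, hz0⟩ := ge1_pt v hA hB hC e hP
    exact ⟨hz0, hz⟩

/-- `E₁` is closed under addition, and `z` is additive up to an error smaller than
`max (v (z P)) (v (z Q))`. -/
theorem ge1_add_aux (hW : GShape W) (hA : v W.a₁ ≤ 1) (hB : v W.a₂ ≤ 1) (hC : v W.a₄ ≤ 1)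
    {P Q : W.toAffine.Point} (hP : InE1 v P) (hQ : InE1 v Q) :
    InE1 v (P + Q) ∧
      (Q ≠ 0 → v (zfun (P + Q) - zfun P - zfun Q) < max (v (zfun P)) (v (zfun Q))) := by
  rcases P with _ | ⟨x₁, y₁, h₁⟩
  · change InE1 v ((0 : W.toAffine.Point) + Q) ∧
      (Q ≠ 0 → v (zfun ((0 : W.toAffine.Point) + Q) - zfun (0 : W.toAffine.Point) - zfun Q)
        < max (v (zfun (0 : W.toAffine.Point))) (v (zfun Q)))
    rw [zero_add]
    refine ⟨hQ, fun hQ0 => ?_⟩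
    obtain ⟨hz0, -⟩ := ge1_zfun v hW hA hB hC hQ hQ0
    simp only [zfun_zero, sub_zero, sub_self, map_zero]
    exact lt_of_lt_of_le (zero_lt_iff.mpr ((v.ne_zero_iff).mpr hz0)) (le_max_right _ _)
  rcases Q with _ | ⟨x₂, y₂, h₂⟩
  · change InE1 v (Point.some x₁ y₁ h₁ + (0 : W.toAffine.Point)) ∧ _
    rw [add_zero]
    exact ⟨hP, fun h => absurd rfl h⟩
  have e₁ := (hW.equation_iff x₁ y₁).mp h₁.1
  have e₂ := (hW.equation_iff x₂ y₂).mp h₂.1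
  have hP' : 1 < v x₁ := hP
  have hQ' : 1 < v x₂ := hQ
  obtain ⟨hy₁, hz₁, -, -, hz₁0⟩ := ge1_pt v hA hB hC e₁ hP'
  obtain ⟨hy₂, hz₂, -, -, hz₂0⟩ := ge1_pt v hA hB hC e₂ hQ'
  by_cases hne : x₁ = x₂ ∧ y₁ = -y₂ - W.a₁ * x₂
  · have hsum : Point.some x₁ y₁ h₁ + Point.some x₂ y₂ h₂ = 0 :=
      Point.add_of_Y_eq hne.1 (by rw [hW.negY]; exact hne.2)
    rw [hsum]
    refine ⟨trivial, fun _ => ?_⟩
    simp only [zfun_zero, zfun_some]
    obtain ⟨hx, hy⟩ := hne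
    subst hx
    have hAZ : v (W.a₁ * (x₁ / y₂)) < 1 := by
      rw [map_mul, mul_comm]; exact mul_lt_one_of_lt_of_le hz₂ hA
    have hunit : v (1 + W.a₁ * (x₁ / y₂)) = 1 := v.map_one_add_of_lt hAZ
    have hunit0 : 1 + W.a₁ * (x₁ / y₂) ≠ 0 := by
      intro h; rw [h, map_zero] at hunit; exact zero_ne_one hunit
    have hy₁' : y₁ = -y₂ * (1 + W.a₁ * (x₁ / y₂)) := by
      rw [hy]; field_simp; ring
    have hz₁eq : x₁ / y₁ = -(x₁ / y₂) / (1 + W.a₁ * (x₁ / y₂)) := by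
      rw [hy₁']; field_simp
    have hkey : (0 : K) - x₁ / y₁ - x₁ / y₂ =
        -(W.a₁ * (x₁ / y₂) ^ 2 / (1 + W.a₁ * (x₁ / y₂))) := by
      rw [hz₁eq]
      have := ge1_aux_diff W.a₁ (x₁ / y₂) 0 0 hunit0
      linear_combination -this
    rw [hkey, Valuation.map_neg, map_div₀, hunit, div_one, map_mul, map_pow, pow_two]
    have hz₂pos : 0 < v (x₁ / y₂) := zero_lt_iff.mpr ((v.ne_zero_iff).mpr hz₂0)
    calc v W.a₁ * (v (x₁ / y₂) * v (x₁ / y₂)) ≤ 1 * (v (x₁ / y₂) * v (x₁ / y₂)) := by gcongr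
      _ = v (x₁ / y₂) * v (x₁ / y₂) := one_mul _
      _ < v (x₁ / y₂) * 1 := mul_lt_mul_of_pos_left hz₂ hz₂pos
      _ = v (x₁ / y₂) := mul_one _
      _ ≤ max (v (x₁ / y₁)) (v (x₁ / y₂)) := le_max_right _ _
  · obtain ⟨ℓ, n, x₃, y₃, h₃, hsum, l₁, l₂, l₃, v₁, v₂, v₃⟩ := hW.add_collinear h₁ h₂ hne
    have e₃ := (hW.equation_iff x₃ y₃).mp h₃.1
    obtain ⟨hx₃, hb⟩ := ge1_core v hA hB hC e₁ e₂ e₃ l₁ l₂ l₃ v₁ v₂ v₃ hP' hQ'
    rw [hsum]
    exact ⟨hx₃, fun _ => hb⟩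

/-- `E₁` is closed under addition. -/
theorem ge1_add (hW : GShape W) (hA : v W.a₁ ≤ 1) (hB : v W.a₂ ≤ 1) (hC : v W.a₄ ≤ 1)
    {P Q : W.toAffine.Point} (hP : InE1 v P) (hQ : InE1 v Q) : InE1 v (P + Q) :=
  (ge1_add_aux v hW hA hB hC hP hQ).1

/-- `E₁` is closed under subtraction. -/
theorem ge1_sub (hW : GShape W) (hA : v W.a₁ ≤ 1) (hB : v W.a₂ ≤ 1) (hC : v W.a₄ ≤ 1)
    {P Q : W.toAffine.Point} (hP : InE1 v P) (hQ : InE1 v Q) : InE1 v (P - Q) := by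
  rw [sub_eq_add_neg]
  exact ge1_add v hW hA hB hC hP ((ge1_neg v hW Q).mpr hQ)

/-- `E₁` is closed under multiplication by natural numbers, and `z (m • P) ≡ m z(P)` up to an
error smaller than `v (z P)`. -/
theorem ge1_nsmul_aux (hW : GShape W) (hA : v W.a₁ ≤ 1) (hB : v W.a₂ ≤ 1) (hC : v W.a₄ ≤ 1)
    {P : W.toAffine.Point} (hP : InE1 v P) (hP0 : P ≠ 0) (m : ℕ) :
    InE1 v (m • P) ∧ v (zfun (m • P) - m * zfun P) < v (zfun P) := by
  obtain ⟨hz0, -⟩ := ge1_zfun v hW hA hB hC hP hP0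
  have hvz0 : 0 < v (zfun P) := zero_lt_iff.mpr ((v.ne_zero_iff).mpr hz0)
  induction m with
  | zero =>
    rw [zero_smul]
    refine ⟨trivial, ?_⟩
    simp only [zfun_zero, Nat.cast_zero, zero_mul, sub_self, map_zero]
    exact hvz0
  | succ m ih =>
    obtain ⟨ih₁, ih₂⟩ := ih
    rw [succ_nsmul]
    obtain ⟨h₁, h₂⟩ := ge1_add_aux v hW hA hB hC ih₁ hP
    refine ⟨h₁, ?_⟩
    have hmz : v ((m : K) * zfun P) ≤ v (zfun P) := by
      rw [map_mul]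
      calc v (m : K) * v (zfun P) ≤ 1 * v (zfun P) := by
            gcongr
            exact ge1_natCast_le_one v m
        _ = v (zfun P) := one_mul _
    have hzm : v (zfun (m • P)) ≤ v (zfun P) := by
      have : zfun (m • P) = (zfun (m • P) - m * zfun P) + m * zfun P := by ring
      rw [this]
      exact v.map_add_le ih₂.le hmz
    have : zfun (m • P + P) - ((m + 1 : ℕ) : K) * zfun P
        = (zfun (m • P + P) - zfun (m • P) - zfun P) + (zfun (m • P) - m * zfun P) := by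
      push_cast; ring
    rw [this]
    exact v.map_add_lt (lt_of_lt_of_le (h₂ hP0) (max_le hzm le_rfl)) ih₂

/-- `E₁` is closed under multiplication by natural numbers. -/
theorem ge1_nsmul (hW : GShape W) (hA : v W.a₁ ≤ 1) (hB : v W.a₂ ≤ 1) (hC : v W.a₄ ≤ 1)
    {P : W.toAffine.Point} (hP : InE1 v P) (m : ℕ) : InE1 v (m • P) := by
  by_cases hP0 : P = 0
  · rw [hP0, smul_zero]; trivial
  · exact (ge1_nsmul_aux v hW hA hB hC hP hP0 m).1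

/-- `E₁` has no `n`-torsion when `n` is a unit for `v`. -/
theorem ge1_torsion_free (hW : GShape W) (hA : v W.a₁ ≤ 1) (hB : v W.a₂ ≤ 1) (hC : v W.a₄ ≤ 1)
    {n : ℕ} (hn : v (n : K) = 1) {P : W.toAffine.Point} (hP : InE1 v P) (h : n • P = 0) :
    P = 0 := by
  by_contra hP0
  have := (ge1_nsmul_aux v hW hA hB hC hP hP0 n).2
  rw [h] at this
  simp only [zfun_zero, zero_sub, Valuation.map_neg, map_mul, hn, one_mul] at this
  exact lt_irrefl _ this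

end points

end Fermat.Agent.S13lib
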