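import Fermat.Agent.S13lib.GCurve

/-!
# S13 library, piece B3 (helper18): the same-reduction lemma for curves
`y² + a₁ x y = x³ + a₂ x² + a₄ x`

Two integral points with the same nonsingular reduction differ by an element of the kernel of
reduction `E₁`; the points of `E₀` (unit `x`) have nonsingular reduction when `a₄` is small and
`a₁² + 4 a₂` is a unit; hence an inertial automorphism moves every point of `E₀` by an element
of `E₁`.
-/

set_option autoImplicit false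
set_option linter.unusedSectionVars false
set_option linter.unusedVariables false

namespace Fermat.Agent.S13lib

open WeierstrassCurve WeierstrassCurve.Affine
open Fermat.Agent.S05lib (IsInertial InE1 InE0)

variable {K : Type*} [Field K] [DecidableEq K]
  {Γ₀ : Type*} [LinearOrderedCommGroupWithZero Γ₀] (v : Valuation K Γ₀)
  {W : WeierstrassCurve K}

section aux

variable {v}
variable {a₁ a₂ a₄ : K}

theorem gsr_natCast_le (k : ℕ) : v (k : K) ≤ 1 := by
  induction k with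
  | zero => simp
  | succ k ih =>
    rw [Nat.cast_succ]
    exact Valuation.map_add_le v ih (by simp)

theorem gsr_mul_le {a b : K} (ha : v a ≤ 1) (hb : v b ≤ 1) : v (a * b) ≤ 1 := by
  rw [map_mul]
  calc v a * v b ≤ 1 * 1 := mul_le_mul' ha hb
    _ = 1 := one_mul _

theorem gsr_mul_lt {a b : K} (ha : v a ≤ 1) (hb : v b < 1) : v (a * b) < 1 := by
  rw [map_mul]
  calc v a * v b ≤ 1 * v b := mul_le_mul_left ha _
    _ = v b := one_mul _
    _ < 1 := hb

theorem gsr_mul_lt' {a b : K} (ha : v a < 1) (hb : v b ≤ 1) : v (a * b) < 1 := by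
  rw [mul_comm]; exact gsr_mul_lt hb ha

theorem gsr_pow_le {a : K} (k : ℕ) (ha : v a ≤ 1) : v (a ^ k) ≤ 1 := by
  rw [map_pow]; exact pow_le_one₀ zero_le ha

/-- An integral `x` gives an integral `y` on `y² + a₁ x y = x³ + a₂ x² + a₄ x`. -/
theorem gsr_val_y_le (h1 : v a₁ ≤ 1) (h2 : v a₂ ≤ 1) (h4 : v a₄ ≤ 1) {x y : K} (hx : v x ≤ 1)
    (e : y ^ 2 + a₁ * x * y = x ^ 3 + a₂ * x ^ 2 + a₄ * x) : v y ≤ 1 := by
  by_contra h
  rw [not_le] at h
  have hax : v (a₁ * x) ≤ 1 := gsr_mul_le h1 hx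
  have hsum : v (y + a₁ * x) = v y :=
    Valuation.map_add_eq_of_lt_left (v := v) (lt_of_le_of_lt hax h)
  have hL : v (y ^ 2 + a₁ * x * y) = v y * v y := by
    have : y ^ 2 + a₁ * x * y = y * (y + a₁ * x) := by ring
    rw [this, map_mul, hsum]
  have hbig : 1 < v y * v y := by
    calc (1 : Γ₀) = 1 * 1 := (one_mul 1).symm
      _ < v y * v y := mul_lt_mul'' h h zero_le zero_le
  have hR : v (x ^ 3 + a₂ * x ^ 2 + a₄ * x) ≤ 1 := by
    refine Valuation.map_add_le v (Valuation.map_add_le v ?_ ?_) ?_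
    · exact gsr_pow_le 3 hx
    · exact gsr_mul_le h2 (gsr_pow_le 2 hx)
    · exact gsr_mul_le h4 hx
  rw [e] at hL
  rw [← hL] at hbig
  exact absurd hbig (not_lt.mpr hR)

/-- If `a * b = c` with `v c = 1` and `v b < 1`, then `1 < v a`. -/
theorem gsr_one_lt_of_mul {a b c : K} (h : a * b = c) (hc : v c = 1) (hb : v b < 1) :
    1 < v a := by
  have h1 : v a * v b = 1 := by rw [← map_mul, h, hc]
  by_contra ha
  rw [not_lt] at ha
  have : v a * v b < 1 := by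
    calc v a * v b ≤ 1 * v b := mul_le_mul_left ha _
      _ = v b := one_mul _
      _ < 1 := hb
  rw [h1] at this
  exact lt_irrefl _ this

/-- Core of the same-reduction lemma, in terms of the chord through `(x', y')` and
`-(x, y) = (x, -y - a₁ x)`. -/
theorem gsr_core (h1 : v a₁ ≤ 1) (h2 : v a₂ ≤ 1) (h4 : v a₄ ≤ 1)
    {x y x' y' x₃ ℓ n : K} (hx : v x ≤ 1) (hy : v y ≤ 1)
    (hxx : v (x' - x) < 1) (hyy : v (y' - y) < 1)
    (hns : v (2 * y + a₁ * x) = 1 ∨ v (3 * x ^ 2 + 2 * a₂ * x + a₄ - a₁ * y) = 1)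
    (l₁ : y' = ℓ * x' + n) (l₂ : -y - a₁ * x = ℓ * x + n)
    (v₁ : x' + x + x₃ = ℓ ^ 2 + a₁ * ℓ - a₂)
    (v₂ : x' * x + x' * x₃ + x * x₃ = a₄ - 2 * ℓ * n - a₁ * n) :
    1 < v x₃ := by
  have hx' : v x' ≤ 1 := by
    have : x' = (x' - x) + x := by ring
    rw [this]; exact Valuation.map_add_le v hxx.le hx
  have hℓ : 1 < v ℓ := by
    rcases hns with h | h
    · have e : ℓ * (x' - x) = (2 * y + a₁ * x) + (y' - y) := by linear_combination l₂ - l₁
      have hu : v ((2 * y + a₁ * x) + (y' - y)) = 1 := by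
        rw [Valuation.map_add_eq_of_lt_left (v := v) (by rw [h]; exact hyy), h]
      exact gsr_one_lt_of_mul e hu hxx
    · have e : ℓ * (y' - y) = (3 * x ^ 2 + 2 * a₂ * x + a₄ - a₁ * y)
          + ((x' - x) * (x' + 2 * x + a₂) - a₁ * (y' - y)) := by
        linear_combination (ℓ + a₁) * l₁ + ℓ * l₂ - (x' + x) * v₁ + v₂
      have hb : v (x' + 2 * x + a₂) ≤ 1 := by
        refine Valuation.map_add_le v (Valuation.map_add_le v hx' ?_) h2
        exact gsr_mul_le (by simpa using gsr_natCast_le (v := v) 2) hx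
      have hsmall : v ((x' - x) * (x' + 2 * x + a₂) - a₁ * (y' - y)) < 1 :=
        Valuation.map_sub_lt v (gsr_mul_lt' hxx hb) (gsr_mul_lt h1 hyy)
      have hu : v ((3 * x ^ 2 + 2 * a₂ * x + a₄ - a₁ * y)
          + ((x' - x) * (x' + 2 * x + a₂) - a₁ * (y' - y))) = 1 := by
        rw [Valuation.map_add_eq_of_lt_left (v := v) (by rw [h]; exact hsmall), h]
      exact gsr_one_lt_of_mul e hu hyy
  have hℓ2 : 1 < v (ℓ ^ 2) := by rw [map_pow]; exact one_lt_pow₀ hℓ (by norm_num)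
  have hℓ0 : (0 : Γ₀) < v ℓ := lt_trans zero_lt_one hℓ
  have haℓ : v (a₁ * ℓ) < v (ℓ ^ 2) := by
    rw [map_mul, map_pow, pow_two]
    calc v a₁ * v ℓ ≤ 1 * v ℓ := mul_le_mul_left h1 _
      _ < v ℓ * v ℓ := by
        exact mul_lt_mul_of_pos_right hℓ hℓ0
  have e₃ : x₃ = ℓ ^ 2 + (a₁ * ℓ + (-(a₂ + x' + x))) := by linear_combination v₁
  have hr : v (-(a₂ + x' + x)) ≤ 1 := by
    rw [Valuation.map_neg]
    exact Valuation.map_add_le v (Valuation.map_add_le v h2 hx') hx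
  have hrest : v (a₁ * ℓ + (-(a₂ + x' + x))) < v (ℓ ^ 2) :=
    Valuation.map_add_lt v haℓ (lt_of_le_of_lt hr hℓ2)
  rw [e₃, Valuation.map_add_eq_of_lt_left (v := v) hrest]
  exact hℓ2

/-- On `y² + a₁ x y = x³ + a₂ x² + a₄ x` with `a₄` small and `a₁² + 4 a₂` a unit, a point with
unit `x`-coordinate has nonsingular reduction. -/
theorem gsr_nonsing_of_unit (h1 : v a₁ ≤ 1) (h2 : v a₂ ≤ 1) (h4 : v a₄ < 1)
    (hD : v (a₁ ^ 2 + 4 * a₂) = 1) {x y : K} (hx : v x = 1)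
    (e : y ^ 2 + a₁ * x * y = x ^ 3 + a₂ * x ^ 2 + a₄ * x) :
    v (2 * y + a₁ * x) = 1 ∨ v (3 * x ^ 2 + 2 * a₂ * x + a₄ - a₁ * y) = 1 := by
  have hy : v y ≤ 1 := gsr_val_y_le h1 h2 h4.le hx.le e
  have hk : ∀ k : ℕ, v ((k : ℕ) : K) ≤ 1 := fun k => gsr_natCast_le k
  have k2 : v (2 : K) ≤ 1 := by simpa using hk 2
  have k3 : v (3 : K) ≤ 1 := by simpa using hk 3
  have k4 : v (4 : K) ≤ 1 := by simpa using hk 4
  have k8 : v (8 : K) ≤ 1 := by simpa using hk 8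
  have hA : v (2 * y + a₁ * x) ≤ 1 :=
    Valuation.map_add_le v (gsr_mul_le k2 hy) (gsr_mul_le h1 hx.le)
  have hB : v (3 * x ^ 2 + 2 * a₂ * x + a₄ - a₁ * y) ≤ 1 := by
    refine Valuation.map_sub_le v (Valuation.map_add_le v (Valuation.map_add_le v ?_ ?_) h4.le)
      (gsr_mul_le h1 hy)
    · exact gsr_mul_le k3 (gsr_pow_le 2 hx.le)
    · exact gsr_mul_le (gsr_mul_le k2 h2) hx.le
  by_contra hcon
  rw [not_or] at hcon
  have hAlt : v (2 * y + a₁ * x) < 1 := lt_of_le_of_ne hA hcon.1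
  have hBlt : v (3 * x ^ 2 + 2 * a₂ * x + a₄ - a₁ * y) < 1 := lt_of_le_of_ne hB hcon.2
  have key : x ^ 2 * (a₁ ^ 2 + 4 * a₂) =
      3 * (2 * y + a₁ * x) * (2 * y + a₁ * x) - 2 * a₁ * x * (2 * y + a₁ * x)
        - 4 * x * (3 * x ^ 2 + 2 * a₂ * x + a₄ - a₁ * y) - 8 * x * a₄ := by
    linear_combination (-12 : K) * e
  have hL : v (x ^ 2 * (a₁ ^ 2 + 4 * a₂)) = 1 := by
    rw [map_mul, map_pow, hx, hD]; simp
  have hR : v (3 * (2 * y + a₁ * x) * (2 * y + a₁ * x) - 2 * a₁ * x * (2 * y + a₁ * x)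
        - 4 * x * (3 * x ^ 2 + 2 * a₂ * x + a₄ - a₁ * y) - 8 * x * a₄) < 1 := by
    refine Valuation.map_sub_lt v (Valuation.map_sub_lt v (Valuation.map_sub_lt v ?_ ?_) ?_) ?_
    · exact gsr_mul_lt (gsr_mul_le k3 hA) hAlt
    · exact gsr_mul_lt (gsr_mul_le (gsr_mul_le k2 h1) hx.le) hAlt
    · exact gsr_mul_lt (gsr_mul_le k4 hx.le) hBlt
    · exact gsr_mul_lt (gsr_mul_le k8 hx.le) h4
  rw [← key, hL] at hR
  exact lt_irrefl _ hR

end aux

/-- **Same-reduction lemma** (B3).  Two affine points `P' = (x', y')`, `P = (x, y)` of a curve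
`y² + a₁ x y = x³ + a₂ x² + a₄ x` with integral coefficients, `P` integral with nonsingular
reduction, and `x' ≡ x`, `y' ≡ y` modulo the maximal ideal: then `P' - P ∈ E₁`. -/
theorem gsame_reduction (hW : GShape W) (h1 : v W.a₁ ≤ 1) (h2 : v W.a₂ ≤ 1) (h4 : v W.a₄ ≤ 1)
    {x y x' y' : K} (h : W.toAffine.Nonsingular x y) (h' : W.toAffine.Nonsingular x' y')
    (hx : v x ≤ 1) (hxx : v (x' - x) < 1) (hyy : v (y' - y) < 1)
    (hns : v (2 * y + W.a₁ * x) = 1 ∨ v (3 * x ^ 2 + 2 * W.a₂ * x + W.a₄ - W.a₁ * y) = 1) :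
    InE1 v (Point.some x' y' h' - Point.some x y h) := by
  have e := (hW.equation_iff x y).mp h.1
  have hy : v y ≤ 1 := gsr_val_y_le h1 h2 h4 hx e
  obtain ⟨hn, hneg⟩ := hW.neg_some h
  rw [sub_eq_add_neg, hneg]
  by_cases hne : x' = x ∧ y' = -(-y - W.a₁ * x) - W.a₁ * x
  · have hsum : Point.some x' y' h' + Point.some x (-y - W.a₁ * x) hn = 0 :=
      Point.add_of_Y_eq hne.1 (by rw [hW.negY]; exact hne.2)
    rw [hsum]
    exact trivial
  · obtain ⟨ℓ, n, x₃, y₃, h₃, hsum, l₁, l₂, l₃, v₁, v₂, v₃⟩ := hW.add_collinear h' hn hne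
    rw [hsum]
    exact gsr_core h1 h2 h4 hx hy hxx hyy hns l₁ l₂ v₁ v₂

/-- Same-reduction lemma in the multiplicative situation (`a₄` small, `a₁² + 4 a₂` a unit):
two points with unit `x`-coordinate and congruent coordinates differ by an element of `E₁`. -/
theorem gsame_reduction_unit (hW : GShape W) (h1 : v W.a₁ ≤ 1) (h2 : v W.a₂ ≤ 1)
    (h4 : v W.a₄ < 1) (hD : v (W.a₁ ^ 2 + 4 * W.a₂) = 1)
    {x y x' y' : K} (h : W.toAffine.Nonsingular x y) (h' : W.toAffine.Nonsingular x' y')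
    (hx : v x = 1) (hxx : v (x' - x) < 1) (hyy : v (y' - y) < 1) :
    InE1 v (Point.some x' y' h' - Point.some x y h) :=
  gsame_reduction v hW h1 h2 h4.le h h' hx.le hxx hyy
    (gsr_nonsing_of_unit h1 h2 h4 hD hx ((hW.equation_iff x y).mp h.1))

/-- **Step 1, second half.**  If `φ` is induced by an inertial `σ` and `Q ∈ E₀`, then
`φ Q - Q ∈ E₁`.  The fact that `E₁` is closed under subtraction (piece B2) enters as the
hypothesis `hE1`. -/
theorem ginertial_sub_mem_E1 (hW : GShape W) (h1 : v W.a₁ ≤ 1) (h2 : v W.a₂ ≤ 1)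
    (h4 : v W.a₄ < 1) (hD : v (W.a₁ ^ 2 + 4 * W.a₂) = 1)
    (hE1 : ∀ P Q : W.toAffine.Point, InE1 v P → InE1 v Q → InE1 v (P - Q))
    (σ : K →+* K) (hσ : IsInertial v σ)
    (φ : W.toAffine.Point →+ W.toAffine.Point)
    (hφ : ∀ (x y : K) (h : W.toAffine.Nonsingular x y),
      ∃ h' : W.toAffine.Nonsingular (σ x) (σ y), φ (Point.some x y h) = Point.some (σ x) (σ y) h')
    (Q : W.toAffine.Point) (hQ : InE0 v Q) : InE1 v (φ Q - Q) := by
  rcases Q with _ | ⟨x, y, h⟩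
  · change InE1 v (φ 0 - 0)
    rw [map_zero, sub_zero]
    exact trivial
  obtain ⟨h', hφQ⟩ := hφ x y h
  rw [hφQ]
  have hQ' : 1 ≤ v x := hQ
  by_cases hx : 1 < v x
  · exact hE1 _ _ (hσ.one_lt x hx) hx
  rw [not_lt] at hx
  have hx1 : v x = 1 := le_antisymm hx hQ'
  have e := (hW.equation_iff x y).mp h.1
  have hy : v y ≤ 1 := gsr_val_y_le h1 h2 h4.le hx e
  exact gsame_reduction_unit v hW h1 h2 h4 hD h h' hx1 (hσ.sub_lt x hx) (hσ.sub_lt y hy)

end Fermat.Agent.S13lib
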