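import Fermat.Agent.S13lib.GInertia
import Fermat.Agent.S13lib.GE1
import Fermat.Agent.S13lib.GSameRed

/-!
# S13 library (piece B4): inertia acts unipotently on prime-to-residue-characteristic torsion
(helper19)

On `y² + a₁ x y = x³ + a₂ x² + a₄ x` with `v a₄ < 1`, `a₄ ≠ 0`, `v (a₁² + 4 a₂) = 1`
(split or non-split multiplicative reduction, node at the origin): for an inertial,
valuation-preserving `σ` and an `n`-torsion point `P` with `v n = 1`,
`(σ - 1)² P = 0`.
-/

set_option autoImplicit false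
set_option linter.unusedSectionVars false
set_option linter.unusedVariables false

namespace Fermat.Agent.S13lib

open WeierstrassCurve WeierstrassCurve.Affine Fermat.Agent.S05lib

variable {K : Type*} [Field K] [DecidableEq K]
  {Γ₀ : Type*} [LinearOrderedCommGroupWithZero Γ₀] (v : Valuation K Γ₀)
  {W : WeierstrassCurve K}

/-- A root `s` of `s² + a₁ s - a₂` has `2 s + a₁` a unit when the discriminant `a₁² + 4 a₂`
is a unit. -/
theorem g_unit_of_disc {a₁ a₂ s : K} (hs : s ^ 2 + a₁ * s - a₂ = 0)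
    (hD : v (a₁ ^ 2 + 4 * a₂) = 1) : v (2 * s + a₁) = 1 := by
  have e : (2 * s + a₁) ^ 2 = a₁ ^ 2 + 4 * a₂ := by linear_combination 4 * hs
  have h2 : v (2 * s + a₁) ^ 2 = 1 := by rw [← map_pow, e, hD]
  exact (pow_eq_one_iff.mp h2).resolve_right two_ne_zero

/-- **Unipotence of inertia** on torsion prime to the residue characteristic. -/
theorem g_unipotent (hW : GShape W) (ha₁ : v W.a₁ ≤ 1) (ha₂ : v W.a₂ ≤ 1)
    (hC : v W.a₄ < 1) (hC0 : W.a₄ ≠ 0)
    {s : K} (hs : s ^ 2 + W.a₁ * s - W.a₂ = 0) (hD : v (W.a₁ ^ 2 + 4 * W.a₂) = 1)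
    (σ : K →+* K) (hσ : IsInertial v σ) (hσv : ∀ a, v (σ a) = v a)
    (φ : W.toAffine.Point →+ W.toAffine.Point)
    (hφ : ∀ (x y : K) (h : W.toAffine.Nonsingular x y),
      ∃ h' : W.toAffine.Nonsingular (σ x) (σ y), φ (Point.some x y h) = Point.some (σ x) (σ y) h')
    {n : ℕ} (hn : v (n : K) = 1) (P : W.toAffine.Point) (hP : n • P = 0) :
    φ (φ P - P) - (φ P - P) = 0 := by
  have hu := g_unit_of_disc v hs hD
  have hQ : InE0 v (φ P - P) := g_inertia_sub_mem_E0 v hW ha₁ ha₂ hC hC0 hs hu σ hσ hσv φ hφ P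
  have hR : InE1 v (φ (φ P - P) - (φ P - P)) :=
    ginertial_sub_mem_E1 v hW ha₁ ha₂ hC hD
      (fun P Q hP hQ => ge1_sub v hW ha₁ ha₂ hC.le hP hQ) σ hσ φ hφ _ hQ
  refine ge1_torsion_free v hW ha₁ ha₂ hC.le hn hR ?_
  have h1 : n • (φ P - P) = 0 := by
    rw [smul_sub, ← map_nsmul, hP, map_zero, sub_zero]
  rw [smul_sub, ← map_nsmul, h1, map_zero, sub_zero]

end Fermat.Agent.S13lib
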