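import Fermat.Agent.S13lib.Defs
import Fermat.Agent.S13lib.GUnip
import Fermat.Agent.S13lib.DecompVal
import Fermat.Agent.S05_Val

/-!
# S13 library (I4): inertia at 2 acts unipotently on the `p`-torsion of the Frey curve
(helper19)
-/

set_option autoImplicit false
set_option linter.unusedSectionVars false
set_option linter.unusedVariables false

namespace Fermat.Agent.S13lib

open WeierstrassCurve WeierstrassCurve.Affine WeierstrassCurve.Affine.Point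
open Fermat.Agent.S05lib Fermat.Agent.S05wire

/-! ### 2-adic arithmetic of a Frey package -/

theorem frey2_b_even (P : FreyPackage) : (2 : ℤ) ∣ P.b :=
  (ZMod.intCast_zmod_eq_zero_iff_dvd P.b 2).1 P.hb2

theorem frey2_a_mod4 (P : FreyPackage) : P.a ≡ 3 [ZMOD 4] := by
  have h := P.ha4
  have h3 : ((3 : ℤ) : ZMod 4) = 3 := by norm_num
  rw [← h3] at h
  exact (ZMod.intCast_eq_intCast_iff P.a 3 4).1 h

theorem frey2_a_odd (P : FreyPackage) : ¬ (2 : ℤ) ∣ P.a := by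
  have h := frey2_a_mod4 P
  unfold Int.ModEq at h
  omega

theorem frey2_32_dvd (P : FreyPackage) : (32 : ℤ) ∣ P.b ^ P.p := by
  have h1 : (2 : ℤ) ^ P.p ∣ P.b ^ P.p := pow_dvd_pow_of_dvd (frey2_b_even P) _
  have h2 : (2 : ℤ) ^ 5 ∣ 2 ^ P.p := pow_dvd_pow 2 P.hp5
  have h3 : (32 : ℤ) = 2 ^ 5 := by norm_num
  rw [h3]
  exact h2.trans h1

theorem frey2_a_pow_mod4 (P : FreyPackage) : P.a ^ P.p ≡ -1 [ZMOD 4] := by
  have h1 : P.a ≡ -1 [ZMOD 4] := (frey2_a_mod4 P).trans (by decide)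
  have h2 := h1.pow P.p
  rw [P.hp_odd.neg_one_pow] at h2
  exact h2

theorem frey2_four_dvd (P : FreyPackage) : (4 : ℤ) ∣ P.b ^ P.p - 1 - P.a ^ P.p := by
  have h1 := frey2_a_pow_mod4 P
  have h2 : (4 : ℤ) ∣ P.b ^ P.p := by
    obtain ⟨k, hk⟩ := frey2_32_dvd P
    exact ⟨8 * k, by rw [hk]; ring⟩
  have h3 : (4 : ℤ) ∣ P.a ^ P.p - (-1) := (Int.modEq_iff_dvd.mp h1.symm)
  have e : P.b ^ P.p - 1 - P.a ^ P.p = P.b ^ P.p - (P.a ^ P.p - (-1)) := by ring
  rw [e]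
  exact dvd_sub h2 h3

theorem frey2_p_odd (P : FreyPackage) : ¬ (2 : ℤ) ∣ (P.p : ℤ) := by
  intro h
  have h' : 2 ∣ P.p := by exact_mod_cast h
  have := (Nat.prime_dvd_prime_iff_eq Nat.prime_two P.pp).mp h'
  have := P.hp5
  omega

/-! ### The Frey curve over `ℚ̄` at a valuation subring over 2 -/

theorem frey2_gshape (P : FreyPackage) : GShape (P.freyCurve.baseChange Qb) where
  a₃ := by simp [FreyPackage.freyCurve, WeierstrassCurve.baseChange]
  a₆ := by simp [FreyPackage.freyCurve, WeierstrassCurve.baseChange]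

theorem frey2_a₁ (P : FreyPackage) : (P.freyCurve.baseChange Qb).a₁ = 1 := by
  simp [FreyPackage.freyCurve, WeierstrassCurve.baseChange]

/-- `a₂` is an integer. -/
theorem frey2_a₂ (P : FreyPackage) : ∃ m : ℤ, (P.freyCurve.baseChange Qb).a₂ = (m : Qb) := by
  obtain ⟨m, hm⟩ := frey2_four_dvd P
  refine ⟨m, ?_⟩
  have h1 : (P.freyCurve.baseChange Qb).a₂ = algebraMap ℚ Qb P.freyCurve.a₂ := rfl
  have h2 : P.freyCurve.a₂ = ((P.b : ℚ) ^ P.p - 1 - (P.a : ℚ) ^ P.p) / 4 := rfl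
  have h3 : P.freyCurve.a₂ = (m : ℚ) := by
    rw [h2]
    have : ((P.b : ℚ) ^ P.p - 1 - (P.a : ℚ) ^ P.p) = 4 * (m : ℚ) := by
      exact_mod_cast congrArg (Int.cast : ℤ → ℚ) hm
    rw [this]
    field_simp
  rw [h1, h3, map_intCast]

/-- `a₄` is twice a nonzero integer. -/
theorem frey2_a₄ (P : FreyPackage) :
    ∃ m : ℤ, m ≠ 0 ∧ (P.freyCurve.baseChange Qb).a₄ = ((2 * m : ℤ) : Qb) := by
  obtain ⟨k, hk⟩ := frey2_32_dvd P
  have hk0 : k ≠ 0 := by
    rintro rfl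
    rw [mul_zero] at hk
    exact pow_ne_zero _ P.hb0 hk
  refine ⟨-(P.a ^ P.p) * k, mul_ne_zero (neg_ne_zero.mpr (pow_ne_zero _ P.ha0)) hk0, ?_⟩
  have h1 : (P.freyCurve.baseChange Qb).a₄ = algebraMap ℚ Qb P.freyCurve.a₄ := rfl
  have h2 : P.freyCurve.a₄ = -((P.a : ℚ) ^ P.p) * ((P.b : ℚ) ^ P.p) / 16 := rfl
  have h3 : P.freyCurve.a₄ = ((2 * (-(P.a ^ P.p) * k) : ℤ) : ℚ) := by
    rw [h2]
    have : ((P.b : ℚ) ^ P.p) = 32 * (k : ℚ) := by
      exact_mod_cast congrArg (Int.cast : ℤ → ℚ) hk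
    rw [this]
    push_cast
    ring
  rw [h1, h3, map_intCast]

/-- **Pointwise form of (I4).** -/
theorem frey2_unip_pt (P : FreyPackage) (A : ValuationSubring Qb) (hA : A.LiesOverPrime 2)
    (σ : GQ) (hσ : σ ∈ A.inertiaSubgroupIn ℚ) (x : FPt P) (hx : P.p • x = 0) :
    Point.map (W' := P.freyCurve.toAffine) σ.toAlgHom
        (Point.map (W' := P.freyCurve.toAffine) σ.toAlgHom x - x) -
      (Point.map (W' := P.freyCurve.toAffine) σ.toAlgHom x - x) = 0 := by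
  have hA' : ((2 : ℕ) : Qb) ∈ A.nonunits := hA
  have hW := frey2_gshape P
  have h1 : A.valuation (P.freyCurve.baseChange Qb).a₁ ≤ 1 := by
    rw [frey2_a₁, map_one]
  obtain ⟨m₂, hm₂⟩ := frey2_a₂ P
  obtain ⟨m₄, hm₄0, hm₄⟩ := frey2_a₄ P
  have h2 : A.valuation (P.freyCurve.baseChange Qb).a₂ ≤ 1 := by
    rw [hm₂]; exact val_intCast_le_one A m₂
  have h4 : A.valuation (P.freyCurve.baseChange Qb).a₄ < 1 := by
    rw [hm₄]; exact val_intCast_lt_one A hA' (dvd_mul_right _ _)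
  have h40 : (P.freyCurve.baseChange Qb).a₄ ≠ 0 := by
    rw [hm₄]
    have : (2 * m₄ : ℤ) ≠ 0 := mul_ne_zero two_ne_zero hm₄0
    exact_mod_cast this
  have hD : A.valuation ((P.freyCurve.baseChange Qb).a₁ ^ 2 + 4 * (P.freyCurve.baseChange Qb).a₂)
      = 1 := by
    rw [frey2_a₁, hm₂]
    have e : (1 : Qb) ^ 2 + 4 * (m₂ : Qb) = ((1 + 4 * m₂ : ℤ) : Qb) := by push_cast; ring
    rw [e]
    refine val_intCast_eq_one A Nat.prime_two hA' ?_
    intro h
    have : ((2 : ℕ) : ℤ) = 2 := rfl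
    rw [this] at h
    omega
  have hn : A.valuation ((P.p : ℕ) : Qb) = 1 := by
    have := val_intCast_eq_one A Nat.prime_two hA' (n := (P.p : ℤ)) (by
      have : ((2 : ℕ) : ℤ) = 2 := rfl
      rw [this]; exact frey2_p_odd P)
    simpa using this
  -- a root of `s² + a₁ s - a₂`
  obtain ⟨s, hs⟩ : ∃ s : Qb, s ^ 2 + (P.freyCurve.baseChange Qb).a₁ * s
      - (P.freyCurve.baseChange Qb).a₂ = 0 := by
    obtain ⟨s, hs⟩ := IsAlgClosed.exists_root
      (Polynomial.X ^ 2 + Polynomial.C (P.freyCurve.baseChange Qb).a₁ * Polynomial.X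
        - Polynomial.C (P.freyCurve.baseChange Qb).a₂ : Polynomial Qb) (by
        have hd : (Polynomial.X ^ 2 + Polynomial.C (P.freyCurve.baseChange Qb).a₁ * Polynomial.X
          - Polynomial.C (P.freyCurve.baseChange Qb).a₂ : Polynomial Qb).degree = 2 := by
          compute_degree!
        rw [hd]; norm_num)
    refine ⟨s, ?_⟩
    simpa [Polynomial.IsRoot] using hs
  have hσI : IsInertial A.valuation ((σ : Qb ≃ₐ[ℚ] Qb) : Qb →+* Qb) :=
    isInertial_of_mem_inertiaSubgroupIn A hσ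
  have halg : Algebra.IsAlgebraic ℚ Qb := AlgebraicClosure.isAlgebraic ℚ
  have hσv : ∀ a : Qb, A.valuation (((σ : Qb ≃ₐ[ℚ] Qb) : Qb →+* Qb) a) = A.valuation a :=
    fun a => val_map_of_mem_inertiaSubgroupIn A hσ a
  have hφ : ∀ (x y : Qb) (h : (P.freyCurve.baseChange Qb).toAffine.Nonsingular x y),
      ∃ h' : (P.freyCurve.baseChange Qb).toAffine.Nonsingular
        (((σ : Qb ≃ₐ[ℚ] Qb) : Qb →+* Qb) x) (((σ : Qb ≃ₐ[ℚ] Qb) : Qb →+* Qb) y),
        Point.map (W' := P.freyCurve.toAffine) σ.toAlgHom (Point.some x y h) =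
          Point.some (((σ : Qb ≃ₐ[ℚ] Qb) : Qb →+* Qb) x) (((σ : Qb ≃ₐ[ℚ] Qb) : Qb →+* Qb) y) h' := by
    intro x y h
    exact ⟨_, Point.map_some (W' := P.freyCurve.toAffine) σ.toAlgHom h⟩
  exact g_unipotent A.valuation hW h1 h2 h4 h40 hs hD ((σ : Qb ≃ₐ[ℚ] Qb) : Qb →+* Qb) hσI hσv
    (Point.map (W' := P.freyCurve.toAffine) σ.toAlgHom) hφ hn x hx

/-- **(I4)**: inertia at 2 acts unipotently on `E[p]` of the Frey curve. -/
theorem unipotent_two (P : FreyPackage) (A : ValuationSubring Qb) (hA : A.LiesOverPrime 2)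
    (σ : GQ) (hσ : σ ∈ A.inertiaSubgroupIn ℚ) (x : FT P) : σ • (σ • x - x) - (σ • x - x) = 0 := by
  apply Subtype.ext
  have hx : P.p • x.1 = 0 := by
    have h := x.2
    rw [Submodule.mem_torsionBy_iff] at h
    rw [← h, natCast_zsmul]
  exact frey2_unip_pt P A hA σ hσ x.1 hx

end Fermat.Agent.S13lib
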