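import Fermat.Agent.S13lib.NoRatAbstract
import Fermat.Agent.S13lib.Defs
import Fermat.Agent.S13lib.UnipTwo
import Fermat.Agent.S05_Val
import Fermat.Agent.S51lib.GalFixed
import Fermat.Agent.FrobAssemble

/-!
# S13 library, piece B5 = (I7) (helper18): the Frey curve has no rational point of order `p`

`no_rational_torsion`: a nonzero `p`-torsion point of the Frey curve over `ℚ̄` is moved by some
element of `Gal(ℚ̄/ℚ)`.  The proof is 2-adic (`NoRatAbstract.lean`): at a place `A` of `ℚ̄` over `2`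
the Frey curve `y² + x y = x³ + a₂ x² + a₄ x` has `v a₄ = v 2 ^ m`, `m = p · v₂(b) - 4`, `p ∤ m`.
-/

set_option autoImplicit false
set_option linter.unusedSectionVars false
set_option linter.unusedVariables false

namespace Fermat.Agent.S13lib

open WeierstrassCurve WeierstrassCurve.Affine WeierstrassCurve.Affine.Point
open Fermat.Agent.S05lib Fermat.Agent.S05wire

/-! ### A place of `ℚ̄` over `2` -/

theorem nrt_exists_over_two : ∃ A : ValuationSubring Qb, A.LiesOverPrime 2 := by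
  have hP : (Ideal.span {(2 : ℤ)}).IsPrime :=
    (Ideal.span_singleton_prime (by norm_num)).mpr Int.prime_two
  obtain ⟨Q, -, hQprime, hQ⟩ := Ideal.exists_ideal_over_prime_of_isIntegral
    (Ideal.span {(2 : ℤ)}) (⊥ : Ideal Fermat.Agent.FrobLib.ZBar) (by
      rw [Ideal.comap_bot_of_injective _
        (FaithfulSMul.algebraMap_injective ℤ Fermat.Agent.FrobLib.ZBar)]
      exact bot_le)
  have hlQ : ((2 : ℕ) : Fermat.Agent.FrobLib.ZBar) ∈ Q := by
    have : ((2 : ℕ) : ℤ) ∈ Q.comap (algebraMap ℤ Fermat.Agent.FrobLib.ZBar) := by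
      rw [hQ]
      exact Ideal.subset_span rfl
    simpa using this
  exact ⟨Fermat.Agent.FrobLib.valuationSubringOfPrime Q,
    Fermat.Agent.FrobLib.liesOverPrime_valuationSubringOfPrime Q 2 hlQ⟩

/-! ### Valuations of rational numbers at a place over `2` -/

section val2

variable (A : ValuationSubring Qb) (hA : A.LiesOverPrime 2)

theorem nrt_val_two_lt (hA : A.LiesOverPrime 2) : A.valuation (2 : Qb) < 1 := by
  have h : ((2 : ℕ) : Qb) ∈ A.nonunits := hA
  rw [ValuationSubring.mem_nonunits_iff] at h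
  simpa using h

theorem nrt_val_two_ne_zero : A.valuation (2 : Qb) ≠ 0 :=
  (A.valuation.ne_zero_iff).mpr two_ne_zero

theorem nrt_val_odd (hA : A.LiesOverPrime 2) {n : ℤ} (hn : ¬ (2 : ℤ) ∣ n) :
    A.valuation (n : Qb) = 1 :=
  val_intCast_eq_one A Nat.prime_two hA (by simpa using hn)

theorem nrt_val_even (hA : A.LiesOverPrime 2) {n : ℤ} (hn : (2 : ℤ) ∣ n) :
    A.valuation (n : Qb) < 1 :=
  val_intCast_lt_one A hA (by simpa using hn)

theorem nrt_int_decomp {n : ℤ} (hn : n ≠ 0) :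
    ∃ (k : ℕ) (u : ℤ), ¬ (2 : ℤ) ∣ u ∧ n = 2 ^ k * u := by
  have hfin : FiniteMultiplicity (2 : ℤ) n := Int.finiteMultiplicity_iff.mpr ⟨by norm_num, hn⟩
  obtain ⟨c, hc, hnd⟩ := hfin.exists_eq_pow_mul_and_not_dvd
  exact ⟨multiplicity 2 n, c, hnd, hc⟩

theorem nrt_val_int (hA : A.LiesOverPrime 2) {n : ℤ} (hn : n ≠ 0) :
    ∃ k : ℕ, A.valuation (n : Qb) = A.valuation (2 : Qb) ^ k := by
  obtain ⟨k, u, hu, rfl⟩ := nrt_int_decomp hn
  refine ⟨k, ?_⟩
  push_cast
  rw [map_mul, map_pow, nrt_val_odd A hA hu, mul_one]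

theorem nrt_val_rat (hA : A.LiesOverPrime 2) {q : ℚ} (hq : q ≠ 0) :
    ∃ j : ℤ, A.valuation (algebraMap ℚ Qb q) = A.valuation (2 : Qb) ^ j := by
  have hnum : q.num ≠ 0 := Rat.num_ne_zero.mpr hq
  have hden : (q.den : ℤ) ≠ 0 := by exact_mod_cast q.den_nz
  obtain ⟨a, ha⟩ := nrt_val_int A hA hnum
  obtain ⟨b, hb⟩ := nrt_val_int A hA hden
  refine ⟨(a : ℤ) - b, ?_⟩
  have e : algebraMap ℚ Qb q = ((q.num : ℤ) : Qb) / (((q.den : ℤ)) : Qb) := by
    rw [eq_ratCast, Rat.cast_def]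
    push_cast
    rfl
  rw [e, map_div₀, ha, hb, zpow_sub₀ (nrt_val_two_ne_zero A), zpow_natCast, zpow_natCast]

theorem nrt_res_rat (hA : A.LiesOverPrime 2) {q : ℚ} (hq : A.valuation (algebraMap ℚ Qb q) ≤ 1) :
    A.valuation (algebraMap ℚ Qb q) < 1 ∨ A.valuation (algebraMap ℚ Qb q - 1) < 1 := by
  have e : algebraMap ℚ Qb q = ((q.num : ℤ) : Qb) / (((q.den : ℤ)) : Qb) := by
    rw [eq_ratCast, Rat.cast_def]
    push_cast
    rfl
  have hden0 : (((q.den : ℤ)) : Qb) ≠ 0 := by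
    have : (q.den : ℤ) ≠ 0 := by exact_mod_cast q.den_nz
    exact_mod_cast this
  -- the denominator is odd
  have hdodd : ¬ (2 : ℤ) ∣ (q.den : ℤ) := by
    intro hd
    have hnodd : ¬ (2 : ℤ) ∣ q.num := by
      intro hn
      have h2 : (2 : ℤ) ∣ Int.gcd q.num (q.den : ℤ) := Int.dvd_coe_gcd hn hd
      have hcop : Int.gcd q.num (q.den : ℤ) = 1 := by
        have := q.reduced
        simpa [Nat.Coprime, Int.gcd] using this
      rw [hcop] at h2
      norm_num at h2
    have h1 : A.valuation ((q.num : ℤ) : Qb) = 1 := nrt_val_odd A hA hnodd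
    have h2 : A.valuation (((q.den : ℤ)) : Qb) < 1 := nrt_val_even A hA hd
    rw [e, map_div₀, h1] at hq
    have hpos : 0 < A.valuation (((q.den : ℤ)) : Qb) :=
      zero_lt_iff.mpr ((A.valuation.ne_zero_iff).mpr hden0)
    rw [div_le_iff₀ hpos, one_mul] at hq
    exact absurd h2 (not_lt.mpr hq)
  have hvd : A.valuation (((q.den : ℤ)) : Qb) = 1 := nrt_val_odd A hA hdodd
  by_cases hn : (2 : ℤ) ∣ q.num
  · left
    rw [e, map_div₀, hvd, div_one]
    exact nrt_val_even A hA hn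
  · right
    have e' : algebraMap ℚ Qb q - 1 = ((q.num - (q.den : ℤ) : ℤ) : Qb) / (((q.den : ℤ)) : Qb) := by
      rw [e]
      push_cast
      field_simp
    rw [e', map_div₀, hvd, div_one]
    apply nrt_val_even A hA
    have h1 : q.num % 2 = 1 := by omega
    have h2 : (q.den : ℤ) % 2 = 1 := by omega
    omega

end val2

/-! ### The Frey curve at a place over `2` -/

/-- `v a₄ = v 2 ^ m` with `p ∤ m`. -/
theorem nrt_frey_a₄ (P : FreyPackage) (A : ValuationSubring Qb) (hA : A.LiesOverPrime 2) :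
    ∃ m : ℤ, ¬ ((P.p : ℤ) ∣ m) ∧
      A.valuation (P.freyCurve.baseChange Qb).a₄ = A.valuation (2 : Qb) ^ m := by
  obtain ⟨k, u, hu, hb⟩ := nrt_int_decomp P.hb0
  refine ⟨(k : ℤ) * P.p - 4, ?_, ?_⟩
  · intro hdvd
    have h4 : (P.p : ℤ) ∣ 4 := by
      have h1 : (P.p : ℤ) ∣ (k : ℤ) * P.p := dvd_mul_left _ _
      have := dvd_sub h1 hdvd
      simpa using this
    have h4' : P.p ∣ 4 := by exact_mod_cast h4
    have := Nat.le_of_dvd (by norm_num) h4'
    have := P.hp5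
    omega
  · have h1 : (P.freyCurve.baseChange Qb).a₄ = algebraMap ℚ Qb P.freyCurve.a₄ := rfl
    have h2 : P.freyCurve.a₄ = -((P.a : ℚ) ^ P.p) * ((P.b : ℚ) ^ P.p) / 16 := rfl
    have h3 : algebraMap ℚ Qb P.freyCurve.a₄ =
        -(((P.a : ℤ) : Qb) ^ P.p) * (((u : ℤ) : Qb) ^ P.p) * (2 : Qb) ^ (k * P.p) / (2 : Qb) ^ 4 := by
      rw [h2, hb]
      simp only [map_div₀, map_mul, map_neg, map_pow, Int.cast_mul, Int.cast_pow,
        Int.cast_ofNat, map_ofNat]
      rw [mul_pow, ← pow_mul]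
      norm_num
      ring
    have hva : A.valuation ((P.a : ℤ) : Qb) = 1 := nrt_val_odd A hA (frey2_a_odd P)
    have hvu : A.valuation ((u : ℤ) : Qb) = 1 := nrt_val_odd A hA hu
    rw [h1, h3, map_div₀, map_mul, map_mul, Valuation.map_neg, map_pow, map_pow, map_pow, map_pow,
      hva, hvu, one_pow, one_mul, one_mul,
      zpow_sub₀ (nrt_val_two_ne_zero A)]
    have e1 : A.valuation (2 : Qb) ^ (k * P.p) = A.valuation (2 : Qb) ^ ((k : ℤ) * (P.p : ℤ)) := by
      rw [← zpow_natCast]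
      push_cast
      rfl
    have e2 : A.valuation (2 : Qb) ^ 4 = A.valuation (2 : Qb) ^ (4 : ℤ) := by
      rw [← zpow_natCast]
      rfl
    rw [e1, e2]

/-! ### Galois-fixed points -/

theorem nrt_fixed_coord (P : FreyPackage) {x y : Qb}
    (h : (P.freyCurve.toAffine⁄Qb).Nonsingular x y)
    (hfix : ∀ σ : GQ, Point.map (W' := P.freyCurve.toAffine) σ.toAlgHom
      (Point.some x y h : FPt P) = Point.some x y h) :
    (∃ q : ℚ, algebraMap ℚ Qb q = x) ∧ (∃ q : ℚ, algebraMap ℚ Qb q = y) := by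
  have hxy : ∀ σ : GQ, σ x = x ∧ σ y = y := by
    intro σ
    have := hfix σ
    rw [Point.map_some] at this
    have h' := Point.some.inj this
    exact ⟨h'.1, h'.2⟩
  exact ⟨Fermat.Agent.S51lib.rat_of_galois_fixed x (fun σ => (hxy σ).1),
    Fermat.Agent.S51lib.rat_of_galois_fixed y (fun σ => (hxy σ).2)⟩

/-- **(I7)** The Frey curve has no rational point of order `p`: every nonzero `p`-torsion point
is moved by some element of the absolute Galois group. -/
theorem no_rational_torsion (P : FreyPackage) (x : FT P) (hx : x ≠ 0) : ∃ σ : GQ, σ • x ≠ x := by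
  by_contra hcon
  have hcon' : ∀ σ : GQ, σ • x = x := by
    intro σ
    by_contra h
    exact hcon ⟨σ, h⟩
  obtain ⟨A, hA⟩ := nrt_exists_over_two
  have hfix : ∀ σ : GQ, Point.map (W' := P.freyCurve.toAffine) σ.toAlgHom (x : FPt P) = x :=
    fun σ => congrArg Subtype.val (hcon' σ)
  have hx0 : (x : FPt P) ≠ 0 := fun h => hx (Subtype.ext h)
  have hpx : P.p • (x : FPt P) = 0 := by
    have h := x.2
    rw [Submodule.mem_torsionBy_iff] at h
    rw [← h, natCast_zsmul]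
  have hW := frey2_gshape P
  obtain ⟨m₂, hm₂⟩ := frey2_a₂ P
  obtain ⟨m₄, hm₄0, hm₄⟩ := frey2_a₄ P
  obtain ⟨m, hpm, hm⟩ := nrt_frey_a₄ P A hA
  have h2 : A.valuation (P.freyCurve.baseChange Qb).a₂ ≤ 1 := by
    rw [hm₂]; exact val_intCast_le_one A m₂
  have h4 : A.valuation (P.freyCurve.baseChange Qb).a₄ < 1 := by
    rw [hm₄]; exact val_intCast_lt_one A hA (dvd_mul_right _ _)
  have h40 : (P.freyCurve.baseChange Qb).a₄ ≠ 0 := by
    rw [hm₄]
    have : (2 * m₄ : ℤ) ≠ 0 := mul_ne_zero two_ne_zero hm₄0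
    exact_mod_cast this
  have hvp : A.valuation ((P.p : ℕ) : Qb) = 1 := by
    have := nrt_val_odd A hA (frey2_p_odd P)
    simpa using this
  obtain ⟨s, hs⟩ : ∃ s : Qb, s ^ 2 + (P.freyCurve.baseChange Qb).a₁ * s
      - (P.freyCurve.baseChange Qb).a₂ = 0 := by
    obtain ⟨s, hs⟩ := IsAlgClosed.exists_root
      (Polynomial.X ^ 2 + Polynomial.C (P.freyCurve.baseChange Qb).a₁ * Polynomial.X
        - Polynomial.C (P.freyCurve.baseChange Qb).a₂ : Polynomial Qb) (by
        have hd : (Polynomial.X ^ 2 + Polynomial.C (P.freyCurve.baseChange Qb).a₁ * Polynomial.X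
          - Polynomial.C (P.freyCurve.baseChange Qb).a₂ : Polynomial Qb).degree = 2 := by
          compute_degree!
        rw [hd]; norm_num)
    refine ⟨s, ?_⟩
    simpa [Polynomial.IsRoot] using hs
  refine nrt_abstract A.valuation hW (frey2_a₁ P) h2 h4 h40 (nrt_val_two_lt A hA) hs
    (nrt_val_two_ne_zero A) (nrt_val_two_lt A hA) hm P.pp P.hp5 hpm hvp
    (fun Q : FPt P => ∀ σ : GQ, Point.map (W' := P.freyCurve.toAffine) σ.toAlgHom Q = Q)
    ?_ ?_ ?_ ?_ (x : FPt P) hfix hx0 hpx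
  · intro Q₁ Q₂ h₁ h₂ σ
    rw [map_add, h₁ σ, h₂ σ]
  · intro hT σ
    rw [Point.map_some]
    exact g_point_congr (_root_.map_zero _) (_root_.map_zero _) _ _
  · intro X Y h hR hX0
    obtain ⟨⟨q, hq⟩, -⟩ := nrt_fixed_coord P h hR
    have hq0 : q ≠ 0 := by
      rintro rfl
      rw [_root_.map_zero] at hq
      exact hX0 hq.symm
    obtain ⟨j, hj⟩ := nrt_val_rat A hA hq0
    exact ⟨j, by rw [← hq, hj]⟩
  · intro X Y h hR hX1
    obtain ⟨⟨q, hq⟩, ⟨r, hr⟩⟩ := nrt_fixed_coord P h hR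
    have h1 : A.valuation (P.freyCurve.baseChange Qb).a₁ ≤ 1 := by
      rw [frey2_a₁, map_one]
    have hY1 : A.valuation Y ≤ 1 :=
      gsr_val_y_le h1 h2 h4.le hX1 ((hW.equation_iff X Y).mp h.1)
    constructor
    · rw [← hq] at hX1 ⊢
      exact nrt_res_rat A hA hX1
    · rw [← hr] at hY1 ⊢
      exact nrt_res_rat A hA hY1

end Fermat.Agent.S13lib
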