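import Mathlib
import Fermat.Agent.S13lib.Defs
import Fermat.Agent.DivPoly.TorsionOut

/-!
# S13 interface (D1), (D2) from a torsion polynomial (item 64, piece (D), helper15)

`nontrivial_FT_of_poly`, `exists_divPoly_of_poly`: the two statements S13 needs, deduced from ANY
integer polynomial `Ψ` of degree `(p² - 1) / 2`, leading coefficient not divisible by `p²`, whose
roots (over `ℚ̄`) are exactly the `x`-coordinates of the nonzero `p`-torsion points of the Frey curve.
-/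

set_option autoImplicit false

namespace Fermat.Agent.S13lib

open WeierstrassCurve WeierstrassCurve.Affine WeierstrassCurve.Affine.Point Polynomial

/-- The Frey curve over `ℚ̄` is the base change of the integral Frey curve. -/
theorem freyCurveInt_map_Qb (P : FreyPackage) :
    P.freyCurveInt.map (algebraMap ℤ Qb) = (P.freyCurve.toAffine⁄Qb) := by
  show P.freyCurveInt.map (algebraMap ℤ Qb) = P.freyCurve.map (algebraMap ℚ Qb)
  rw [Fermat.Agent.DivPoly.freyCurve_eq_map, WeierstrassCurve.map_map]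
  exact congrArg _ (RingHom.ext_int _ _)

theorem freyCurve_Qb_Δ_ne_zero (P : FreyPackage) : (P.freyCurve.toAffine⁄Qb).Δ ≠ 0 := by
  show (P.freyCurve.map (algebraMap ℚ Qb)).Δ ≠ 0
  rw [WeierstrassCurve.map_Δ]
  exact (map_ne_zero_iff _ (algebraMap ℚ Qb).injective).mpr
    (Fermat.Agent.DivPoly.freyCurve_Δ_ne_zero P)

theorem half_sq_sub_one_pos (P : FreyPackage) : 0 < (P.p ^ 2 - 1) / 2 := by
  have h := P.hp5
  have : 25 ≤ P.p ^ 2 := by nlinarith
  omega

/-- (D1) from a torsion polynomial. -/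
theorem nontrivial_FT_of_poly (P : FreyPackage) (Ψ : Polynomial ℤ)
    (hdeg : Ψ.natDegree = (P.p ^ 2 - 1) / 2)
    (hroot : ∀ (x y : Qb) (h : (P.freyCurve.toAffine⁄Qb).Nonsingular x y),
      (Ψ.map (algebraMap ℤ Qb)).eval x = 0 → P.p • (Point.some x y h : FPt P) = 0) :
    Nontrivial (FT P) := by
  refine Fermat.Agent.DivPoly.nontrivial_torsionBy_of_exists _ _
    (Fermat.Agent.DivPoly.exists_torsion_ne_zero_of_poly (P.freyCurve.toAffine⁄Qb)
      (freyCurve_Qb_Δ_ne_zero P) P.p (Ψ.map (algebraMap ℤ Qb)) ?_ hroot)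
  rw [natDegree_map_eq_of_injective (algebraMap ℤ Qb).injective_int, hdeg]
  exact half_sq_sub_one_pos P

/-- (D2) from a torsion polynomial. -/
theorem exists_divPoly_of_poly (P : FreyPackage) (Ψ : Polynomial ℤ)
    (hdeg : Ψ.natDegree = (P.p ^ 2 - 1) / 2) (hlc : ¬ ((P.p : ℤ) ^ 2 ∣ Ψ.leadingCoeff))
    (htors : ∀ (x y : Qb) (h : (P.freyCurve.toAffine⁄Qb).Nonsingular x y),
      P.p • (Point.some x y h : FPt P) = 0 → (Ψ.map (algebraMap ℤ Qb)).eval x = 0) :
    ∃ Ψ : Polynomial ℤ,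
    Ψ.natDegree = (P.p ^ 2 - 1) / 2 ∧ ¬ ((P.p : ℤ) ^ 2 ∣ Ψ.leadingCoeff) ∧
    ∀ (x y : Qb) (h : (P.freyCurve.toAffine⁄Qb).Nonsingular x y),
      P.p • (Point.some x y h : FPt P) = 0 → (Ψ.map (algebraMap ℤ Qb)).eval x = 0 :=
  ⟨Ψ, hdeg, hlc, htors⟩

end Fermat.Agent.S13lib
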