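import Fermat.Agent.S13lib.GCurve

/-!
# S13 library: the component calculus on `y² + a₁ x y = x³ + a₂ x² + a₄ x`   (helper19)

Valued field `(K, v)`, curve of shape `GShape` with `v a₄ < 1`, `a₄ ≠ 0` (node at the origin).
`s` is a tangent slope at the node, `s' = -a₁ - s` the other one, and `v (2 s + a₁) = 1`
(the two slopes are distinct in the residue field).  With `t = y / x`:

* `E₀` : `O` and the points with `1 ≤ v x`;
* `Low` : the points with `v x ≤ v a₄`;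
* `R(s, g)` : the points with `v x = g`, `v a₄ < g < 1`, `t ≡ s`.

Rules: `E₀ + E₀ ⊆ E₀`, `E₀ + R(s,g) ⊆ R(s,g)`, `Low + R(s,g) ⊆ R(s', v a₄ / g)`,
`R(s,g₁) + R(s,g₂)` is `R(s, g₁ g₂)`, `Low` or `R(s', v a₄² / (g₁ g₂))`,
`R(s,g₁) + R(s',g₂)` is `R(s, g₁ / g₂)` (`g₁ < g₂`) or in `E₀` (`g₁ = g₂`).
Consequences: `gcomp_torsion` and the invariance of the component under inertia.
This generalises `S05_CompFull` (the case `a₁ = 0`).
-/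

set_option autoImplicit false
set_option linter.unusedSectionVars false
set_option linter.unusedVariables false

namespace Fermat.Agent.S13lib

open WeierstrassCurve WeierstrassCurve.Affine Fermat.Agent.S05lib

variable {K : Type*} [Field K] [DecidableEq K]
  {Γ₀ : Type*} [LinearOrderedCommGroupWithZero Γ₀] (v : Valuation K Γ₀)
  {W : WeierstrassCurve K}

/-! ### Chord-tangent data -/

/-- Chord/tangent data for the sum of two affine points (with affine sum). -/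
theorem gsum_data (hW : GShape W) {x₁ y₁ x₂ y₂ : K}
    (h₁ : W.toAffine.Nonsingular x₁ y₁) (h₂ : W.toAffine.Nonsingular x₂ y₂)
    (hne : ¬(x₁ = x₂ ∧ y₁ = -y₂ - W.a₁ * x₂)) :
    ∃ (ℓ n x₃ y₃ : K) (h₃ : W.toAffine.Nonsingular x₃ y₃),
      Point.some x₁ y₁ h₁ + Point.some x₂ y₂ h₂ = Point.some x₃ y₃ h₃ ∧
      y₁ = ℓ * x₁ + n ∧ y₂ = ℓ * x₂ + n ∧ y₃ = -(ℓ * x₃ + n) - W.a₁ * x₃ ∧
      x₁ * x₂ * x₃ = n ^ 2 ∧
      n * (y₁ * x₂ + y₂ * x₁ + W.a₁ * x₁ * x₂) = x₁ * x₂ * (W.a₄ - x₁ * x₂) ∧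
      n * (x₂ - x₁) = x₂ * y₁ - x₁ * y₂ ∧
      x₁ + x₂ + x₃ = ℓ ^ 2 + W.a₁ * ℓ - W.a₂ := by
  obtain ⟨ℓ, n, x₃, y₃, h₃, hsum, e₁, e₂, e₃, v₁, v₂, v₃⟩ := hW.add_collinear h₁ h₂ hne
  refine ⟨ℓ, n, x₃, y₃, h₃, hsum, e₁, e₂, by linear_combination -e₃, v₃, ?_, ?_, v₁⟩
  · rw [e₁, e₂]
    linear_combination -(x₁ + x₂) * v₃ + x₁ * x₂ * v₂
  · rw [e₁, e₂]; ring

/-- The same data in terms of `t = y / x` and `δ = - n / (x₁ x₂)`. -/
theorem gsum_delta (hW : GShape W) {x₁ y₁ x₂ y₂ : K}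
    (h₁ : W.toAffine.Nonsingular x₁ y₁) (h₂ : W.toAffine.Nonsingular x₂ y₂)
    (hne : ¬(x₁ = x₂ ∧ y₁ = -y₂ - W.a₁ * x₂)) (hx₁ : x₁ ≠ 0) (hx₂ : x₂ ≠ 0) :
    ∃ (δ x₃ y₃ : K) (h₃ : W.toAffine.Nonsingular x₃ y₃),
      Point.some x₁ y₁ h₁ + Point.some x₂ y₂ h₂ = Point.some x₃ y₃ h₃ ∧
      δ * (x₁ - x₂) = y₁ / x₁ - y₂ / x₂ ∧
      δ * (y₁ / x₁ + y₂ / x₂ + W.a₁) = 1 - W.a₄ / (x₁ * x₂) ∧
      x₃ = x₁ * x₂ * δ ^ 2 ∧
      (∀ s' : K, y₃ - s' * x₃ = x₁ * x₂ * δ * (1 - (y₁ / x₁ + x₂ * δ + W.a₁ + s') * δ)) ∧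
      (∀ s' : K, y₃ - s' * x₃ = x₁ * x₂ * δ * (1 - (y₂ / x₂ + x₁ * δ + W.a₁ + s') * δ)) := by
  obtain ⟨ℓ, n, x₃, y₃, h₃, hsum, e₁, e₂, e₃, q, r, d, t⟩ := gsum_data hW h₁ h₂ hne
  have hx₃ : x₃ = n ^ 2 / (x₁ * x₂) := by
    field_simp
    linear_combination q
  have hℓ₁ : ℓ = y₁ / x₁ - n / x₁ := by
    field_simp
    linear_combination -e₁
  have hℓ₂ : ℓ = y₂ / x₂ - n / x₂ := by
    field_simp
    linear_combination -e₂
  refine ⟨-n / (x₁ * x₂), x₃, y₃, h₃, hsum, ?_, ?_, ?_, ?_, ?_⟩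
  · field_simp
    linear_combination d
  · field_simp
    linear_combination -r
  · rw [hx₃]; field_simp
  · intro s'
    rw [e₃, hx₃, hℓ₁]
    field_simp
    ring
  · intro s'
    rw [e₃, hx₃, hℓ₂]
    field_simp
    ring

/-- Valuation form of `gsum_delta`. -/
theorem gsum_val (hW : GShape W) {x₁ y₁ x₂ y₂ : K}
    (h₁ : W.toAffine.Nonsingular x₁ y₁) (h₂ : W.toAffine.Nonsingular x₂ y₂)
    (hne : ¬(x₁ = x₂ ∧ y₁ = -y₂ - W.a₁ * x₂)) (hx₁ : x₁ ≠ 0) (hx₂ : x₂ ≠ 0) :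
    ∃ (δ x₃ y₃ : K) (h₃ : W.toAffine.Nonsingular x₃ y₃),
      Point.some x₁ y₁ h₁ + Point.some x₂ y₂ h₂ = Point.some x₃ y₃ h₃ ∧
      δ * (x₁ - x₂) = y₁ / x₁ - y₂ / x₂ ∧
      δ * (y₁ / x₁ + y₂ / x₂ + W.a₁) = 1 - W.a₄ / (x₁ * x₂) ∧
      v x₃ = v x₁ * v x₂ * v δ ^ 2 ∧
      (∀ s' : K, v (y₃ - s' * x₃) =
        v x₁ * v x₂ * v δ * v (1 - (y₁ / x₁ + x₂ * δ + W.a₁ + s') * δ)) ∧
      (∀ s' : K, v (y₃ - s' * x₃) =
        v x₁ * v x₂ * v δ * v (1 - (y₂ / x₂ + x₁ * δ + W.a₁ + s') * δ)) := by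
  obtain ⟨δ, x₃, y₃, h₃, hsum, r3, r2, r1, f1, f2⟩ := gsum_delta hW h₁ h₂ hne hx₁ hx₂
  refine ⟨δ, x₃, y₃, h₃, hsum, r3, r2, ?_, ?_, ?_⟩
  · rw [r1, map_mul, map_mul, map_pow]
  · intro s'; rw [f1 s', map_mul, map_mul, map_mul]
  · intro s'; rw [f2 s', map_mul, map_mul, map_mul]

/-! ### The classes `R(s, g)` -/

/-- The class `R(s, g)`: affine points with `v x = g` and `y / x ≡ s`
(written without division as `v (y - s x) < v x`). -/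
def GR (v : Valuation K Γ₀) {W : WeierstrassCurve K} (s : K) (g : Γ₀) :
    W.toAffine.Point → Prop
  | .zero => False
  | .some x y _ => v x = g ∧ v (y - s * x) < g

theorem GR_some {s : K} {g : Γ₀} {x y : K} (h : W.toAffine.Nonsingular x y) :
    GR v s g (Point.some x y h) ↔ v x = g ∧ v (y - s * x) < g := Iff.rfl

theorem not_GR_zero {s : K} {g : Γ₀} : ¬ GR v s g (0 : W.toAffine.Point) := id

/-- From `v (y - s x) < v x` to `x ≠ 0` and `v (y / x - s) < 1`. -/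
theorem g_t_of_lt {x y s : K} (hy : v (y - s * x) < v x) :
    x ≠ 0 ∧ v (y / x - s) < 1 := by
  have hpos : 0 < v x := lt_of_le_of_lt zero_le hy
  have hx0 : x ≠ 0 := v.pos_iff.mp hpos
  refine ⟨hx0, ?_⟩
  have : y / x - s = (y - s * x) / x := by field_simp
  rw [this, map_div₀]
  exact (div_lt_one₀ hpos).mpr hy

/-- From `v (y / x - s) < 1` to `v (y - s x) < v x`. -/
theorem g_lt_of_t {x y s : K} (hx0 : x ≠ 0) (hy : v (y / x - s) < 1) :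
    v (y - s * x) < v x := by
  have hpos : 0 < v x := v.pos_iff.mpr hx0
  have : y / x - s = (y - s * x) / x := by field_simp
  rw [this, map_div₀] at hy
  exact (div_lt_one₀ hpos).mp hy

/-- `t₁ ≡ s`, `t₂ ≡ s` implies `t₁ + t₂ + a₁` is a unit. -/
theorem g_v_add_t {s : K} (hu : v (2 * s + W.a₁) = 1)
    {t₁ t₂ : K} (h₁ : v (t₁ - s) < 1) (h₂ : v (t₂ - s) < 1) : v (t₁ + t₂ + W.a₁) = 1 := by
  have h : t₁ + t₂ + W.a₁ = (2 * s + W.a₁) + ((t₁ - s) + (t₂ - s)) := by ring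
  have h' : v ((t₁ - s) + (t₂ - s)) < v (2 * s + W.a₁) := by
    rw [hu]; exact v.map_add_lt h₁ h₂
  rw [h, v.map_add_eq_of_lt_left h', hu]

/-- `t₁ ≡ s`, `t₂ ≡ s' = -a₁ - s` implies `t₁ - t₂` is a unit. -/
theorem g_v_sub_t {s : K} (hu : v (2 * s + W.a₁) = 1)
    {t₁ t₂ : K} (h₁ : v (t₁ - s) < 1) (h₂ : v (t₂ - (-W.a₁ - s)) < 1) : v (t₁ - t₂) = 1 := by
  have h : t₁ - t₂ = (2 * s + W.a₁) + ((t₁ - s) - (t₂ - (-W.a₁ - s))) := by ring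
  have h' : v ((t₁ - s) - (t₂ - (-W.a₁ - s))) < v (2 * s + W.a₁) := by
    rw [hu]; exact v.map_sub_lt h₁ h₂
  rw [h, v.map_add_eq_of_lt_left h', hu]

/-- The unit condition for the conjugate slope. -/
theorem g_unit_conj {s : K} (hu : v (2 * s + W.a₁) = 1) :
    v (2 * (-W.a₁ - s) + W.a₁) = 1 := by
  have : 2 * (-W.a₁ - s) + W.a₁ = -(2 * s + W.a₁) := by ring
  rw [this, Valuation.map_neg, hu]

theorem g_conj_conj (s : K) : -W.a₁ - (-W.a₁ - s) = s := by ring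

/-- Conclude membership in a class from the valuation data of a sum. -/
theorem g_rcls_intro {P : W.toAffine.Point} {x₃ y₃ : K} {h₃ : W.toAffine.Nonsingular x₃ y₃}
    (hsum : P = Point.some x₃ y₃ h₃) {s : K} {a d e g : Γ₀}
    (hx₃ : v x₃ = a * d ^ 2) (hy₃ : v (y₃ - s * x₃) = a * d * e)
    (ha : a ≠ 0) (hd : d ≠ 0) (he : e < d) (hg : a * d ^ 2 = g) : GR v s g P := by
  rw [hsum, GR_some]
  refine ⟨hx₃.trans hg, ?_⟩
  rw [hy₃, ← hg, sq, ← mul_assoc]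
  have : 0 < a * d := zero_lt_iff.mpr (mul_ne_zero ha hd)
  gcongr

/-! ### Translation by the 2-torsion point `T = (0, 0)` -/

theorem g_nonsingular_zero (hW : GShape W) (hC0 : W.a₄ ≠ 0) : W.toAffine.Nonsingular 0 0 :=
  (Affine.nonsingular_zero).mpr ⟨hW.a₆, Or.inr hC0⟩

/-- `T + T = 0`. -/
theorem g_T_add_T (hW : GShape W) (hT : W.toAffine.Nonsingular 0 0) :
    Point.some 0 0 hT + Point.some 0 0 hT = 0 := by
  apply Point.add_self_of_Y_eq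
  rw [hW.negY]; simp

/-- Translation by `T`: `(x, y) + T = (a₄ / x, ·)` and `t ↦ -a₁ - t`. -/
theorem g_add_T (hW : GShape W) (hT : W.toAffine.Nonsingular 0 0) {x y : K}
    (h : W.toAffine.Nonsingular x y) (hx : x ≠ 0) :
    ∃ (x₃ y₃ : K) (h₃ : W.toAffine.Nonsingular x₃ y₃),
      Point.some x y h + Point.some 0 0 hT = Point.some x₃ y₃ h₃ ∧
      x₃ = W.a₄ / x ∧ ∀ s : K, y₃ - (-W.a₁ - s) * x₃ = -((y - s * x) * W.a₄ / x ^ 2) := by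
  have hne : ¬(x = 0 ∧ y = -0 - W.a₁ * 0) := fun h => hx h.1
  obtain ⟨ℓ, n, x₃, y₃, h₃, hsum, e₁, e₂, e₃, q, r, d, t⟩ := gsum_data hW h hT hne
  have e := (hW.equation_iff x y).mp h.1
  have hn : n = 0 := by linear_combination -e₂
  subst hn
  have hℓ : ℓ = y / x := by field_simp; linear_combination -e₁
  have hx₃ : x₃ = W.a₄ / x := by
    have : x₃ = ℓ ^ 2 + W.a₁ * ℓ - W.a₂ - x := by linear_combination t
    rw [this, hℓ]; field_simp; linear_combination e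
  refine ⟨x₃, y₃, h₃, hsum, hx₃, ?_⟩
  intro s
  rw [e₃, hx₃, hℓ]; field_simp; ring

/-- Translation by `T` maps `R(s, g)` to `R(s', v a₄ / g)`. -/
theorem g_rcls_add_T (hW : GShape W) (hC0 : W.a₄ ≠ 0) (hT : W.toAffine.Nonsingular 0 0)
    {s : K} {g : Γ₀} {P : W.toAffine.Point} (hP : GR v s g P) :
    GR v (-W.a₁ - s) (v W.a₄ / g) (P + Point.some 0 0 hT) := by
  rcases P with _ | ⟨x, y, h⟩
  · exact absurd hP (not_GR_zero v)
  obtain ⟨hx, hy⟩ := hP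
  have hgpos : 0 < g := lt_of_le_of_lt zero_le hy
  obtain ⟨hx0, -⟩ := g_t_of_lt v (hx ▸ hy : v (y - s * x) < v x)
  obtain ⟨x₃, y₃, h₃, hsum, hx₃, hy₃⟩ := g_add_T hW hT h hx0
  rw [hsum, GR_some]
  have hγ : 0 < v W.a₄ := v.pos_iff.mpr hC0
  refine ⟨by rw [hx₃, map_div₀, hx], ?_⟩
  rw [hy₃ s, Valuation.map_neg, map_div₀, map_mul, map_pow, hx]
  have : v (y - s * x) * v W.a₄ / g ^ 2 = v (y - s * x) / g * (v W.a₄ / g) := by
    field_simp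
  rw [this]
  calc v (y - s * x) / g * (v W.a₄ / g) < 1 * (v W.a₄ / g) := by
        have h1 : v (y - s * x) / g < 1 := (div_lt_one₀ hgpos).mpr hy
        have h2 : 0 < v W.a₄ / g := div_pos hγ hgpos
        gcongr
    _ = v W.a₄ / g := one_mul _

/-! ### `E₀ + R(s, g) ⊆ R(s, g)` -/

theorem g_val_A {a b : K} {d g₁ : Γ₀} (ha : v a = d) (hb : v b = d ^ 2 * g₁)
    (hab : v (a + b) = 1) (hg₁ : 1 ≤ g₁) : d ^ 2 * g₁ = 1 := by
  have hd1 : d ≤ 1 := by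
    by_contra h
    rw [not_le] at h
    have h1 : d < d ^ 2 * g₁ := by
      calc d = d * 1 := (mul_one d).symm
        _ < d * d := mul_lt_mul_of_pos_left h (lt_trans zero_lt_one h)
        _ = d ^ 2 := (sq d).symm
        _ ≤ d ^ 2 * g₁ := le_mul_of_one_le_right' hg₁
    have : v (a + b) = v b := v.map_add_eq_of_lt_right (by rw [ha, hb]; exact h1)
    rw [hab, hb] at this
    rw [← this] at h1
    exact absurd h1 (not_lt.mpr h.le)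
  rcases lt_trichotomy (d ^ 2 * g₁) 1 with h | h | h
  · exfalso
    have hd : d < 1 := by
      rcases hd1.lt_or_eq with h' | h'
      · exact h'
      · rw [h', one_pow, one_mul] at h; exact absurd h (not_lt.mpr hg₁)
    have : v (a + b) < 1 := v.map_add_lt (ha ▸ hd) (hb ▸ h)
    rw [hab] at this; exact lt_irrefl _ this
  · exact h
  · exfalso
    have : v (a + b) = v b :=
      v.map_add_eq_of_lt_right (by rw [ha, hb]; exact lt_of_le_of_lt hd1 h)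
    rw [hab, hb] at this
    rw [← this] at h; exact lt_irrefl _ h

theorem g_add_E0 (hW : GShape W) {s : K} (hu : v (2 * s + W.a₁) = 1)
    {g : Γ₀} (hg : v W.a₄ < g) (hg1 : g < 1)
    {x₁ y₁ : K} (h₁ : W.toAffine.Nonsingular x₁ y₁) (hx₁ : 1 ≤ v x₁)
    {P : W.toAffine.Point} (hP : GR v s g P) :
    GR v s g (Point.some x₁ y₁ h₁ + P) := by
  rcases P with _ | ⟨x₂, y₂, h₂⟩
  · exact absurd hP (not_GR_zero v)
  obtain ⟨hx₂, hy₂⟩ := hP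
  obtain ⟨hx₂0, ht₂⟩ := g_t_of_lt v (hx₂ ▸ hy₂ : v (y₂ - s * x₂) < v x₂)
  have hx₁pos : 0 < v x₁ := lt_of_lt_of_le zero_lt_one hx₁
  have hx₁0 : x₁ ≠ 0 := v.pos_iff.mp hx₁pos
  have hgpos : 0 < g := lt_of_le_of_lt zero_le hg
  have hlt : v x₂ < v x₁ := by rw [hx₂]; exact lt_of_lt_of_le hg1 hx₁
  have hne : ¬(x₁ = x₂ ∧ y₁ = -y₂ - W.a₁ * x₂) :=
    fun h => by rw [h.1] at hlt; exact lt_irrefl _ hlt
  obtain ⟨δ, x₃, y₃, h₃, hsum, r3, r2, hx₃, f1, f2⟩ := gsum_val v hW h₁ h₂ hne hx₁0 hx₂0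
  have key : (y₂ / x₂ + y₂ / x₂ + W.a₁) * δ + δ ^ 2 * (x₁ - x₂) = 1 - W.a₄ / (x₁ * x₂) := by
    linear_combination r2 + δ * r3
  have hCx : v (W.a₄ / (x₁ * x₂)) < 1 := by
    rw [map_div₀, map_mul, hx₂]
    rw [div_lt_one₀ (mul_pos hx₁pos hgpos)]
    exact lt_of_lt_of_le hg (le_mul_of_one_le_left' hx₁)
  have hu' : v (1 - W.a₄ / (x₁ * x₂)) = 1 := v.map_one_sub_of_lt hCx
  have h2t : v (y₂ / x₂ + y₂ / x₂ + W.a₁) = 1 := g_v_add_t v hu ht₂ ht₂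
  have hd12 : v (x₁ - x₂) = v x₁ := v.map_sub_eq_of_lt_left hlt
  have hd : v δ ^ 2 * v x₁ = 1 := by
    refine g_val_A v (a := (y₂ / x₂ + y₂ / x₂ + W.a₁) * δ) (b := δ ^ 2 * (x₁ - x₂)) ?_ ?_ ?_ hx₁
    · rw [map_mul, h2t, one_mul]
    · rw [map_mul, map_pow, hd12]
    · rw [key, hu']
  have hd0 : v δ ≠ 0 := by
    intro h; rw [h] at hd; simp at hd
  have hdpos : 0 < v δ := zero_lt_iff.mpr hd0
  have hd1 : v δ ≤ 1 := by
    by_contra h; rw [not_le] at h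
    have : 1 < v δ ^ 2 * v x₁ :=
      lt_of_lt_of_le (one_lt_pow₀ h (by norm_num)) (le_mul_of_one_le_right' hx₁)
    rw [hd] at this; exact lt_irrefl _ this
  have hdg : 1 ≤ v δ * v x₁ := by
    by_contra h; rw [not_le] at h
    have : (v δ * v x₁) * v δ < 1 := mul_lt_one_of_lt_of_le h hd1
    rw [mul_comm, ← mul_assoc, ← sq, hd] at this; exact lt_irrefl _ this
  refine g_rcls_intro v hsum (a := v x₁ * v x₂) (d := v δ) hx₃ (f2 s) ?_ hd0 ?_ ?_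
  · exact mul_ne_zero (v.ne_zero_iff.mpr hx₁0) (v.ne_zero_iff.mpr hx₂0)
  · have hE : 1 - (y₂ / x₂ + x₁ * δ + W.a₁ + s) * δ
        = W.a₄ / (x₁ * x₂) + (y₂ / x₂ - s) * δ - x₂ * δ ^ 2 := by
      linear_combination -key
    rw [hE]
    refine v.map_sub_lt (v.map_add_lt ?_ ?_) ?_
    · rw [map_div₀, map_mul, hx₂, div_lt_iff₀ (mul_pos hx₁pos hgpos), ← mul_assoc]
      exact lt_of_lt_of_le hg (le_mul_of_one_le_left' hdg)
    · rw [map_mul]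
      exact mul_lt_of_lt_one_left hdpos ht₂
    · rw [map_mul, map_pow, hx₂, sq, ← mul_assoc]
      exact mul_lt_of_lt_one_left hdpos (mul_lt_one_of_lt_of_le hg1 hd1)
  · rw [hx₂, mul_comm (v x₁) g, mul_assoc, mul_comm (v x₁), hd, mul_one]

/-! ### Low points (`v x ≤ v a₄`) -/

/-- Affine points with `v x ≤ v a₄` (the component of `(0, 0)`). -/
def GLow (v : Valuation K Γ₀) {W : WeierstrassCurve K} : W.toAffine.Point → Prop
  | .zero => False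
  | .some x _ _ => v x ≤ v W.a₄

theorem GLow_some {x y : K} (h : W.toAffine.Nonsingular x y) :
    GLow v (Point.some x y h) ↔ v x ≤ v W.a₄ := Iff.rfl

theorem not_GLow_zero : ¬ GLow v (0 : W.toAffine.Point) := id

/-- A point with `x = 0` is `T = (0, 0)`. -/
theorem g_eq_T_of_x_eq_zero (hW : GShape W) {y : K} (h : W.toAffine.Nonsingular 0 y) :
    y = 0 := by
  have e := (hW.equation_iff 0 y).mp h.1
  have : y ^ 2 = 0 := by linear_combination e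
  exact pow_eq_zero_iff (by norm_num) |>.mp this

/-- `Low + T ⊆ E₀` (for `x ≠ 0`). -/
theorem g_low_add_T (hW : GShape W) (hC0 : W.a₄ ≠ 0) (hT : W.toAffine.Nonsingular 0 0)
    {x y : K} (h : W.toAffine.Nonsingular x y) (hx0 : x ≠ 0) (hx : v x ≤ v W.a₄) :
    ∃ (x' y' : K) (h' : W.toAffine.Nonsingular x' y'),
      Point.some x y h + Point.some 0 0 hT = Point.some x' y' h' ∧ 1 ≤ v x' := by
  obtain ⟨x', y', h', hsum, hx', -⟩ := g_add_T hW hT h hx0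
  refine ⟨x', y', h', hsum, ?_⟩
  rw [hx', map_div₀]
  exact (one_le_div₀ (v.pos_iff.mpr hx0)).mpr hx

/-- `Low + R(s, g) ⊆ R(s', v a₄ / g)`. -/
theorem g_add_low (hW : GShape W) (hC0 : W.a₄ ≠ 0) {s : K} (hu : v (2 * s + W.a₁) = 1)
    {g : Γ₀} (hg : v W.a₄ < g) (hg1 : g < 1)
    {x₁ y₁ : K} (h₁ : W.toAffine.Nonsingular x₁ y₁) (hx₁ : v x₁ ≤ v W.a₄)
    {P : W.toAffine.Point} (hP : GR v s g P) :
    GR v (-W.a₁ - s) (v W.a₄ / g) (Point.some x₁ y₁ h₁ + P) := by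
  have hT := g_nonsingular_zero hW hC0
  have hγ : 0 < v W.a₄ := v.pos_iff.mpr hC0
  have hgpos : 0 < g := lt_trans hγ hg
  by_cases hx0 : x₁ = 0
  · subst hx0
    have hy0 : y₁ = 0 := g_eq_T_of_x_eq_zero hW h₁
    subst hy0
    rw [add_comm]
    exact g_rcls_add_T v hW hC0 h₁ hP
  · obtain ⟨x', y', h', hsum, hx'⟩ := g_low_add_T v hW hC0 hT h₁ hx0 hx₁
    have hP' := g_rcls_add_T v hW hC0 hT hP
    have hrw : Point.some x₁ y₁ h₁ + P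
        = (Point.some x₁ y₁ h₁ + Point.some 0 0 hT) + (P + Point.some 0 0 hT) := by
      rw [add_add_add_comm, g_T_add_T hW hT, add_zero]
    rw [hrw, hsum]
    refine g_add_E0 v hW (g_unit_conj v hu) ?_ ?_ h' hx' hP'
    · rw [lt_div_iff₀ hgpos]
      exact mul_lt_of_lt_one_right hγ hg1
    · exact (div_lt_one₀ hgpos).mpr hg

/-! ### Same sign: `R(s, g₁) + R(s, g₂)` -/

theorem g_add_same (hW : GShape W) (hC0 : W.a₄ ≠ 0) {s : K} (hu : v (2 * s + W.a₁) = 1)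
    {g₁ g₂ : Γ₀}
    (hg₁ : v W.a₄ < g₁) (hg₁' : g₁ < 1) (hg₂ : v W.a₄ < g₂) (hg₂' : g₂ < 1)
    {P₁ P₂ : W.toAffine.Point} (hP₁ : GR v s g₁ P₁) (hP₂ : GR v s g₂ P₂) :
    (v W.a₄ < g₁ * g₂ → GR v s (g₁ * g₂) (P₁ + P₂)) ∧
    (g₁ * g₂ < v W.a₄ → GR v (-W.a₁ - s) (v W.a₄ ^ 2 / (g₁ * g₂)) (P₁ + P₂)) ∧
    (g₁ * g₂ = v W.a₄ → GLow v (P₁ + P₂)) := by
  rcases P₁ with _ | ⟨x₁, y₁, h₁⟩
  · exact absurd hP₁ (not_GR_zero v)
  rcases P₂ with _ | ⟨x₂, y₂, h₂⟩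
  · exact absurd hP₂ (not_GR_zero v)
  obtain ⟨hx₁, hy₁⟩ := hP₁
  obtain ⟨hx₂, hy₂⟩ := hP₂
  obtain ⟨hx₁0, ht₁⟩ := g_t_of_lt v (hx₁ ▸ hy₁ : v (y₁ - s * x₁) < v x₁)
  obtain ⟨hx₂0, ht₂⟩ := g_t_of_lt v (hx₂ ▸ hy₂ : v (y₂ - s * x₂) < v x₂)
  have hγ : 0 < v W.a₄ := v.pos_iff.mpr hC0
  have hg₁pos : 0 < g₁ := lt_trans hγ hg₁
  have hg₂pos : 0 < g₂ := lt_trans hγ hg₂
  have hgg : 0 < g₁ * g₂ := mul_pos hg₁pos hg₂pos
  have hadd : v (y₁ / x₁ + y₂ / x₂ + W.a₁) = 1 := g_v_add_t v hu ht₁ ht₂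
  have hne : ¬(x₁ = x₂ ∧ y₁ = -y₂ - W.a₁ * x₂) := by
    rintro ⟨hx, hy⟩
    have : y₁ / x₁ + y₂ / x₂ + W.a₁ = 0 := by
      rw [hx, hy]; field_simp; ring
    rw [this, map_zero] at hadd
    exact zero_ne_one hadd
  obtain ⟨δ, x₃, y₃, h₃, hsum, r3, r2, hx₃, f1, f2⟩ := gsum_val v hW h₁ h₂ hne hx₁0 hx₂0
  have hδ : v δ = v (1 - W.a₄ / (x₁ * x₂)) := by
    rw [← r2, map_mul, hadd, mul_one]
  have hCx : v (W.a₄ / (x₁ * x₂)) = v W.a₄ / (g₁ * g₂) := by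
    rw [map_div₀, map_mul, hx₁, hx₂]
  have ha0 : v x₁ * v x₂ ≠ 0 := mul_ne_zero (v.ne_zero_iff.mpr hx₁0) (v.ne_zero_iff.mpr hx₂0)
  refine ⟨fun hlt => ?_, fun hlt => ?_, fun heq => ?_⟩
  · -- `v δ = 1`
    have hCx1 : v (W.a₄ / (x₁ * x₂)) < 1 := by
      rw [hCx]; exact (div_lt_one₀ hgg).mpr hlt
    have hd : v δ = 1 := by rw [hδ]; exact v.map_one_sub_of_lt hCx1
    refine g_rcls_intro v hsum (a := v x₁ * v x₂) (d := v δ) hx₃ (f1 s) ha0 ?_ ?_ ?_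
    · rw [hd]; exact one_ne_zero
    · have hE : 1 - (y₁ / x₁ + x₂ * δ + W.a₁ + s) * δ
          = W.a₄ / (x₁ * x₂) + (y₂ / x₂ - s) * δ - x₂ * δ ^ 2 := by
        linear_combination -r2
      rw [hE, hd]
      refine v.map_sub_lt (v.map_add_lt hCx1 ?_) ?_
      · rw [map_mul, hd, mul_one]; exact ht₂
      · rw [map_mul, map_pow, hd, one_pow, mul_one, hx₂]; exact hg₂'
    · rw [hd, one_pow, mul_one, hx₁, hx₂]
  · -- `v δ = v a₄ / (g₁ g₂) > 1`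
    have hCx1 : 1 < v (W.a₄ / (x₁ * x₂)) := by
      rw [hCx]; exact (one_lt_div₀ hgg).mpr hlt
    have hd : v δ = v W.a₄ / (g₁ * g₂) := by
      rw [hδ, ← hCx]
      exact v.map_sub_eq_of_lt_right (by rw [map_one]; exact hCx1)
    have hd1 : 1 < v δ := by rw [hd, ← hCx]; exact hCx1
    have hdpos : 0 < v δ := lt_trans zero_lt_one hd1
    refine g_rcls_intro v hsum (a := v x₁ * v x₂) (d := v δ) hx₃ (f1 (-W.a₁ - s)) ha0
      hdpos.ne' ?_ ?_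
    · have hE : 1 - (y₁ / x₁ + x₂ * δ + W.a₁ + (-W.a₁ - s)) * δ
          = 1 - (y₁ / x₁ - s) * δ - x₂ * δ ^ 2 := by ring
      rw [hE]
      refine v.map_sub_lt (v.map_sub_lt ?_ ?_) ?_
      · rw [map_one]; exact hd1
      · rw [map_mul]; exact mul_lt_of_lt_one_left hdpos ht₁
      · rw [map_mul, map_pow, sq, ← mul_assoc]
        refine mul_lt_of_lt_one_left hdpos ?_
        rw [hx₂, hd]
        have : g₂ * (v W.a₄ / (g₁ * g₂)) = v W.a₄ / g₁ := by field_simp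
        rw [this]
        exact (div_lt_one₀ hg₁pos).mpr hg₁
    · rw [hd, hx₁, hx₂]
      field_simp
  · -- `v δ ≤ 1`
    have hCx1 : v (W.a₄ / (x₁ * x₂)) = 1 := by
      rw [hCx, heq]; exact div_self hγ.ne'
    have hd : v δ ≤ 1 := by
      rw [hδ]
      exact v.map_sub_le (by rw [map_one]) hCx1.le
    rw [hsum, GLow_some, hx₃, hx₁, hx₂, heq]
    exact mul_le_of_le_one_right zero_le (pow_le_one₀ zero_le hd)

/-! ### Opposite signs: `R(s, g₁) + R(s', g₂)` -/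

theorem g_add_opp (hW : GShape W) (hC0 : W.a₄ ≠ 0) {s : K} (hu : v (2 * s + W.a₁) = 1)
    {g₁ g₂ : Γ₀}
    (hg₁ : v W.a₄ < g₁) (hg₁' : g₁ < 1) (hg₂ : v W.a₄ < g₂) (hg₂' : g₂ < 1)
    {P₁ P₂ : W.toAffine.Point} (hP₁ : GR v s g₁ P₁) (hP₂ : GR v (-W.a₁ - s) g₂ P₂) :
    (g₁ < g₂ → GR v s (g₁ / g₂) (P₁ + P₂)) ∧
    (g₁ = g₂ → InE0 v (P₁ + P₂)) := by
  rcases P₁ with _ | ⟨x₁, y₁, h₁⟩
  · exact absurd hP₁ (not_GR_zero v)
  rcases P₂ with _ | ⟨x₂, y₂, h₂⟩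
  · exact absurd hP₂ (not_GR_zero v)
  obtain ⟨hx₁, hy₁⟩ := hP₁
  obtain ⟨hx₂, hy₂⟩ := hP₂
  obtain ⟨hx₁0, ht₁⟩ := g_t_of_lt v (hx₁ ▸ hy₁ : v (y₁ - s * x₁) < v x₁)
  obtain ⟨hx₂0, ht₂⟩ := g_t_of_lt v (hx₂ ▸ hy₂ : v (y₂ - (-W.a₁ - s) * x₂) < v x₂)
  have hγ : 0 < v W.a₄ := v.pos_iff.mpr hC0
  have hg₁pos : 0 < g₁ := lt_trans hγ hg₁
  have hg₂pos : 0 < g₂ := lt_trans hγ hg₂
  have hsub : v (y₁ / x₁ - y₂ / x₂) = 1 := g_v_sub_t v hu ht₁ ht₂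
  have ha0 : v x₁ * v x₂ ≠ 0 := mul_ne_zero (v.ne_zero_iff.mpr hx₁0) (v.ne_zero_iff.mpr hx₂0)
  refine ⟨fun hlt => ?_, fun heq => ?_⟩
  · have hlt' : v x₁ < v x₂ := by rw [hx₁, hx₂]; exact hlt
    have hne : ¬(x₁ = x₂ ∧ y₁ = -y₂ - W.a₁ * x₂) :=
      fun h => by rw [h.1] at hlt'; exact lt_irrefl _ hlt'
    obtain ⟨δ, x₃, y₃, h₃, hsum, r3, r2, hx₃, f1, f2⟩ :=
      gsum_val v hW h₁ h₂ hne hx₁0 hx₂0
    have hd : v δ * g₂ = 1 := by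
      have := congrArg v r3
      rwa [map_mul, hsub, v.map_sub_eq_of_lt_right hlt', hx₂] at this
    have hd0 : v δ ≠ 0 := by
      intro h; rw [h, zero_mul] at hd; exact zero_ne_one hd
    have hdpos : 0 < v δ := zero_lt_iff.mpr hd0
    have hd1 : 1 < v δ := by
      by_contra h; rw [not_lt] at h
      have : v δ * g₂ < 1 := by
        rw [mul_comm]; exact mul_lt_one_of_lt_of_le hg₂' h
      rw [hd] at this; exact lt_irrefl _ this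
    refine g_rcls_intro v hsum (a := v x₁ * v x₂) (d := v δ) hx₃ (f2 s) ha0 hd0 ?_ ?_
    · have hE : 1 - (y₂ / x₂ + x₁ * δ + W.a₁ + s) * δ
          = 1 - (y₂ / x₂ - (-W.a₁ - s)) * δ - x₁ * δ ^ 2 := by ring
      rw [hE]
      refine v.map_sub_lt (v.map_sub_lt ?_ ?_) ?_
      · rw [map_one]; exact hd1
      · rw [map_mul]; exact mul_lt_of_lt_one_left hdpos ht₂
      · rw [map_mul, map_pow, sq, ← mul_assoc]
        refine mul_lt_of_lt_one_left hdpos ?_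
        rw [hx₁, ← hd, mul_comm]
        gcongr
    · rw [hx₁, hx₂]
      have : g₁ * g₂ * v δ ^ 2 = g₁ * (v δ * g₂) * v δ := by
        rw [sq]; simp only [mul_assoc, mul_comm, mul_left_comm]
      rw [this, hd, mul_one, eq_div_iff hg₂pos.ne', mul_assoc, hd, mul_one]
  · by_cases hne : x₁ = x₂ ∧ y₁ = -y₂ - W.a₁ * x₂
    · have : Point.some x₁ y₁ h₁ + Point.some x₂ y₂ h₂ = 0 :=
        Point.add_of_Y_eq hne.1 (by rw [hW.negY]; exact hne.2)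
      rw [this]; exact InE0_zero v
    · obtain ⟨δ, x₃, y₃, h₃, hsum, r3, r2, hx₃, f1, f2⟩ :=
        gsum_val v hW h₁ h₂ hne hx₁0 hx₂0
      have hd : v δ * v (x₁ - x₂) = 1 := by
        have := congrArg v r3
        rwa [map_mul, hsub] at this
      have hle : v (x₁ - x₂) ≤ g₁ := v.map_sub_le hx₁.le (by rw [hx₂, heq])
      have h1 : 1 ≤ v δ * g₁ := by
        rw [← hd]; gcongr
      rw [hsum, InE0_some, hx₃, hx₁, hx₂, ← heq]
      have : g₁ * g₁ * v δ ^ 2 = (v δ * g₁) ^ 2 := by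
        rw [sq, sq]; simp only [mul_assoc, mul_comm, mul_left_comm]
      rw [this]
      exact one_le_pow₀ h1

/-! ### `E₀` is a subgroup -/

/-- On the curve, `v (y/x)² ≤ v x` for points with `1 ≤ v x`. -/
theorem g_tsq_le (hW : GShape W) (ha₁ : v W.a₁ ≤ 1) (ha₂ : v W.a₂ ≤ 1) (hC : v W.a₄ ≤ 1)
    {x y : K} (h : W.toAffine.Nonsingular x y) (hx : 1 ≤ v x) : v (y / x) ^ 2 ≤ v x := by
  have hxpos : 0 < v x := lt_of_lt_of_le zero_lt_one hx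
  have hx0 : x ≠ 0 := v.pos_iff.mp hxpos
  have e := (hW.equation_iff x y).mp h.1
  have e' : (y / x) ^ 2 + W.a₁ * (y / x) = x + W.a₂ + W.a₄ / x := by
    field_simp
    linear_combination e
  have hR : v (x + W.a₂ + W.a₄ / x) ≤ v x := by
    refine v.map_add_le (v.map_add_le le_rfl (ha₂.trans hx)) ?_
    rw [map_div₀]
    exact (div_le_iff₀ hxpos).mpr (hC.trans (hx.trans (le_mul_of_one_le_right' hx)))
  by_contra hcon
  rw [not_le] at hcon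
  have ht1 : 1 < v (y / x) := by
    by_contra h1
    rw [not_lt] at h1
    exact absurd (lt_of_lt_of_le hcon (pow_le_one₀ zero_le h1)) (not_lt.mpr hx)
  have hlt : v (W.a₁ * (y / x)) < v ((y / x) ^ 2) := by
    rw [map_mul, map_pow, sq]
    calc v W.a₁ * v (y / x) ≤ 1 * v (y / x) := by gcongr
      _ < v (y / x) * v (y / x) := by
        rw [one_mul]
        exact lt_mul_of_one_lt_left (lt_trans zero_lt_one ht1) ht1
  have := v.map_add_eq_of_lt_left hlt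
  rw [e', map_pow] at this
  rw [← this] at hcon
  exact absurd hcon (not_lt.mpr hR)

/-- `E₀` is closed under addition. -/
theorem g_E0_add (hW : GShape W) (ha₁ : v W.a₁ ≤ 1) (ha₂ : v W.a₂ ≤ 1) (hC : v W.a₄ < 1)
    {P₁ P₂ : W.toAffine.Point} (hP₁ : InE0 v P₁) (hP₂ : InE0 v P₂) : InE0 v (P₁ + P₂) := by
  rcases P₁ with _ | ⟨x₁, y₁, h₁⟩
  · rw [← Point.zero_def, zero_add]; exact hP₂
  rcases P₂ with _ | ⟨x₂, y₂, h₂⟩
  · rw [← Point.zero_def, add_zero]; exact hP₁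
  have hx₁ : 1 ≤ v x₁ := hP₁
  have hx₂ : 1 ≤ v x₂ := hP₂
  have hx₁pos : 0 < v x₁ := lt_of_lt_of_le zero_lt_one hx₁
  have hx₂pos : 0 < v x₂ := lt_of_lt_of_le zero_lt_one hx₂
  have hx₁0 : x₁ ≠ 0 := v.pos_iff.mp hx₁pos
  have hx₂0 : x₂ ≠ 0 := v.pos_iff.mp hx₂pos
  by_cases hne : x₁ = x₂ ∧ y₁ = -y₂ - W.a₁ * x₂
  · have : Point.some x₁ y₁ h₁ + Point.some x₂ y₂ h₂ = 0 :=
      Point.add_of_Y_eq hne.1 (by rw [hW.negY]; exact hne.2)
    rw [this]; exact InE0_zero v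
  obtain ⟨δ, x₃, y₃, h₃, hsum, r3, r2, hx₃, f1, f2⟩ := gsum_val v hW h₁ h₂ hne hx₁0 hx₂0
  have h12 : 1 ≤ v x₁ * v x₂ := one_le_mul_of_one_le_of_one_le hx₁ hx₂
  have hCx : v (W.a₄ / (x₁ * x₂)) < 1 := by
    rw [map_div₀, map_mul, div_lt_one₀ (mul_pos hx₁pos hx₂pos)]
    exact lt_of_lt_of_le hC h12
  have hu' : v (1 - W.a₄ / (x₁ * x₂)) = 1 := v.map_one_sub_of_lt hCx
  have hd : v δ * v (y₁ / x₁ + y₂ / x₂ + W.a₁) = 1 := by
    rw [← map_mul, r2, hu']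
  have hT : v (y₁ / x₁ + y₂ / x₂ + W.a₁) ^ 2 ≤ v x₁ * v x₂ := by
    have ht₁ := g_tsq_le v hW ha₁ ha₂ hC.le h₁ hx₁
    have ht₂ := g_tsq_le v hW ha₁ ha₂ hC.le h₂ hx₂
    have hmax : v (y₁ / x₁ + y₂ / x₂ + W.a₁) ≤ max (max (v (y₁ / x₁)) (v (y₂ / x₂))) (v W.a₁) :=
      (v.map_add _ _).trans (max_le_max (v.map_add _ _) le_rfl)
    rcases le_max_iff.mp hmax with h | h
    · rcases le_max_iff.mp h with h' | h'
      · calc v (y₁ / x₁ + y₂ / x₂ + W.a₁) ^ 2 ≤ v (y₁ / x₁) ^ 2 := pow_le_pow_left₀ zero_le h' 2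
          _ ≤ v x₁ := ht₁
          _ ≤ v x₁ * v x₂ := le_mul_of_one_le_right' hx₂
      · calc v (y₁ / x₁ + y₂ / x₂ + W.a₁) ^ 2 ≤ v (y₂ / x₂) ^ 2 := pow_le_pow_left₀ zero_le h' 2
          _ ≤ v x₂ := ht₂
          _ ≤ v x₁ * v x₂ := le_mul_of_one_le_left' hx₁
    · calc v (y₁ / x₁ + y₂ / x₂ + W.a₁) ^ 2 ≤ 1 := pow_le_one₀ zero_le (h.trans ha₁)
        _ ≤ v x₁ * v x₂ := h12
  rw [hsum, InE0_some, hx₃]
  calc (1 : Γ₀) = (v δ * v (y₁ / x₁ + y₂ / x₂ + W.a₁)) ^ 2 := by rw [hd, one_pow]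
    _ = v (y₁ / x₁ + y₂ / x₂ + W.a₁) ^ 2 * v δ ^ 2 := by rw [mul_pow, mul_comm]
    _ ≤ v x₁ * v x₂ * v δ ^ 2 := by gcongr

/-- `E₀` is closed under negation. -/
theorem g_E0_neg (hW : GShape W) {P : W.toAffine.Point} (hP : InE0 v P) : InE0 v (-P) := by
  rcases P with _ | ⟨x, y, h⟩
  · exact hP
  · obtain ⟨h', e⟩ := hW.neg_some h
    rw [e]; exact hP

/-- `E₀` is closed under subtraction. -/
theorem g_E0_sub (hW : GShape W) (ha₁ : v W.a₁ ≤ 1) (ha₂ : v W.a₂ ≤ 1) (hC : v W.a₄ < 1)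
    {P₁ P₂ : W.toAffine.Point} (hP₁ : InE0 v P₁) (hP₂ : InE0 v P₂) : InE0 v (P₁ - P₂) := by
  rw [sub_eq_add_neg]
  exact g_E0_add v hW ha₁ ha₂ hC hP₁ (g_E0_neg v hW hP₂)

/-- `E₀` is closed under multiples. -/
theorem g_E0_nsmul (hW : GShape W) (ha₁ : v W.a₁ ≤ 1) (ha₂ : v W.a₂ ≤ 1) (hC : v W.a₄ < 1)
    {P : W.toAffine.Point} (hP : InE0 v P) (n : ℕ) : InE0 v (n • P) := by
  induction n with
  | zero => rw [zero_smul]; exact InE0_zero v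
  | succ n ih => rw [succ_nsmul]; exact g_E0_add v hW ha₁ ha₂ hC ih hP

/-! ### Classification of the points with `v a₄ < v x < 1` -/

/-- A root of `t² + a₁ t - a₂` is integral. -/
theorem g_root_le_one (ha₁ : v W.a₁ ≤ 1) (ha₂ : v W.a₂ ≤ 1) {s : K}
    (hs : s ^ 2 + W.a₁ * s - W.a₂ = 0) : v s ≤ 1 := by
  by_contra hcon
  rw [not_le] at hcon
  have hspos : 0 < v s := lt_trans zero_lt_one hcon
  have h1 : v (W.a₁ * s - W.a₂) < v (s ^ 2) := by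
    rw [map_pow, sq]
    refine v.map_sub_lt ?_ ?_
    · rw [map_mul]
      calc v W.a₁ * v s ≤ 1 * v s := by gcongr
        _ < v s * v s := by rw [one_mul]; exact lt_mul_of_one_lt_left hspos hcon
    · exact lt_of_le_of_lt ha₂ (lt_trans hcon (lt_mul_of_one_lt_left hspos hcon))
  have h2 : s ^ 2 + W.a₁ * s - W.a₂ = s ^ 2 + (W.a₁ * s - W.a₂) := by ring
  have h3 := v.map_add_eq_of_lt_left h1
  rw [← h2, hs, map_zero, map_pow] at h3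
  exact hspos.ne' ((pow_eq_zero_iff (two_ne_zero)).mp h3.symm)

/-- The conjugate slope is a root as well. -/
theorem g_root_conj {s : K} (hs : s ^ 2 + W.a₁ * s - W.a₂ = 0) :
    (-W.a₁ - s) ^ 2 + W.a₁ * (-W.a₁ - s) - W.a₂ = 0 := by
  linear_combination hs

/-- Every point with `v a₄ < v x < 1` has `y / x ≡ s` or `y / x ≡ s'`. -/
theorem g_class (hW : GShape W) {s : K} (hs : s ^ 2 + W.a₁ * s - W.a₂ = 0)
    {x y : K} (h : W.toAffine.Nonsingular x y) (hx : v W.a₄ < v x) (hx1 : v x < 1) :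
    GR v s (v x) (Point.some x y h) ∨ GR v (-W.a₁ - s) (v x) (Point.some x y h) := by
  have hxpos : 0 < v x := lt_of_le_of_lt zero_le hx
  have hx0 : x ≠ 0 := v.pos_iff.mp hxpos
  have e := (hW.equation_iff x y).mp h.1
  have hprod : (y / x - s) * (y / x - (-W.a₁ - s)) = x + W.a₄ / x := by
    field_simp
    linear_combination e - x ^ 2 * hs
  have hlt : v ((y / x - s) * (y / x - (-W.a₁ - s))) < 1 := by
    rw [hprod]
    refine v.map_add_lt hx1 ?_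
    rw [map_div₀]
    exact (div_lt_one₀ hxpos).mpr hx
  rw [map_mul] at hlt
  by_cases h1 : v (y / x - s) < 1
  · exact Or.inl ⟨rfl, g_lt_of_t v hx0 h1⟩
  · right
    refine ⟨rfl, g_lt_of_t v hx0 ?_⟩
    by_contra h2
    rw [not_lt] at h1 h2
    exact absurd hlt (not_lt.mpr (one_le_mul_of_one_le_of_one_le h1 h2))

/-! ### The induction -/

/-- State of the induction: the class of `Q`, together with the accumulated value `g`
modulo even powers of `v a₄`. -/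
def GState (v : Valuation K Γ₀) {W : WeierstrassCurve K} (β : K)
    (Q : W.toAffine.Point) (g : Γ₀) : Prop :=
  (InE0 v Q ∧ ∃ k : ℤ, g = v W.a₄ ^ (2 * k)) ∨
  (GLow v Q ∧ ∃ k : ℤ, g = v W.a₄ * v W.a₄ ^ (2 * k)) ∨
  (∃ h : Γ₀, v W.a₄ < h ∧ h < 1 ∧ GR v β h Q ∧ ∃ k : ℤ, g = h * v W.a₄ ^ (2 * k)) ∨
  (∃ h : Γ₀, v W.a₄ < h ∧ h < 1 ∧ GR v (-W.a₁ - β) h Q ∧ ∃ k : ℤ, g * h = v W.a₄ ^ (2 * k))

theorem g_step (hW : GShape W) (hC0 : W.a₄ ≠ 0) {β : K} (hu : v (2 * β + W.a₁) = 1)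
    {g₀ : Γ₀} (hg₀ : v W.a₄ < g₀) (hg₀' : g₀ < 1)
    {P₀ : W.toAffine.Point} (hP₀ : GR v β g₀ P₀)
    {Q : W.toAffine.Point} {g : Γ₀} (hQ : GState v β Q g) :
    GState v β (Q + P₀) (g * g₀) := by
  have hγ : 0 < v W.a₄ := v.pos_iff.mpr hC0
  have hγ0 : v W.a₄ ≠ 0 := hγ.ne'
  have hg₀pos : 0 < g₀ := lt_trans hγ hg₀
  rcases hQ with ⟨hE, k, hk⟩ | ⟨hL, k, hk⟩ | ⟨h, hh, hh', hR, k, hk⟩ | ⟨h, hh, hh', hR, k, hk⟩
  · -- `Q ∈ E₀`
    refine Or.inr (Or.inr (Or.inl ⟨g₀, hg₀, hg₀', ?_, k, by rw [hk, mul_comm]⟩))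
    rcases Q with _ | ⟨x₁, y₁, h₁⟩
    · rw [← Point.zero_def, zero_add]; exact hP₀
    · exact g_add_E0 v hW hu hg₀ hg₀' h₁ hE hP₀
  · -- `Q` low
    rcases Q with _ | ⟨x₁, y₁, h₁⟩
    · exact absurd hL (not_GLow_zero v)
    refine Or.inr (Or.inr (Or.inr ⟨v W.a₄ / g₀, ?_, ?_, ?_, k + 1, ?_⟩))
    · rw [lt_div_iff₀ hg₀pos]
      exact mul_lt_of_lt_one_right hγ hg₀'
    · exact (div_lt_one₀ hg₀pos).mpr hg₀
    · exact g_add_low v hW hC0 hu hg₀ hg₀' h₁ hL hP₀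
    · rw [hk, mul_add, zpow_add₀ hγ0]
      field_simp
      simp
  · -- `Q ∈ R(β, h)`
    have hhpos : 0 < h := lt_trans hγ hh
    obtain ⟨c1, c2, c3⟩ := g_add_same v hW hC0 hu hh hh' hg₀ hg₀' hR hP₀
    rcases lt_trichotomy (v W.a₄) (h * g₀) with hlt | heq | hlt
    · refine Or.inr (Or.inr (Or.inl ⟨h * g₀, hlt, ?_, c1 hlt, k, ?_⟩))
      · exact mul_lt_one_of_lt_of_le hh' hg₀'.le
      · rw [hk]; simp only [mul_assoc, mul_comm]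
    · refine Or.inr (Or.inl ⟨c3 heq.symm, k, ?_⟩)
      rw [hk, heq]; simp only [mul_assoc, mul_comm]
    · refine Or.inr (Or.inr (Or.inr ⟨v W.a₄ ^ 2 / (h * g₀), ?_, ?_, c2 hlt, k + 1, ?_⟩))
      · rw [lt_div_iff₀ (mul_pos hhpos hg₀pos), sq]
        gcongr
      · rw [div_lt_one₀ (mul_pos hhpos hg₀pos), sq]
        exact mul_lt_mul'' hh hg₀ zero_le zero_le
      · rw [hk, mul_add, zpow_add₀ hγ0]
        field_simp
        simp
  · -- `Q ∈ R(β', h)`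
    have hhpos : 0 < h := lt_trans hγ hh
    have hu' := g_unit_conj v hu
    rcases lt_trichotomy h g₀ with hlt | heq | hlt
    · have hP₀' : GR v (-W.a₁ - (-W.a₁ - β)) g₀ P₀ := by rw [g_conj_conj]; exact hP₀
      have := (g_add_opp v hW hC0 hu' hh hh' hg₀ hg₀' hR hP₀').1 hlt
      refine Or.inr (Or.inr (Or.inr ⟨h / g₀, ?_, ?_, this, k, ?_⟩))
      · rw [lt_div_iff₀ hg₀pos]
        exact lt_of_le_of_lt (mul_le_of_le_one_right zero_le hg₀'.le) hh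
      · exact (div_lt_one₀ hg₀pos).mpr hlt
      · rw [← hk]; field_simp
    · have := (g_add_opp v hW hC0 hu hg₀ hg₀' hh hh' hP₀ hR).2 heq.symm
      rw [add_comm] at this
      refine Or.inl ⟨this, k, ?_⟩
      rw [← hk, heq]
    · have := (g_add_opp v hW hC0 hu hg₀ hg₀' hh hh' hP₀ hR).1 hlt
      rw [add_comm] at this
      refine Or.inr (Or.inr (Or.inl ⟨g₀ / h, ?_, ?_, this, k, ?_⟩))
      · rw [lt_div_iff₀ hhpos]
        exact lt_of_le_of_lt (mul_le_of_le_one_right zero_le hh'.le) hg₀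
      · exact (div_lt_one₀ hhpos).mpr hlt
      · rw [← hk]; field_simp

theorem g_nsmul (hW : GShape W) (hC0 : W.a₄ ≠ 0) {β : K} (hu : v (2 * β + W.a₁) = 1)
    {g₀ : Γ₀} (hg₀ : v W.a₄ < g₀) (hg₀' : g₀ < 1)
    {P₀ : W.toAffine.Point} (hP₀ : GR v β g₀ P₀) (n : ℕ) :
    GState v β (n • P₀) (g₀ ^ n) := by
  induction n with
  | zero =>
    refine Or.inl ⟨?_, 0, ?_⟩
    · rw [zero_smul]; exact InE0_zero v
    · simp
  | succ n ih =>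
    rw [succ_nsmul, pow_succ]
    exact g_step v hW hC0 hu hg₀ hg₀' hP₀ ih

/-- For an `n`-torsion point in the class `R(s, g)`, `v a₄ < g < 1`,
`g ^ n` is an even power of `v a₄`. -/
theorem gcomp_torsion_of_GR (hW : GShape W) (hC0 : W.a₄ ≠ 0) {s : K}
    (hu : v (2 * s + W.a₁) = 1) {g : Γ₀} (hg : v W.a₄ < g) (hg1 : g < 1)
    {P : W.toAffine.Point} (hP : GR v s g P) {n : ℕ} (hn : n • P = 0) :
    ∃ k : ℤ, g ^ n = v W.a₄ ^ (2 * k) := by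
  have key := g_nsmul v hW hC0 hu hg hg1 hP n
  rw [hn] at key
  rcases key with ⟨-, k, hk⟩ | ⟨hL, -⟩ | ⟨h', -, -, hR, -⟩ | ⟨h', -, -, hR, -⟩
  · exact ⟨k, hk⟩
  · exact absurd hL (not_GLow_zero v)
  · exact absurd hR (not_GR_zero v)
  · exact absurd hR (not_GR_zero v)

/-- For an `n`-torsion point reducing to the node with `v a₄ < v x < 1`,
`v(x)^n` is an even power of `v(a₄)`. -/
theorem gcomp_torsion (hW : GShape W) (hC0 : W.a₄ ≠ 0) {s : K}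
    (hu : v (2 * s + W.a₁) = 1) {x y : K}
    (h : W.toAffine.Nonsingular x y) (hx : v W.a₄ < v x) (hx1 : v x < 1)
    (hsign : v (y / x - s) < 1) {n : ℕ} (hP : n • Point.some x y h = 0) :
    ∃ k : ℤ, v x ^ n = v W.a₄ ^ (2 * k) := by
  have hx0 : x ≠ 0 := v.pos_iff.mp (lt_of_le_of_lt zero_le hx)
  exact gcomp_torsion_of_GR v hW hC0 hu hx hx1 (P := Point.some x y h)
    ⟨rfl, g_lt_of_t v hx0 hsign⟩ hP

/-- Torsion points with `v a₄ < v x < 1`: `v(x)^n` is an even power of `v(a₄)`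
(both tangent directions). -/
theorem gcomp_torsion' (hW : GShape W) (hC0 : W.a₄ ≠ 0) {s : K}
    (hs : s ^ 2 + W.a₁ * s - W.a₂ = 0) (hu : v (2 * s + W.a₁) = 1) {x y : K}
    (h : W.toAffine.Nonsingular x y) (hx : v W.a₄ < v x) (hx1 : v x < 1)
    {n : ℕ} (hP : n • Point.some x y h = 0) :
    ∃ k : ℤ, v x ^ n = v W.a₄ ^ (2 * k) := by
  rcases g_class v hW hs h hx hx1 with hR | hR
  · exact gcomp_torsion_of_GR v hW hC0 hu hx hx1 hR hP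
  · exact gcomp_torsion_of_GR v hW hC0 (g_unit_conj v hu) hx hx1 hR hP

end Fermat.Agent.S13lib
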