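import Fermat.Agent.S05_Defs

/-!
# S13 library: curves of the shape `y² + a₁ x y = x³ + a₂ x² + a₄ x`   (helper19)

Chord–tangent description of the group law on such curves (generalising `S05_Curve`, which
is the case `a₁ = 0`).  The point `(0, 0)` lies on the curve; it is the node of the reduction
when `v a₄ < 1` and `a₁² + 4 a₂` is a unit.
-/

set_option autoImplicit false
set_option linter.unusedSectionVars false

namespace Fermat.Agent.S13lib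

open WeierstrassCurve WeierstrassCurve.Affine

variable {K : Type*} [Field K] [DecidableEq K]

/-- The curve has the shape `y² + a₁ x y = x³ + a₂ x² + a₄ x`. -/
structure GShape (W : WeierstrassCurve K) : Prop where
  a₃ : W.a₃ = 0
  a₆ : W.a₆ = 0

variable {W : WeierstrassCurve K}

theorem GShape.equation_iff (hW : GShape W) (x y : K) :
    W.toAffine.Equation x y ↔ y ^ 2 + W.a₁ * x * y = x ^ 3 + W.a₂ * x ^ 2 + W.a₄ * x := by
  rw [Affine.equation_iff, hW.a₃, hW.a₆]; simp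

theorem GShape.negY (hW : GShape W) (x y : K) : W.toAffine.negY x y = -y - W.a₁ * x := by
  simp [Affine.negY, hW.a₃]

theorem GShape.neg_some (hW : GShape W) {x y : K} (h : W.toAffine.Nonsingular x y) :
    ∃ h' : W.toAffine.Nonsingular x (-y - W.a₁ * x),
      -Point.some x y h = Point.some x (-y - W.a₁ * x) h' := by
  have h' : W.toAffine.Nonsingular x (W.toAffine.negY x y) := (nonsingular_neg ..).mpr h
  rw [hW.negY] at h'
  refine ⟨h', ?_⟩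
  rw [Point.neg_some]
  congr 1
  exact hW.negY x y

/-- Characterisation of the slope used by Mathlib's addition law. -/
theorem GShape.slope_spec (hW : GShape W) {x₁ y₁ x₂ y₂ : K}
    (h₁ : W.toAffine.Nonsingular x₁ y₁) (h₂ : W.toAffine.Nonsingular x₂ y₂)
    (hne : ¬(x₁ = x₂ ∧ y₁ = -y₂ - W.a₁ * x₂)) :
    W.toAffine.slope x₁ x₂ y₁ y₂ * (x₁ - x₂) = y₁ - y₂ ∧
    W.toAffine.slope x₁ x₂ y₁ y₂ * (2 * y₁ - W.toAffine.slope x₁ x₂ y₁ y₂ * (x₁ - x₂))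
      + W.a₁ * (W.toAffine.slope x₁ x₂ y₁ y₂ * x₂ + y₁) =
      x₁ ^ 2 + x₁ * x₂ + x₂ ^ 2 + W.a₂ * (x₁ + x₂) + W.a₄ := by
  have hne' : ¬(x₁ = x₂ ∧ y₁ = W.toAffine.negY x₂ y₂) := by rwa [hW.negY]
  have e₁ := (hW.equation_iff x₁ y₁).mp h₁.1
  have e₂ := (hW.equation_iff x₂ y₂).mp h₂.1
  by_cases hx : x₁ = x₂
  · have hy : y₁ ≠ W.toAffine.negY x₂ y₂ := fun h => hne' ⟨hx, h⟩
    have hy' : y₁ = y₂ := Y_eq_of_Y_ne h₁.1 h₂.1 hx hy
    subst hx hy'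
    rw [hW.negY] at hy
    have hd : 2 * y₁ + W.a₁ * x₁ ≠ 0 := by
      intro h
      exact hy (by linear_combination h)
    have hden : y₁ - (-y₁ - W.a₁ * x₁) = 2 * y₁ + W.a₁ * x₁ := by ring
    rw [slope_of_Y_ne rfl (by rwa [hW.negY]), hW.negY, hden]
    have hL : (3 * x₁ ^ 2 + 2 * W.a₂ * x₁ + W.a₄ - W.a₁ * y₁) / (2 * y₁ + W.a₁ * x₁)
        * (2 * y₁ + W.a₁ * x₁) = 3 * x₁ ^ 2 + 2 * W.a₂ * x₁ + W.a₄ - W.a₁ * y₁ :=
      div_mul_cancel₀ _ hd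
    constructor
    · simp
    · linear_combination hL
  · rw [slope_of_X_ne hx]
    have hx' : x₁ - x₂ ≠ 0 := sub_ne_zero.mpr hx
    have hℓ : (y₁ - y₂) / (x₁ - x₂) * (x₁ - x₂) = y₁ - y₂ := by field_simp
    refine ⟨hℓ, ?_⟩
    apply mul_left_cancel₀ hx'
    field_simp
    linear_combination e₁ - e₂

/-- The chord-tangent description of the sum of two affine points whose sum is affine. -/
theorem GShape.add_collinear (hW : GShape W) {x₁ y₁ x₂ y₂ : K}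
    (h₁ : W.toAffine.Nonsingular x₁ y₁) (h₂ : W.toAffine.Nonsingular x₂ y₂)
    (hne : ¬(x₁ = x₂ ∧ y₁ = -y₂ - W.a₁ * x₂)) :
    ∃ (ℓ n x₃ y₃ : K) (h₃ : W.toAffine.Nonsingular x₃ y₃),
      Point.some x₁ y₁ h₁ + Point.some x₂ y₂ h₂ = Point.some x₃ y₃ h₃ ∧
      y₁ = ℓ * x₁ + n ∧ y₂ = ℓ * x₂ + n ∧ -y₃ - W.a₁ * x₃ = ℓ * x₃ + n ∧
      x₁ + x₂ + x₃ = ℓ ^ 2 + W.a₁ * ℓ - W.a₂ ∧
      x₁ * x₂ + x₁ * x₃ + x₂ * x₃ = W.a₄ - 2 * ℓ * n - W.a₁ * n ∧
      x₁ * x₂ * x₃ = n ^ 2 := by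
  have hne' : ¬(x₁ = x₂ ∧ y₁ = W.toAffine.negY x₂ y₂) := by rwa [hW.negY]
  have e₁ := (hW.equation_iff x₁ y₁).mp h₁.1
  obtain ⟨hℓ, hQ⟩ := hW.slope_spec h₁ h₂ hne
  set ℓ := W.toAffine.slope x₁ x₂ y₁ y₂ with hℓdef
  refine ⟨ℓ, y₁ - ℓ * x₁, W.toAffine.addX x₁ x₂ ℓ, W.toAffine.addY x₁ x₂ y₁ ℓ,
    nonsingular_add h₁ h₂ hne', Point.add_some hne', by ring, ?_, ?_, ?_, ?_, ?_⟩
  · linear_combination hℓ
  · simp only [addY, negAddY, addX, hW.negY]; ring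
  · simp only [addX]; ring
  · simp only [addX]; linear_combination hQ
  · simp only [addX]; linear_combination x₁ * hQ - e₁

end Fermat.Agent.S13lib
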