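import Fermat.Agent.S13lib.GComp

/-!
# S13 library: the component of a point is invariant under inertia   (helper19)

On `y² + a₁ x y = x³ + a₂ x² + a₄ x` with a node at the origin: for an inertial,
valuation-preserving `σ` and any point `P`, the point `σ P - P` lies in `E₀`.
-/

set_option autoImplicit false
set_option linter.unusedSectionVars false
set_option linter.unusedVariables false

namespace Fermat.Agent.S13lib

open WeierstrassCurve WeierstrassCurve.Affine Fermat.Agent.S05lib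

variable {K : Type*} [Field K] [DecidableEq K]
  {Γ₀ : Type*} [LinearOrderedCommGroupWithZero Γ₀] (v : Valuation K Γ₀)
  {W : WeierstrassCurve K}

theorem g_point_congr {x x' y y' : K} (hx : x = x') (hy : y = y')
    (h : W.toAffine.Nonsingular x y) (h' : W.toAffine.Nonsingular x' y') :
    Point.some x y h = Point.some x' y' h' := by
  subst hx hy; rfl

/-- `φ` fixes `T = (0, 0)`. -/
theorem g_phi_T (σ : K →+* K) (φ : W.toAffine.Point →+ W.toAffine.Point)
    (hφ : ∀ (x y : K) (h : W.toAffine.Nonsingular x y),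
      ∃ h' : W.toAffine.Nonsingular (σ x) (σ y), φ (Point.some x y h) = Point.some (σ x) (σ y) h')
    (hT : W.toAffine.Nonsingular 0 0) : φ (Point.some 0 0 hT) = Point.some 0 0 hT := by
  obtain ⟨h', e⟩ := hφ 0 0 hT
  rw [e]
  exact g_point_congr (map_zero σ) (map_zero σ) _ _

/-- An inertial valuation-preserving `σ` preserves the classes `R(s, g)`. -/
theorem g_GR_map (σ : K →+* K) (hσ : IsInertial v σ) (hσv : ∀ a, v (σ a) = v a)
    {s : K} (hs1 : v s ≤ 1) {g : Γ₀} {x y : K} (hx : v x = g) (hy : v (y - s * x) < g) :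
    v (σ x) = g ∧ v (σ y - s * σ x) < g := by
  have hgpos : 0 < g := lt_of_le_of_lt zero_le hy
  refine ⟨by rw [hσv, hx], ?_⟩
  have e : σ y - s * σ x = σ (y - s * x) + (σ s - s) * σ x := by
    rw [map_sub, map_mul]; ring
  rw [e]
  refine v.map_add_lt (by rw [hσv]; exact hy) ?_
  rw [map_mul, hσv x, hx]
  exact mul_lt_of_lt_one_left hgpos (hσ.sub_lt s hs1)

/-- The negative of a point of `R(s, g)` is in `R(s', g)`. -/
theorem g_GR_neg (hW : GShape W) {s : K} {g : Γ₀} {P : W.toAffine.Point} (hP : GR v s g P) :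
    GR v (-W.a₁ - s) g (-P) := by
  rcases P with _ | ⟨x, y, h⟩
  · exact absurd hP (not_GR_zero v)
  obtain ⟨hx, hy⟩ := hP
  obtain ⟨h', e⟩ := hW.neg_some h
  rw [e, GR_some]
  refine ⟨hx, ?_⟩
  have : -y - W.a₁ * x - (-W.a₁ - s) * x = -(y - s * x) := by ring
  rw [this, Valuation.map_neg]
  exact hy

/-- **Invariance of the component under inertia**: `σ P - P ∈ E₀`. -/
theorem g_inertia_sub_mem_E0 (hW : GShape W) (ha₁ : v W.a₁ ≤ 1) (ha₂ : v W.a₂ ≤ 1)
    (hC : v W.a₄ < 1) (hC0 : W.a₄ ≠ 0)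
    {s : K} (hs : s ^ 2 + W.a₁ * s - W.a₂ = 0) (hu : v (2 * s + W.a₁) = 1)
    (σ : K →+* K) (hσ : IsInertial v σ) (hσv : ∀ a, v (σ a) = v a)
    (φ : W.toAffine.Point →+ W.toAffine.Point)
    (hφ : ∀ (x y : K) (h : W.toAffine.Nonsingular x y),
      ∃ h' : W.toAffine.Nonsingular (σ x) (σ y), φ (Point.some x y h) = Point.some (σ x) (σ y) h')
    (P : W.toAffine.Point) : InE0 v (φ P - P) := by
  have hT := g_nonsingular_zero hW hC0
  -- the case of points of `E₀`
  have hE0 : ∀ Q : W.toAffine.Point, InE0 v Q → InE0 v (φ Q - Q) := by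
    intro Q hQ
    refine g_E0_sub v hW ha₁ ha₂ hC ?_ hQ
    rcases Q with _ | ⟨x, y, h⟩
    · rw [← Point.zero_def, map_zero]; exact InE0_zero v
    · obtain ⟨h', e⟩ := hφ x y h
      rw [e, InE0_some, hσv]
      exact hQ
  rcases P with _ | ⟨x, y, h⟩
  · rw [← Point.zero_def, map_zero, sub_zero]; exact InE0_zero v
  by_cases hx1 : 1 ≤ v x
  · exact hE0 _ hx1
  rw [not_le] at hx1
  by_cases hxC : v x ≤ v W.a₄
  · by_cases hx0 : x = 0
    · subst hx0
      have hy0 : y = 0 := g_eq_T_of_x_eq_zero hW h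
      subst hy0
      rw [g_phi_T σ φ hφ h, sub_self]
      exact InE0_zero v
    · obtain ⟨x', y', h', hsum, hx'⟩ := g_low_add_T v hW hC0 hT h hx0 hxC
      have := hE0 (Point.some x' y' h') hx'
      rw [← hsum, map_add, g_phi_T σ φ hφ hT] at this
      have e : φ (Point.some x y h) + Point.some 0 0 hT - (Point.some x y h + Point.some 0 0 hT)
          = φ (Point.some x y h) - Point.some x y h := by abel
      rw [e] at this
      exact this
  rw [not_le] at hxC
  -- the classes `R(s₀, g)`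
  have hR : ∀ s₀ : K, v s₀ ≤ 1 → v (2 * s₀ + W.a₁) = 1 →
      GR v s₀ (v x) (Point.some x y h) → InE0 v (φ (Point.some x y h) - Point.some x y h) := by
    intro s₀ hs₀ hu₀ hP
    have hP' : GR v s₀ (v x) (φ (Point.some x y h)) := by
      obtain ⟨h', e⟩ := hφ x y h
      rw [e, GR_some]
      exact g_GR_map v σ hσ hσv hs₀ hP.1 hP.2
    rw [sub_eq_add_neg]
    exact (g_add_opp v hW hC0 hu₀ hxC hx1 hxC hx1 hP' (g_GR_neg v hW hP)).2 rfl
  rcases g_class v hW hs h hxC hx1 with hP | hP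
  · exact hR s (g_root_le_one v ha₁ ha₂ hs) hu hP
  · exact hR (-W.a₁ - s) (g_root_le_one v ha₁ ha₂ (g_root_conj hs)) (g_unit_conj v hu) hP

end Fermat.Agent.S13lib
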