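import Fermat.Agent.S13lib.MinkInertia

set_option autoImplicit false

/-!
# S13 (L): inertia lifts from a finite extension to `ℚ̄`

* `primeOfVal A`: the prime of `ℤ̄` cut out by a valuation subring `A` of `ℚ̄`, and
  `valuationSubringOfPrime_primeOfVal : valuationSubringOfPrime (primeOfVal A) = A`.
* `exists_inertia_lift_of_integral`, `exists_inertia_lift`: an automorphism of `K ⊆ ℚ̄` which is
  trivial modulo the maximal ideal of `A` is the restriction of an element of the inertia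
  group of `A`.
-/

namespace Fermat.Agent.S13lib

open Fermat.Agent.FrobLib
open scoped Pointwise

/-- Algebraic integers lie in every valuation subring of `ℚ̄`. -/
theorem il_zbar_mem (A : ValuationSubring (AlgebraicClosure ℚ)) (b : ZBar) :
    (b : AlgebraicClosure ℚ) ∈ A := by
  have hint : IsIntegral A (b : AlgebraicClosure ℚ) := (b.2 : IsIntegral ℤ _).tower_top
  obtain ⟨y, hy⟩ := IsIntegrallyClosed.isIntegral_iff.mp hint
  rw [← hy]
  exact y.2

/-- The inclusion of the algebraic integers in a valuation subring. -/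
noncomputable def il_zbarIncl (A : ValuationSubring (AlgebraicClosure ℚ)) : ZBar →+* A where
  toFun b := ⟨(b : AlgebraicClosure ℚ), il_zbar_mem A b⟩
  map_one' := rfl
  map_mul' _ _ := rfl
  map_zero' := rfl
  map_add' _ _ := rfl

/-- The prime of `ℤ̄` cut out by a valuation subring of `ℚ̄`. -/
noncomputable def primeOfVal (A : ValuationSubring (AlgebraicClosure ℚ)) : Ideal ZBar :=
  (IsLocalRing.maximalIdeal A).comap (il_zbarIncl A)

instance primeOfVal_isPrime (A : ValuationSubring (AlgebraicClosure ℚ)) :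
    (primeOfVal A).IsPrime :=
  Ideal.comap_isPrime _ _

theorem mem_primeOfVal_iff (A : ValuationSubring (AlgebraicClosure ℚ)) (b : ZBar) :
    b ∈ primeOfVal A ↔ (b : AlgebraicClosure ℚ) ∈ A.nonunits := by
  unfold primeOfVal
  rw [Ideal.mem_comap, ← ValuationSubring.coe_mem_nonunits_iff]
  rfl

/-- Every valuation subring of `ℚ̄` is the localisation of `ℤ̄` at a prime. -/
theorem valuationSubringOfPrime_primeOfVal (A : ValuationSubring (AlgebraicClosure ℚ)) :
    valuationSubringOfPrime (primeOfVal A) = A := by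
  have hle : valuationSubringOfPrime (primeOfVal A) ≤ A := by
    intro x hx
    obtain ⟨a, s, hs, hxs⟩ := (mem_valuationSubringOfPrime_iff _ x).mp hx
    -- `s` is a unit of `A`
    have hsA : (s : AlgebraicClosure ℚ) ∈ A := il_zbar_mem A s
    have hs1 : A.valuation (s : AlgebraicClosure ℚ) = 1 := by
      refine le_antisymm ((A.valuation_le_one_iff _).mpr hsA) ?_
      rw [← not_lt, ← A.mem_nonunits_iff, ← mem_primeOfVal_iff]
      exact hs
    rw [← A.valuation_le_one_iff]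
    have := (A.valuation_le_one_iff _).mpr (il_zbar_mem A a)
    rw [← hxs, map_mul, hs1, mul_one] at this
    exact this
  refine le_antisymm hle ?_
  intro x hx
  by_contra hxV
  -- `x⁻¹` is a nonunit of the localisation
  have hx0 : x ≠ 0 := fun h => hxV (h ▸ (valuationSubringOfPrime (primeOfVal A)).zero_mem)
  have hinv : x⁻¹ ∈ (valuationSubringOfPrime (primeOfVal A)).nonunits := by
    rw [ValuationSubring.mem_nonunits_iff_or]
    right
    rwa [inv_inv]
  obtain ⟨a, s, ha, hs, hxs⟩ := (mem_nonunits_valuationSubringOfPrime_iff _ _).mp hinv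
  have ha' : A.valuation (a : AlgebraicClosure ℚ) < 1 :=
    A.mem_nonunits_iff.mp ((mem_primeOfVal_iff A a).mp ha)
  have hs1 : A.valuation (s : AlgebraicClosure ℚ) = 1 := by
    refine le_antisymm ((A.valuation_le_one_iff _).mpr (il_zbar_mem A s)) ?_
    rw [← not_lt, ← A.mem_nonunits_iff, ← mem_primeOfVal_iff]
    exact hs
  have hx1 : A.valuation x ≤ 1 := (A.valuation_le_one_iff _).mpr hx
  rw [← hxs, map_mul, hs1, mul_one, map_inv₀] at ha'
  have hxv0 : A.valuation x ≠ 0 := by rwa [Ne, map_eq_zero]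
  have : 1 < A.valuation x := by
    rw [inv_lt_one₀ (zero_lt_iff.mpr hxv0)] at ha'
    exact ha'
  exact absurd hx1 (not_le.mpr this)


section lift

variable (H : Subgroup (AlgebraicClosure ℚ ≃ₐ[ℚ] AlgebraicClosure ℚ))

/-- `ℤ̄` is invariant over the fixed points of a subgroup. -/
theorem il_isInvariant_fixed :
    Algebra.IsInvariant (FixedPoints.subalgebra ℤ ZBar H) ZBar H :=
  ⟨fun b hb => ⟨⟨b, hb⟩, rfl⟩⟩

end lift

/-- An algebraic integer of `ℚ̄` fixed by `Gal(ℚ̄/K)` comes from `K`. -/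
theorem il_exists_of_fixed (K : IntermediateField ℚ (AlgebraicClosure ℚ))
    (b : ZBar) (hb : ∀ g : K.fixingSubgroup, g • b = b) :
    ∃ k : K, (k : AlgebraicClosure ℚ) = (b : AlgebraicClosure ℚ) ∧ IsIntegral ℤ k := by
  have hgal := isGalois_QBar
  have hmem : (b : AlgebraicClosure ℚ) ∈ IntermediateField.fixedField K.fixingSubgroup := by
    rw [IntermediateField.mem_fixedField_iff]
    intro σ hσ
    exact congrArg Subtype.val (hb ⟨σ, hσ⟩)
  rw [InfiniteGalois.fixedField_fixingSubgroup K] at hmem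
  refine ⟨⟨b, hmem⟩, rfl, ?_⟩
  have hbi : IsIntegral ℤ (b : AlgebraicClosure ℚ) := b.2
  exact (isIntegral_algebraMap_iff (algebraMap K (AlgebraicClosure ℚ)).injective).mp hbi

/-- **Inertia lifts.** Let `K ⊆ ℚ̄`, `A` a valuation subring of `ℚ̄` and `τ` an automorphism of `K`
which is congruent to the identity modulo the maximal ideal of `A` on the integers of `K`.
Then `τ` is the restriction of an element of the inertia group of `A`. -/
theorem exists_inertia_lift_of_integral (K : IntermediateField ℚ (AlgebraicClosure ℚ))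
    [FiniteDimensional ℚ K]
    (A : ValuationSubring (AlgebraicClosure ℚ)) (τ : K ≃ₐ[ℚ] K)
    (hτ : ∀ x : K, IsIntegral ℤ x →
      ((τ x : K) : AlgebraicClosure ℚ) - (x : AlgebraicClosure ℚ) ∈ A.nonunits) :
    ∃ σ ∈ A.inertiaSubgroupIn ℚ, ∀ x : K, σ (x : AlgebraicClosure ℚ)
      = ((τ x : K) : AlgebraicClosure ℚ) := by
  classical
  have hgal := isGalois_QBar
  have halg := isAlgebraic_QBar
  let _ : TopologicalSpace ZBar := ⊥
  have : DiscreteTopology ZBar := ⟨rfl⟩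
  have hcont := zbar_continuousSMul
  -- the group `H = Gal(ℚ̄/K)`
  set H : Subgroup (AlgebraicClosure ℚ ≃ₐ[ℚ] AlgebraicClosure ℚ) := K.fixingSubgroup with hH
  have hHc : CompactSpace H := isCompact_iff_compactSpace.mp K.fixingSubgroup_isClosed.isCompact
  have hinv : Algebra.IsInvariant (FixedPoints.subalgebra ℤ ZBar H) ZBar H :=
    il_isInvariant_fixed H
  have hfixK : ∀ (g : AlgebraicClosure ℚ ≃ₐ[ℚ] AlgebraicClosure ℚ), g ∈ H → ∀ x : K,
      g (x : AlgebraicClosure ℚ) = x := by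
    intro g hg x
    exact (IntermediateField.mem_fixingSubgroup_iff K g).mp hg x x.2
  -- lift `τ`
  set σ₀ : AlgebraicClosure ℚ ≃ₐ[ℚ] AlgebraicClosure ℚ := τ.liftNormal (AlgebraicClosure ℚ)
    with hσ₀
  have hσ₀K : ∀ x : K, σ₀ (x : AlgebraicClosure ℚ) = ((τ x : K) : AlgebraicClosure ℚ) :=
    fun x => AlgEquiv.liftNormal_commutes τ (AlgebraicClosure ℚ) x
  set Q : Ideal ZBar := primeOfVal A with hQ
  -- key congruence for elements of `A'`
  have hcongr : ∀ b : ZBar, (∀ g : H, g • b = b) → σ₀ • b - b ∈ Q := by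
    intro b hb
    obtain ⟨k, hk, hki⟩ := il_exists_of_fixed K b hb
    rw [mem_primeOfVal_iff]
    have := hτ k hki
    rw [← hσ₀K k, hk] at this
    exact this
  have hcongr' : ∀ b : ZBar, (∀ g : H, g • b = b) → σ₀⁻¹ • b - b ∈ Q := by
    intro b hb
    -- `σ₀⁻¹ b` is again fixed by `H`
    obtain ⟨k, hk, hki⟩ := il_exists_of_fixed K b hb
    have hk' : IsIntegral ℤ (τ.symm k) := hki.map (τ.symm.toAlgHom.restrictScalars ℤ)
    have h1 : (σ₀⁻¹ • b : ZBar) = ⟨((τ.symm k : K) : AlgebraicClosure ℚ),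
        (isIntegral_algebraMap_iff (algebraMap K (AlgebraicClosure ℚ)).injective).mpr hk'⟩ := by
      apply Subtype.ext
      change σ₀⁻¹ (b : AlgebraicClosure ℚ) = _
      rw [← hk]
      have := hσ₀K (τ.symm k)
      rw [AlgEquiv.apply_symm_apply] at this
      rw [← this]
      change σ₀.symm (σ₀ _) = _
      rw [AlgEquiv.symm_apply_apply]
    rw [mem_primeOfVal_iff]
    have := hτ (τ.symm k) hk'
    rw [AlgEquiv.apply_symm_apply] at this
    have h2 : ((σ₀⁻¹ • b - b : ZBar) : AlgebraicClosure ℚ)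
        = -(((k : K) : AlgebraicClosure ℚ) - ((τ.symm k : K) : AlgebraicClosure ℚ)) := by
      rw [h1]
      simp [hk]
    rw [h2, A.mem_nonunits_iff, Valuation.map_neg, ← A.mem_nonunits_iff]
    exact this
  -- `σ₀ • Q` and `Q` have the same contraction to `A'`
  have hunder : (σ₀ • Q).under (FixedPoints.subalgebra ℤ ZBar H)
      = Q.under (FixedPoints.subalgebra ℤ ZBar H) := by
    ext ⟨a, ha⟩
    rw [Ideal.under_def, Ideal.under_def, Ideal.mem_comap, Ideal.mem_comap]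
    change a ∈ σ₀ • Q ↔ a ∈ Q
    rw [Ideal.mem_pointwise_smul_iff_inv_smul_mem]
    have h := hcongr' a ha
    constructor
    · intro h1
      have := Q.sub_mem h1 h
      simpa using this
    · intro h1
      have := Q.add_mem h h1
      simpa using this
  have hσQprime : (σ₀ • Q).IsPrime := by
    rw [Ideal.pointwise_smul_eq_comap]
    exact Ideal.comap_isPrime _ _
  -- transitivity
  obtain ⟨ρ₁, hρ₁⟩ := Algebra.IsInvariant.exists_smul_of_under_eq_of_profinite
    (A := FixedPoints.subalgebra ℤ ZBar H) (G := H) (σ₀ • Q) Q hunder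
  set σ₁ : AlgebraicClosure ℚ ≃ₐ[ℚ] AlgebraicClosure ℚ := (ρ₁ : _) * σ₀ with hσ₁
  have hσ₁Q : σ₁ • Q = Q := by
    rw [hσ₁, mul_smul]
    exact hρ₁.symm
  have hσ₁K : ∀ x : K, σ₁ (x : AlgebraicClosure ℚ) = ((τ x : K) : AlgebraicClosure ℚ) := by
    intro x
    rw [hσ₁, AlgEquiv.mul_apply, hσ₀K x]
    exact hfixK ρ₁ ρ₁.2 (τ x)
  have hcongr₁ : ∀ b : ZBar, (∀ g : H, g • b = b) → σ₁ • b - b ∈ Q := by
    intro b hb
    obtain ⟨k, hk, hki⟩ := il_exists_of_fixed K b hb
    rw [mem_primeOfVal_iff]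
    have := hτ k hki
    rw [← hσ₁K k, hk] at this
    exact this
  -- the automorphism of `ℤ̄ / Q` induced by `σ₁`
  let φ₀ : (ZBar ⧸ Q) ≃ₐ[ℤ ⧸ Q.under ℤ] (ZBar ⧸ Q) :=
    Ideal.Quotient.stabilizerHom Q (Q.under ℤ) (AlgebraicClosure ℚ ≃ₐ[ℚ] AlgebraicClosure ℚ)
      ⟨σ₁, hσ₁Q⟩
  have hφ₀ : ∀ b : ZBar, φ₀ (Ideal.Quotient.mk Q b) = Ideal.Quotient.mk Q (σ₁ • b) :=
    fun b => Ideal.Quotient.stabilizerHom_apply Q (Q.under ℤ) _ ⟨σ₁, hσ₁Q⟩ b
  let φ : (ZBar ⧸ Q) ≃ₐ[(FixedPoints.subalgebra ℤ ZBar H) ⧸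
      Q.under (FixedPoints.subalgebra ℤ ZBar H)] (ZBar ⧸ Q) :=
    AlgEquiv.ofRingEquiv (f := φ₀.toRingEquiv) (by
      intro r
      obtain ⟨a, rfl⟩ := Ideal.Quotient.mk_surjective r
      rw [Ideal.Quotient.algebraMap_mk_of_liesOver]
      change φ₀ (Ideal.Quotient.mk Q (a : ZBar)) = _
      rw [hφ₀, Ideal.Quotient.eq]
      exact hcongr₁ a a.2)
  have hφ : ∀ b : ZBar, φ (Ideal.Quotient.mk Q b) = Ideal.Quotient.mk Q (σ₁ • b) := hφ₀
  obtain ⟨ρ₂, hρ₂⟩ := Ideal.Quotient.stabilizerHom_surjective_of_profinite (G := H)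
    (Q.under (FixedPoints.subalgebra ℤ ZBar H)) Q φ
  have hρ₂' : ∀ b : ZBar, (ρ₂ : H) • b - σ₁ • b ∈ Q := by
    intro b
    have := DFunLike.congr_fun hρ₂ (Ideal.Quotient.mk Q b)
    rw [Ideal.Quotient.stabilizerHom_apply, hφ] at this
    exact Ideal.Quotient.eq.mp this
  have hρ₂Q : ((ρ₂ : H) : AlgebraicClosure ℚ ≃ₐ[ℚ] AlgebraicClosure ℚ) • Q = Q := ρ₂.2
  -- the lift
  set σ : AlgebraicClosure ℚ ≃ₐ[ℚ] AlgebraicClosure ℚ := ((ρ₂ : H) : _)⁻¹ * σ₁ with hσ
  have hσb : ∀ b : ZBar, σ • b - b ∈ Q := by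
    intro b
    -- apply the previous congruence to `c = σ₁⁻¹ b`... use `b` directly
    have h1 := hρ₂' (σ • b)
    -- `ρ₂ • σ • b = σ₁ • b`
    have h2 : ((ρ₂ : H) : AlgebraicClosure ℚ ≃ₐ[ℚ] AlgebraicClosure ℚ) • (σ • b) = σ₁ • b := by
      rw [hσ, ← mul_smul, ← mul_assoc]
      simp
    change ((ρ₂ : H) : AlgebraicClosure ℚ ≃ₐ[ℚ] AlgebraicClosure ℚ) • (σ • b) - σ₁ • (σ • b) ∈ Q
      at h1
    rw [h2] at h1
    -- so `σ₁ • b - σ₁ • σ • b ∈ Q`, i.e. `σ₁ • (b - σ • b) ∈ Q`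
    have h3 : σ₁ • (b - σ • b) ∈ Q := by rwa [smul_sub]
    have h4 : b - σ • b ∈ Q := by
      have : σ₁ • (b - σ • b) ∈ σ₁ • Q := by rwa [hσ₁Q]
      exact (Ideal.smul_mem_pointwise_smul_iff).mp this
    have := Q.neg_mem h4
    simpa using this
  refine ⟨σ, ?_, ?_⟩
  · have h5 : valuationSubringOfPrime Q = A := valuationSubringOfPrime_primeOfVal A
    have := mem_inertiaSubgroupIn_of_congr Q σ hσb
    rwa [h5] at this
  · intro x
    rw [hσ, AlgEquiv.mul_apply, hσ₁K x]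
    have hinv : ((ρ₂ : H) : AlgebraicClosure ℚ ≃ₐ[ℚ] AlgebraicClosure ℚ)⁻¹ ∈ H :=
      H.inv_mem (ρ₂ : H).2
    exact hfixK _ hinv (τ x)

/-- **Inertia lifts**, with the congruence hypothesis on all elements of `K ∩ A`. -/
theorem exists_inertia_lift (K : IntermediateField ℚ (AlgebraicClosure ℚ))
    [FiniteDimensional ℚ K] [IsGalois ℚ K]
    (A : ValuationSubring (AlgebraicClosure ℚ)) (τ : K ≃ₐ[ℚ] K)
    (hτ : ∀ x : K, (x : AlgebraicClosure ℚ) ∈ A →
      ((τ x : K) : AlgebraicClosure ℚ) - (x : AlgebraicClosure ℚ) ∈ A.nonunits) :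
    ∃ σ ∈ A.inertiaSubgroupIn ℚ, ∀ x : K, σ (x : AlgebraicClosure ℚ)
      = ((τ x : K) : AlgebraicClosure ℚ) :=
  exists_inertia_lift_of_integral K A τ fun x hx =>
    hτ x (il_zbar_mem A ⟨(x : AlgebraicClosure ℚ),
      (isIntegral_algebraMap_iff (algebraMap K (AlgebraicClosure ℚ)).injective).mpr hx⟩)

end Fermat.Agent.S13lib
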