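import Fermat.Agent.S13lib.GComp
import Fermat.Agent.S13lib.GE1
import Fermat.Agent.S13lib.GSameRed

/-!
# S13 library, piece B5 (helper18): no rational point of prime order `p`, abstract form

Curve `y² + x y = x³ + a₂ x² + a₄ x` over a valued field `(K, v)` with `v 2 < 1`,
`v a₂ ≤ 1`, `v a₄ = π ^ m < 1`, `p` an odd prime with `v p = 1` and `p ∤ m`.
`R` is a set of points ("rational points") closed under addition and containing `(0, 0)`,
whose coordinates have valuations in `π ^ ℤ` and residues in `{0, 1}`.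
Then `R` contains no point of order `p`.
-/

set_option autoImplicit false
set_option linter.unusedSectionVars false
set_option linter.unusedVariables false

namespace Fermat.Agent.S13lib

open WeierstrassCurve WeierstrassCurve.Affine Fermat.Agent.S05lib

variable {K : Type*} [Field K] [DecidableEq K]
  {Γ₀ : Type*} [LinearOrderedCommGroupWithZero Γ₀] (v : Valuation K Γ₀)
  {W : WeierstrassCurve K}

/-- A nonzero point killed by a prime `p` is not killed by `k` for `0 < k < p`. -/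
theorem nrt_nsmul_ne_zero {p : ℕ} (hp : p.Prime) {Q : W.toAffine.Point} (hQ0 : Q ≠ 0)
    (hpQ : p • Q = 0) {k : ℕ} (hk : 0 < k) (hkp : k < p) : k • Q ≠ 0 := by
  intro h
  have := Fact.mk hp
  have ho : addOrderOf Q = p := addOrderOf_eq_prime hpQ hQ0
  have hd : addOrderOf Q ∣ k := addOrderOf_dvd_of_nsmul_eq_zero h
  rw [ho] at hd
  exact absurd (Nat.le_of_dvd hk hd) (not_le.mpr hkp)

theorem nrt_nsmul_nsmul {p : ℕ} {Q : W.toAffine.Point} (hpQ : p • Q = 0) (k : ℕ) :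
    p • (k • Q) = 0 := by
  rw [smul_comm, hpQ, smul_zero]

/-- The unit conditions in the situation `a₁ = 1`, `v 2 < 1`. -/
theorem nrt_units (ha₁ : W.a₁ = 1) (h2 : v W.a₂ ≤ 1) (hv2 : v (2 : K) < 1)
    {s : K} (hs : s ^ 2 + W.a₁ * s - W.a₂ = 0) :
    v (2 * s + W.a₁) = 1 ∧ v (W.a₁ ^ 2 + 4 * W.a₂) = 1 := by
  have h1 : v W.a₁ ≤ 1 := by rw [ha₁, map_one]
  have hs1 : v s ≤ 1 := g_root_le_one v h1 h2 hs
  constructor
  · have e : 2 * s + W.a₁ = 1 + 2 * s := by rw [ha₁]; ring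
    rw [e]
    exact v.map_one_add_of_lt (gsr_mul_lt' hv2 hs1)
  · have e : W.a₁ ^ 2 + 4 * W.a₂ = 1 + 2 * (2 * W.a₂) := by rw [ha₁]; ring
    rw [e]
    exact v.map_one_add_of_lt (gsr_mul_lt' hv2 (gsr_mul_le hv2.le h2))

/-- The case of a point of `E₀`. -/
theorem nrt_E0 (hW : GShape W) (ha₁ : W.a₁ = 1) (h2 : v W.a₂ ≤ 1) (h4 : v W.a₄ < 1)
    (hv2 : v (2 : K) < 1) {p : ℕ} (hp : p.Prime) (hp5 : 5 ≤ p) (hvp : v (p : K) = 1)
    (R : W.toAffine.Point → Prop)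
    (hRadd : ∀ P Q, R P → R Q → R (P + Q))
    (hRres : ∀ (x y : K) (h : W.toAffine.Nonsingular x y), R (Point.some x y h) → v x ≤ 1 →
        (v x < 1 ∨ v (x - 1) < 1) ∧ (v y < 1 ∨ v (y - 1) < 1))
    (Q : W.toAffine.Point) (hQR : R Q) (hQE : InE0 v Q) (hQ0 : Q ≠ 0) (hpQ : p • Q = 0) :
    False := by
  have h1 : v W.a₁ ≤ 1 := by rw [ha₁, map_one]
  have hD : v (W.a₁ ^ 2 + 4 * W.a₂) = 1 := by
    have e : W.a₁ ^ 2 + 4 * W.a₂ = 1 + 2 * (2 * W.a₂) := by rw [ha₁]; ring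
    rw [e]
    exact v.map_one_add_of_lt (gsr_mul_lt' hv2 (gsr_mul_le hv2.le h2))
  -- no nonzero multiple of `Q` lies in `E₁`
  have hE1 : ∀ k : ℕ, 0 < k → k < p → ¬ InE1 v (k • Q) := by
    intro k hk hkp hin
    exact nrt_nsmul_ne_zero hp hQ0 hpQ hk hkp
      (ge1_torsion_free v hW h1 h2 h4.le hvp hin (nrt_nsmul_nsmul hpQ k))
  have hQ2R : R (2 • Q) := by rw [two_nsmul]; exact hRadd _ _ hQR hQR
  have hQ2E : InE0 v (2 • Q) := g_E0_nsmul v hW h1 h2 h4 hQE 2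
  have hQ2n : ¬ InE1 v (2 • Q) := hE1 2 (by norm_num) (by omega)
  have hQ1n : ¬ InE1 v Q := by
    have := hE1 1 (by norm_num) (by omega)
    rwa [one_nsmul] at this
  have hQ3n : ¬ InE1 v (3 • Q) := hE1 3 (by norm_num) (by omega)
  rcases Q with _ | ⟨X, Y, h⟩
  · exact hQ0 rfl
  have hX1 : v X = 1 := le_antisymm (not_lt.mp hQ1n) hQE
  have hresQ := hRres X Y h hQR hX1.le
  have hXm : v (X - 1) < 1 := hresQ.1.resolve_left (by rw [hX1]; exact lt_irrefl _)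
  generalize hQ2 : 2 • Point.some X Y h = Q2 at hQ2R hQ2E hQ2n
  rcases Q2 with _ | ⟨X₂, Y₂, h₂⟩
  · exact hQ2n trivial
  have hX2 : v X₂ = 1 := le_antisymm (not_lt.mp hQ2n) hQ2E
  have hresQ2 := hRres X₂ Y₂ h₂ hQ2R hX2.le
  have hX2m : v (X₂ - 1) < 1 := hresQ2.1.resolve_left (by rw [hX2]; exact lt_irrefl _)
  have hXX : v (X₂ - X) < 1 := by
    have e : X₂ - X = (X₂ - 1) - (X - 1) := by ring
    rw [e]; exact v.map_sub_lt hX2m hXm
  -- same reduction: `2Q - Q ∈ E₁`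
  have hsame : ¬ v (Y₂ - Y) < 1 := by
    intro hYY
    have := gsame_reduction_unit v hW h1 h2 h4 hD h h₂ hX1 hXX hYY
    rw [← hQ2] at this
    have e : 2 • Point.some X Y h - Point.some X Y h = Point.some X Y h := by
      rw [two_nsmul]; abel
    rw [e] at this
    exact hQ1n this
  -- opposite reduction: `2Q - (-Q) ∈ E₁`
  have hopp : ¬ v (Y₂ - (-Y - W.a₁ * X)) < 1 := by
    intro hYY
    obtain ⟨hn, hneg⟩ := hW.neg_some h
    have := gsame_reduction_unit v hW h1 h2 h4 hD hn h₂ hX1 hXX hYY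
    rw [← hQ2, ← hneg] at this
    have e : 2 • Point.some X Y h - -Point.some X Y h = 3 • Point.some X Y h := by
      rw [two_nsmul, succ_nsmul, two_nsmul]; abel
    rw [e] at this
    exact hQ3n this
  rcases hresQ.2 with hY | hY <;> rcases hresQ2.2 with hY2 | hY2
  · exact hsame (v.map_sub_lt hY2 hY)
  · apply hopp
    have e : Y₂ - (-Y - W.a₁ * X) = (Y₂ - 1) + Y + (X - 1) + 2 := by rw [ha₁]; ring
    rw [e]
    exact v.map_add_lt (v.map_add_lt (v.map_add_lt hY2 hY) hXm) hv2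
  · apply hopp
    have e : Y₂ - (-Y - W.a₁ * X) = Y₂ + (Y - 1) + (X - 1) + 2 := by rw [ha₁]; ring
    rw [e]
    exact v.map_add_lt (v.map_add_lt (v.map_add_lt hY2 hY) hXm) hv2
  · apply hsame
    have e : Y₂ - Y = (Y₂ - 1) - (Y - 1) := by ring
    rw [e]; exact v.map_sub_lt hY2 hY

/-- The case of a point with `v a₄ < v x < 1`. -/
theorem nrt_GR (hW : GShape W) (hC0 : W.a₄ ≠ 0) {s : K}
    (hs : s ^ 2 + W.a₁ * s - W.a₂ = 0) (hu : v (2 * s + W.a₁) = 1)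
    {π : Γ₀} (hπ0 : π ≠ 0) (hπ1 : π < 1) {m : ℤ} (hm : v W.a₄ = π ^ m)
    {p : ℕ} (hp : p.Prime) (hp2 : p ≠ 2) (hpm : ¬ (p : ℤ) ∣ m)
    {x y : K} (h : W.toAffine.Nonsingular x y) {j : ℤ} (hj : v x = π ^ j)
    (hx : v W.a₄ < v x) (hx1 : v x < 1) (hP : p • Point.some x y h = 0) : False := by
  have hπpos : 0 < π := zero_lt_iff.mpr hπ0
  obtain ⟨k, hk⟩ := gcomp_torsion' v hW hC0 hs hu h hx hx1 hP
  rw [hj, hm, ← zpow_natCast, ← zpow_mul, ← zpow_mul] at hk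
  have hjk : j * (p : ℤ) = m * (2 * k) := (zpow_right_inj₀ hπpos hπ1.ne).mp hk
  have hj0 : 0 < j := by
    rw [hj] at hx1
    exact (zpow_lt_one_iff_right_of_lt_one₀ hπpos hπ1).mp hx1
  have hjm : j < m := by
    rw [hj, hm] at hx
    exact (zpow_lt_zpow_iff_right_of_lt_one₀ hπpos hπ1).mp hx
  have hpi : Prime (p : ℤ) := Nat.prime_iff_prime_int.mp hp
  have hdvd : (p : ℤ) ∣ m * (2 * k) := ⟨j, by rw [← hjk]; ring⟩
  have hp2' : ¬ (p : ℤ) ∣ 2 := by
    intro h2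
    have h2' : p ∣ 2 := by exact_mod_cast h2
    exact hp2 ((Nat.prime_dvd_prime_iff_eq hp Nat.prime_two).mp h2')
  have hk' : (p : ℤ) ∣ k := by
    rcases hpi.dvd_or_dvd hdvd with h' | h'
    · exact absurd h' hpm
    · rcases hpi.dvd_or_dvd h' with h'' | h''
      · exact absurd h'' hp2'
      · exact h''
  obtain ⟨k', rfl⟩ := hk'
  have hp0 : (p : ℤ) ≠ 0 := by exact_mod_cast hp.ne_zero
  have hj' : j = m * (2 * k') := by
    apply mul_right_cancel₀ hp0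
    rw [hjk]; ring
  have hm0 : 0 < m := lt_trans hj0 hjm
  rw [hj'] at hj0 hjm
  have h1 : 0 < 2 * k' := by
    by_contra hneg
    rw [not_lt] at hneg
    have : m * (2 * k') ≤ 0 := mul_nonpos_of_nonneg_of_nonpos hm0.le hneg
    exact absurd hj0 (not_lt.mpr this)
  have h2 : m * 1 ≤ m * (2 * k') := by
    apply mul_le_mul_of_nonneg_left _ hm0.le
    omega
  rw [mul_one] at h2
  exact absurd hjm (not_lt.mpr h2)

/-- **No rational point of order `p`**, abstract form. -/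
theorem nrt_abstract (hW : GShape W) (ha₁ : W.a₁ = 1) (h2 : v W.a₂ ≤ 1) (h4 : v W.a₄ < 1)
    (hC0 : W.a₄ ≠ 0) (hv2 : v (2 : K) < 1)
    {s : K} (hs : s ^ 2 + W.a₁ * s - W.a₂ = 0)
    {π : Γ₀} (hπ0 : π ≠ 0) (hπ1 : π < 1) {m : ℤ} (hm : v W.a₄ = π ^ m)
    {p : ℕ} (hp : p.Prime) (hp5 : 5 ≤ p) (hpm : ¬ (p : ℤ) ∣ m) (hvp : v (p : K) = 1)
    (R : W.toAffine.Point → Prop)
    (hRadd : ∀ P Q, R P → R Q → R (P + Q))
    (hRT : ∀ hT : W.toAffine.Nonsingular 0 0, R (Point.some 0 0 hT))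
    (hRval : ∀ (x y : K) (h : W.toAffine.Nonsingular x y), R (Point.some x y h) → x ≠ 0 →
        ∃ j : ℤ, v x = π ^ j)
    (hRres : ∀ (x y : K) (h : W.toAffine.Nonsingular x y), R (Point.some x y h) → v x ≤ 1 →
        (v x < 1 ∨ v (x - 1) < 1) ∧ (v y < 1 ∨ v (y - 1) < 1))
    (Q : W.toAffine.Point) (hQR : R Q) (hQ0 : Q ≠ 0) (hpQ : p • Q = 0) : False := by
  have h1 : v W.a₁ ≤ 1 := by rw [ha₁, map_one]
  obtain ⟨hu, hD⟩ := nrt_units v ha₁ h2 hv2 hs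
  have hT := g_nonsingular_zero hW hC0
  have h2Q0 : 2 • Q ≠ 0 := nrt_nsmul_ne_zero hp hQ0 hpQ (by norm_num) (by omega)
  have h2Qp : p • (2 • Q) = 0 := nrt_nsmul_nsmul hpQ 2
  have h2QR : R (2 • Q) := by rw [two_nsmul]; exact hRadd _ _ hQR hQR
  rcases Q with _ | ⟨X, Y, h⟩
  · exact hQ0 rfl
  by_cases hX1 : 1 ≤ v X
  · exact nrt_E0 v hW ha₁ h2 h4 hv2 hp hp5 hvp R hRadd hRres _ hQR hX1 hQ0 hpQ
  rw [not_le] at hX1
  by_cases hXC : v X ≤ v W.a₄
  · by_cases hX0 : X = 0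
    · subst hX0
      have hY0 : Y = 0 := g_eq_T_of_x_eq_zero hW h
      subst hY0
      apply h2Q0
      rw [two_nsmul]
      exact g_T_add_T hW h
    · obtain ⟨x', y', h', hsum, hx'⟩ := g_low_add_T v hW hC0 hT h hX0 hXC
      have hE : InE0 v (Point.some x' y' h' + Point.some x' y' h') :=
        g_E0_add v hW h1 h2 h4 (P₁ := Point.some x' y' h') (P₂ := Point.some x' y' h') hx' hx'
      have e : Point.some x' y' h' + Point.some x' y' h' = 2 • Point.some X Y h := by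
        rw [← hsum, add_add_add_comm, g_T_add_T hW hT, add_zero, two_nsmul]
      rw [e] at hE
      exact nrt_E0 v hW ha₁ h2 h4 hv2 hp hp5 hvp R hRadd hRres _ h2QR hE h2Q0 h2Qp
  · rw [not_le] at hXC
    have hX0 : X ≠ 0 := v.pos_iff.mp (lt_of_le_of_lt zero_le hXC)
    obtain ⟨j, hj⟩ := hRval X Y h hQR hX0
    exact nrt_GR v hW hC0 hs hu hπ0 hπ1 hm hp (by omega) hpm h hj hXC hX1 hpQ

end Fermat.Agent.S13lib
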